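import Mathlib
import Fermat.Agent.S30.Model.Main
import Fermat.Agent.S30.AuxA.GaussBC

/-!
# S36 / Haupt9 / Gauss — hypothesis (i) of the Model Theorem for the Hauptmodul `u9`

`O` a DVR with uniformiser `π`, `E = Frac O` of characteristic zero, `L` a field over `E`,
`j : L` transcendental with `L / E(j)` finite and Gauss-unramified (`Model.GaussUnram π j`).
If `u : L` satisfies

  `j * u ^ 9 * (u ^ 2 + 9 * u + 27) = (u + 9) ^ 3 * (u ^ 3 + 243 * u ^ 2 + 2187 * u + 6561) ^ 3`

(the level-9 relation of `Haupt9.jq_mul_u9`), then `u` is transcendental over `E`, `L / E(u)`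
is finite and Gauss-unramified (`Model.GaussUnram π u`).

This is the change of parameter `AuxA.GaussBC.gaussUnram_of_rel` with
`A = (X + 9) ^ 3 (X ^ 3 + 243 X ^ 2 + 2187 X + 6561) ^ 3` and `D = X ^ 9 (X ^ 2 + 9 X + 27)`,
both monic, `deg D = 11 < 12 = deg A`.  No hypothesis on the residue characteristic is needed.
Same layout as `S36/Haupt4/Gauss.lean` (level `4`, helper28).
-/

set_option autoImplicit false

namespace Fermat.Agent.S36.Haupt9

open Polynomial

section Polys

variable {O : Type*} [CommRing O]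

theorem cubicPoly_eq :
    (X ^ 3 + C (243 : O) * X ^ 2 + C (2187 : O) * X + C (6561 : O) : O[X])
      = X ^ 3 + (C (243 : O) * X ^ 2 + C (2187 : O) * X + C (6561 : O)) := by ring

theorem cubicPoly_monic :
    (X ^ 3 + C (243 : O) * X ^ 2 + C (2187 : O) * X + C (6561 : O) : O[X]).Monic := by
  rw [cubicPoly_eq]
  apply Polynomial.monic_X_pow_add
  refine lt_of_le_of_lt (Polynomial.degree_quadratic_le) ?_
  norm_num

theorem cubicPoly_natDegree [Nontrivial O] :
    (X ^ 3 + C (243 : O) * X ^ 2 + C (2187 : O) * X + C (6561 : O) : O[X]).natDegree = 3 := by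
  rw [cubicPoly_eq, Polynomial.natDegree_add_eq_left_of_degree_lt]
  · exact Polynomial.natDegree_X_pow 3
  · rw [Polynomial.degree_X_pow]
    refine lt_of_le_of_lt (Polynomial.degree_quadratic_le) ?_
    norm_num

theorem quadPoly_eq :
    (X ^ 2 + C (9 : O) * X + C (27 : O) : O[X]) = X ^ 2 + (C (9 : O) * X + C (27 : O)) := by
  ring

theorem quadPoly_monic : (X ^ 2 + C (9 : O) * X + C (27 : O) : O[X]).Monic := by
  rw [quadPoly_eq]
  apply Polynomial.monic_X_pow_add
  refine lt_of_le_of_lt (Polynomial.degree_linear_le) ?_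
  norm_num

theorem quadPoly_natDegree [Nontrivial O] : (X ^ 2 + C (9 : O) * X + C (27 : O) : O[X]).natDegree = 2 := by
  rw [quadPoly_eq, Polynomial.natDegree_add_eq_left_of_degree_lt]
  · exact Polynomial.natDegree_X_pow 2
  · rw [Polynomial.degree_X_pow]
    refine lt_of_le_of_lt (Polynomial.degree_linear_le) ?_
    norm_num

/-- The numerator `A = (X + 9)³ (X³ + 243 X² + 2187 X + 6561)³` of `j` in terms of `u₉`. -/
theorem numPoly_monic :
    ((X + C (9 : O)) ^ 3
      * (X ^ 3 + C (243 : O) * X ^ 2 + C (2187 : O) * X + C (6561 : O)) ^ 3 : O[X]).Monic :=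
  ((Polynomial.monic_X_add_C _).pow 3).mul (cubicPoly_monic.pow 3)

theorem numPoly_natDegree [Nontrivial O] :
    ((X + C (9 : O)) ^ 3
      * (X ^ 3 + C (243 : O) * X ^ 2 + C (2187 : O) * X + C (6561 : O)) ^ 3 : O[X]).natDegree
      = 12 := by
  rw [Polynomial.Monic.natDegree_mul ((Polynomial.monic_X_add_C _).pow 3) (cubicPoly_monic.pow 3),
    (Polynomial.monic_X_add_C _).natDegree_pow, cubicPoly_monic.natDegree_pow,
    Polynomial.natDegree_X_add_C, cubicPoly_natDegree]

/-- The denominator `D = X⁹ (X² + 9 X + 27)` of `j` in terms of `u₉`. -/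
theorem denPoly_monic : (X ^ 9 * (X ^ 2 + C (9 : O) * X + C (27 : O)) : O[X]).Monic :=
  (Polynomial.monic_X_pow 9).mul quadPoly_monic

theorem denPoly_natDegree [Nontrivial O] :
    (X ^ 9 * (X ^ 2 + C (9 : O) * X + C (27 : O)) : O[X]).natDegree = 11 := by
  rw [Polynomial.Monic.natDegree_mul (Polynomial.monic_X_pow 9) quadPoly_monic,
    Polynomial.natDegree_X_pow, quadPoly_natDegree]

end Polys

section Rel

variable {L : Type*} [Field L] [CharZero L]

/-- A solution `u` of the level-9 relation is not a cusp value `0`. -/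
theorem ne_zero_of_rel {j u : L}
    (hrel : j * u ^ 9 * (u ^ 2 + 9 * u + 27)
      = (u + 9) ^ 3 * (u ^ 3 + 243 * u ^ 2 + 2187 * u + 6561) ^ 3) : u ≠ 0 := by
  rintro rfl
  norm_num at hrel

/-- A solution `u` of the level-9 relation is not a root of `X² + 9X + 27`. -/
theorem quad_ne_zero_of_rel {j u : L}
    (hrel : j * u ^ 9 * (u ^ 2 + 9 * u + 27)
      = (u + 9) ^ 3 * (u ^ 3 + 243 * u ^ 2 + 2187 * u + 6561) ^ 3) :
    u ^ 2 + 9 * u + 27 ≠ 0 := by
  intro h1
  rw [h1, mul_zero] at hrel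
  have h2 : (u + 9) * (u ^ 3 + 243 * u ^ 2 + 2187 * u + 6561) = 0 := by
    have h3 : ((u + 9) * (u ^ 3 + 243 * u ^ 2 + 2187 * u + 6561)) ^ 3 = 0 := by
      rw [mul_pow]; exact hrel.symm
    exact (pow_eq_zero_iff three_ne_zero).mp h3
  rcases mul_eq_zero.mp h2 with h | h
  · have h4 : (27 : L) = 0 := by linear_combination h1 - u * h
    norm_num at h4
  · have h4 : (19683 : L) = 0 := by
      linear_combination (2916 - (u + 234) ^ 2 * (u ^ 2 + 9 * u + 27)
        + 2 * (u + 234) * (u ^ 3 + 243 * u ^ 2 + 2187 * u + 6561)) * h1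
        - (u ^ 3 + 243 * u ^ 2 + 2187 * u + 6561) * h
    norm_num at h4

end Rel

variable {O E L : Type*} [CommRing O] [IsDomain O] [IsDiscreteValuationRing O]
  [Field E] [CharZero E] [Algebra O E] [IsFractionRing O E]
  [Field L] [Algebra E L] [Algebra O L] [IsScalarTower O E L]

/-- **(G) for the level-9 Hauptmodul** `u = u9`,
`j * u ^ 9 * (u ^ 2 + 9 * u + 27) = (u + 9) ^ 3 * (u ^ 3 + 243 * u ^ 2 + 2187 * u + 6561) ^ 3`. -/
theorem gaussUnram_u9 (π : O) (hπ : Irreducible π) (j : L)
    (hj : Transcendental E j) [FiniteDimensional (IntermediateField.adjoin E {j}) L]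
    (hi : Fermat.Agent.S30.Model.GaussUnram (E := E) π j) (u : L)
    (hrel : j * u ^ 9 * (u ^ 2 + 9 * u + 27)
      = (u + 9) ^ 3 * (u ^ 3 + 243 * u ^ 2 + 2187 * u + 6561) ^ 3) :
    Transcendental E u ∧ FiniteDimensional (IntermediateField.adjoin E {u}) L ∧
      Fermat.Agent.S30.Model.GaussUnram (E := E) π u := by
  have hchar : CharZero L := charZero_of_injective_algebraMap (algebraMap E L).injective
  have hu0 : u ≠ 0 := ne_zero_of_rel hrel
  have hq : u ^ 2 + 9 * u + 27 ≠ 0 := quad_ne_zero_of_rel hrel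
  have h9 : algebraMap O L (9 : O) = 9 := map_ofNat (algebraMap O L) 9
  have h27 : algebraMap O L (27 : O) = 27 := map_ofNat (algebraMap O L) 27
  have h243 : algebraMap O L (243 : O) = 243 := map_ofNat (algebraMap O L) 243
  have h2187 : algebraMap O L (2187 : O) = 2187 := map_ofNat (algebraMap O L) 2187
  have h6561 : algebraMap O L (6561 : O) = 6561 := map_ofNat (algebraMap O L) 6561
  exact Fermat.Agent.S30.AuxA.GaussBC.gaussUnram_of_rel π hπ j u hj hi
    ((X + C (9 : O)) ^ 3
      * (X ^ 3 + C (243 : O) * X ^ 2 + C (2187 : O) * X + C (6561 : O)) ^ 3)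
    (X ^ 9 * (X ^ 2 + C (9 : O) * X + C (27 : O)))
    (by
      simp only [map_mul, map_pow, map_add, aeval_X, aeval_C, h9, h27]
      exact mul_ne_zero (pow_ne_zero 9 hu0) hq)
    (by
      simp only [map_mul, map_pow, map_add, aeval_X, aeval_C, h9, h27, h243, h2187, h6561]
      rw [← hrel]; ring)
    (Fermat.Agent.S30.AuxA.GaussBC.hred_of_monic numPoly_monic denPoly_monic
      (by rw [numPoly_natDegree, denPoly_natDegree]; norm_num))

end Fermat.Agent.S36.Haupt9
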