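import Mathlib
import Fermat.Agent.S30.AuxLevel.Haupt
import Fermat.Agent.S30.AuxLevel.Mem

/-!
# The Hauptmodul `u₉` of `Γ₀(9)` as an integral Laurent series

`x = t₃(q)`, `y = t₃(q³)` (the Hauptmodul `t₃ = (η(τ)/η(3τ))¹²` of `Γ₀(3)` and its `V₃`-twist)
satisfy the modular equation

  `y³ = x³y² + 36x²y² + 729x²y + 270xy² + 26244xy + 531441x`;

this is pure algebra on the two landed identities `j(q³) x = (x + 27)(x + 3)³`,
`j(q³) y³ = (y + 27)(y + 243)³` (the other factor of the resultant is `729 - xy`).  We put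

  `u₉ := (x²y + 18xy + 27y + 1458x) / (xy + 9y - 243x + 729)`
      (`= (η(τ)/η(9τ))³`, a fact which is never used),

an integral Laurent series `q⁻¹ + …`, defined over every commutative ring `K`, and prove

* `t3_mul_u9`      : `t₃ (u₉² + 9u₉ + 27) = u₉³`
* `t3_add_mul_u9`  : `(t₃ + 27)(u₉² + 9u₉ + 27) = (u₉ + 9)³`
* `qExpand_t3_eq`  : `t₃(q³) = u₉ (u₉² + 9u₉ + 27)`
* `qExpand_t3_add` : `t₃(q³) + 27 = (u₉ + 3)³`
* `jq_mul_u9`      : `j · u₉⁹ (u₉² + 9u₉ + 27) = (u₉ + 9)³ (u₉³ + 243u₉² + 2187u₉ + 6561)³`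
* `u9_mem_laurentBaseChange` : `u₉` lies in the level-`M` function field whenever `9 ∣ M`.

Same layout as `S36/Haupt4/Defs.lean` (level `4`, helper28).
-/

set_option autoImplicit false

noncomputable section

namespace Fermat.Agent.S36.Haupt9

open ModularCurve PowerSeries Fermat.Agent.S30.AuxLevel

/-! ### The identities in `ℤ⟦X⟧` -/

/-- The numerator of `t₃(q³) = q⁻³ · CZ`. -/
def CZ : PowerSeries ℤ := ex 3 t3Num

theorem constantCoeff_CZ : PowerSeries.constantCoeff CZ = 1 := by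
  rw [CZ, PowerSeries.constantCoeff_expand, constantCoeff_t3Num]

theorem ex3_jNum_mul_CZ_cube :
    ex 3 jNum * CZ ^ 3 = (CZ + 27 * X ^ 3) * (CZ + 243 * X ^ 3) ^ 3 := by
  have h := congrArg (ex 3) jNum_mul_t3Num_cube
  rw [map_mul, map_pow, map_mul, map_pow, map_add, map_add, map_mul, map_mul,
    PowerSeries.expand_X, map_ofNat, map_ofNat] at h
  exact h

/-- **The modular equation of level `3` for `t₃`** (homogenised in `ℤ⟦X⟧`). -/
theorem rel9 :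
    CZ ^ 3 = t3Num ^ 3 * CZ ^ 2 + 36 * X * t3Num ^ 2 * CZ ^ 2 + 729 * X ^ 4 * t3Num ^ 2 * CZ
      + 270 * X ^ 2 * t3Num * CZ ^ 2 + 26244 * X ^ 5 * t3Num * CZ + 531441 * X ^ 8 * t3Num := by
  have h1 := ex3_jNum_mul_t3Num
  have h2 := ex3_jNum_mul_CZ_cube
  have key : (CZ ^ 3 - (t3Num ^ 3 * CZ ^ 2 + 36 * X * t3Num ^ 2 * CZ ^ 2
      + 729 * X ^ 4 * t3Num ^ 2 * CZ + 270 * X ^ 2 * t3Num * CZ ^ 2
      + 26244 * X ^ 5 * t3Num * CZ + 531441 * X ^ 8 * t3Num))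
      * (729 * X ^ 4 - t3Num * CZ) = 0 := by
    linear_combination (-CZ ^ 3) * h1 + t3Num * h2
  rcases mul_eq_zero.mp key with h | h
  · exact sub_eq_zero.mp h
  · exfalso
    have h3 := congrArg (PowerSeries.constantCoeff (R := ℤ)) h
    simp [constantCoeff_t3Num, constantCoeff_CZ] at h3

/-- `q⁵ · (x²y + 18xy + 27y + 1458x)`. -/
def numZ : PowerSeries ℤ :=
  t3Num ^ 2 * CZ + 18 * X * t3Num * CZ + 27 * X ^ 2 * CZ + 1458 * X ^ 4 * t3Num

/-- `q⁴ · (xy + 9y - 243x + 729)`. -/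
def denZ : PowerSeries ℤ :=
  t3Num * CZ + 9 * X * CZ - 243 * X ^ 3 * t3Num + 729 * X ^ 4

theorem constantCoeff_numZ : PowerSeries.constantCoeff numZ = 1 := by
  simp [numZ, constantCoeff_t3Num, constantCoeff_CZ]

theorem constantCoeff_denZ : PowerSeries.constantCoeff denZ = ((1 : ℤˣ) : ℤ) := by
  simp [denZ, constantCoeff_t3Num, constantCoeff_CZ]

theorem denZ_ne_zero : denZ ≠ 0 := by
  intro h
  have h3 := congrArg (PowerSeries.constantCoeff (R := ℤ)) h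
  rw [constantCoeff_denZ] at h3
  simp at h3

/-- The numerator of `u₉ = q⁻¹ · u9Num`. -/
def u9Num : PowerSeries ℤ := numZ * PowerSeries.invOfUnit denZ 1

theorem u9Num_mul : u9Num * denZ = numZ := by
  rw [u9Num, mul_assoc, mul_comm (PowerSeries.invOfUnit _ _),
    PowerSeries.mul_invOfUnit _ _ constantCoeff_denZ, mul_one]

theorem constantCoeff_u9Num : PowerSeries.constantCoeff u9Num = 1 := by
  simp [u9Num, constantCoeff_numZ, PowerSeries.constantCoeff_invOfUnit]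

/-- `t₃ (u₉² + 9u₉ + 27) = u₉³`. -/
theorem t3Num_mul_u9Num :
    t3Num * (u9Num ^ 2 + 9 * X * u9Num + 27 * X ^ 2) = u9Num ^ 3 := by
  have hU : u9Num * (t3Num * CZ + 9 * X * CZ - 243 * X ^ 3 * t3Num + 729 * X ^ 4)
      = t3Num ^ 2 * CZ + 18 * X * t3Num * CZ + 27 * X ^ 2 * CZ + 1458 * X ^ 4 * t3Num :=
    u9Num_mul
  have hr := rel9
  have key : (t3Num * CZ + 9 * X * CZ - 243 * X ^ 3 * t3Num + 729 * X ^ 4) ^ 3
      * (t3Num * (u9Num ^ 2 + 9 * X * u9Num + 27 * X ^ 2) - u9Num ^ 3) = 0 := by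
    linear_combination
      (t3Num * (t3Num * CZ + 9 * X * CZ - 243 * X ^ 3 * t3Num + 729 * X ^ 4)
          * (u9Num * (t3Num * CZ + 9 * X * CZ - 243 * X ^ 3 * t3Num + 729 * X ^ 4)
            + (t3Num ^ 2 * CZ + 18 * X * t3Num * CZ + 27 * X ^ 2 * CZ + 1458 * X ^ 4 * t3Num)
            + 9 * X * (t3Num * CZ + 9 * X * CZ - 243 * X ^ 3 * t3Num + 729 * X ^ 4))
        - ((u9Num * (t3Num * CZ + 9 * X * CZ - 243 * X ^ 3 * t3Num + 729 * X ^ 4)) ^ 2
          + (u9Num * (t3Num * CZ + 9 * X * CZ - 243 * X ^ 3 * t3Num + 729 * X ^ 4))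
            * (t3Num ^ 2 * CZ + 18 * X * t3Num * CZ + 27 * X ^ 2 * CZ + 1458 * X ^ 4 * t3Num)
          + (t3Num ^ 2 * CZ + 18 * X * t3Num * CZ + 27 * X ^ 2 * CZ + 1458 * X ^ 4 * t3Num) ^ 2))
        * hU
      + (243 * X ^ 3 * t3Num ^ 3 + 5103 * X ^ 4 * t3Num ^ 2 + 6561 * X ^ 5 * t3Num
          - 19683 * X ^ 6) * hr
  rcases mul_eq_zero.mp key with h | h
  · exact absurd ((pow_eq_zero_iff three_ne_zero).mp h) denZ_ne_zero
  · exact sub_eq_zero.mp h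

/-- `t₃(q³) = u₉ (u₉² + 9u₉ + 27)`. -/
theorem CZ_eq : CZ = u9Num * (u9Num ^ 2 + 9 * X * u9Num + 27 * X ^ 2) := by
  have hU : u9Num * (t3Num * CZ + 9 * X * CZ - 243 * X ^ 3 * t3Num + 729 * X ^ 4)
      = t3Num ^ 2 * CZ + 18 * X * t3Num * CZ + 27 * X ^ 2 * CZ + 1458 * X ^ 4 * t3Num :=
    u9Num_mul
  have hr := rel9
  have key : (t3Num * CZ + 9 * X * CZ - 243 * X ^ 3 * t3Num + 729 * X ^ 4) ^ 3
      * (CZ - u9Num * (u9Num ^ 2 + 9 * X * u9Num + 27 * X ^ 2)) = 0 := by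
    linear_combination
      (-(((u9Num * (t3Num * CZ + 9 * X * CZ - 243 * X ^ 3 * t3Num + 729 * X ^ 4)) ^ 2
          + (u9Num * (t3Num * CZ + 9 * X * CZ - 243 * X ^ 3 * t3Num + 729 * X ^ 4))
            * (t3Num ^ 2 * CZ + 18 * X * t3Num * CZ + 27 * X ^ 2 * CZ + 1458 * X ^ 4 * t3Num)
          + (t3Num ^ 2 * CZ + 18 * X * t3Num * CZ + 27 * X ^ 2 * CZ + 1458 * X ^ 4 * t3Num) ^ 2)
        + 9 * X * (t3Num * CZ + 9 * X * CZ - 243 * X ^ 3 * t3Num + 729 * X ^ 4)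
          * (u9Num * (t3Num * CZ + 9 * X * CZ - 243 * X ^ 3 * t3Num + 729 * X ^ 4)
            + (t3Num ^ 2 * CZ + 18 * X * t3Num * CZ + 27 * X ^ 2 * CZ + 1458 * X ^ 4 * t3Num))
        + 27 * X ^ 2 * (t3Num * CZ + 9 * X * CZ - 243 * X ^ 3 * t3Num + 729 * X ^ 4) ^ 2))
        * hU
      + (t3Num ^ 3 * CZ + 27 * X * t3Num ^ 2 * CZ + 1458 * X ^ 4 * t3Num ^ 2
          + 243 * X ^ 2 * t3Num * CZ + 729 * X ^ 3 * CZ + 39366 * X ^ 6) * hr
  rcases mul_eq_zero.mp key with h | h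
  · exact absurd ((pow_eq_zero_iff three_ne_zero).mp h) denZ_ne_zero
  · exact sub_eq_zero.mp h

/-- `(t₃ + 27)(u₉² + 9u₉ + 27) = (u₉ + 9)³`. -/
theorem t3Num_add_mul :
    (t3Num + 27 * X) * (u9Num ^ 2 + 9 * X * u9Num + 27 * X ^ 2) = (u9Num + 9 * X) ^ 3 := by
  linear_combination t3Num_mul_u9Num

/-- `t₃(q³) + 27 = (u₉ + 3)³`. -/
theorem CZ_add : CZ + 27 * X ^ 3 = (u9Num + 3 * X) ^ 3 := by
  linear_combination CZ_eq

/-- `j · u₉⁹ (u₉² + 9u₉ + 27) = (u₉ + 9)³ (u₉³ + 243u₉² + 2187u₉ + 6561)³`. -/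
theorem jNum_mul_u9Num :
    jNum * u9Num ^ 9 * (u9Num ^ 2 + 9 * X * u9Num + 27 * X ^ 2)
      = (u9Num + 9 * X) ^ 3
        * (u9Num ^ 3 + 243 * X * u9Num ^ 2 + 2187 * X ^ 2 * u9Num + 6561 * X ^ 3) ^ 3 := by
  have h5 : u9Num ^ 3 = t3Num * (u9Num ^ 2 + 9 * X * u9Num + 27 * X ^ 2) :=
    t3Num_mul_u9Num.symm
  have hj := jNum_mul_t3Num_cube
  have h27 := t3Num_add_mul
  calc jNum * u9Num ^ 9 * (u9Num ^ 2 + 9 * X * u9Num + 27 * X ^ 2)
      = jNum * (u9Num ^ 3) ^ 3 * (u9Num ^ 2 + 9 * X * u9Num + 27 * X ^ 2) := by ring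
    _ = jNum * (t3Num * (u9Num ^ 2 + 9 * X * u9Num + 27 * X ^ 2)) ^ 3
          * (u9Num ^ 2 + 9 * X * u9Num + 27 * X ^ 2) := by rw [h5]
    _ = (jNum * t3Num ^ 3) * (u9Num ^ 2 + 9 * X * u9Num + 27 * X ^ 2) ^ 4 := by ring
    _ = ((t3Num + 27 * X) * (t3Num + 243 * X) ^ 3)
          * (u9Num ^ 2 + 9 * X * u9Num + 27 * X ^ 2) ^ 4 := by rw [hj]
    _ = ((t3Num + 27 * X) * (u9Num ^ 2 + 9 * X * u9Num + 27 * X ^ 2))
          * (t3Num * (u9Num ^ 2 + 9 * X * u9Num + 27 * X ^ 2)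
            + 243 * X * (u9Num ^ 2 + 9 * X * u9Num + 27 * X ^ 2)) ^ 3 := by ring
    _ = (u9Num + 9 * X) ^ 3
          * (u9Num ^ 3 + 243 * X * (u9Num ^ 2 + 9 * X * u9Num + 27 * X ^ 2)) ^ 3 := by
        rw [h27, ← h5]
    _ = (u9Num + 9 * X) ^ 3
        * (u9Num ^ 3 + 243 * X * u9Num ^ 2 + 2187 * X ^ 2 * u9Num + 6561 * X ^ 3) ^ 3 := by
        ring

/-! ### Laurent series over an arbitrary commutative ring -/

section Laurent

variable (K : Type*) [CommRing K]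

/-- The Hauptmodul `u₉` of `Γ₀(9)`, as a Laurent series `q⁻¹ + …` over `K`. -/
def u9 : LaurentSeries K := xinv K * em K u9Num

theorem qExpand_t3 : qExpand K 3 (t3 K) = xinv K ^ 3 * em K CZ := by
  rw [t3, map_mul, qExpand_xinv, qExpand_em, CZ]


/-- `t₃ (u₉² + 9u₉ + 27) = u₉³`. -/
theorem t3_mul_u9 : t3 K * (u9 K ^ 2 + 9 * u9 K + 27) = u9 K ^ 3 := by
  have h := congrArg (em K) t3Num_mul_u9Num
  simp only [map_mul, map_add, map_pow, map_ofNat] at h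
  have hx := xinv_mul_em_X K
  rw [t3, u9]
  linear_combination xinv K ^ 3 * h
    + (-27 * xinv K ^ 2 * em K X * em K t3Num - 9 * xinv K ^ 2 * em K t3Num * em K u9Num
        - 27 * xinv K * em K t3Num) * hx

/-- `(t₃ + 27)(u₉² + 9u₉ + 27) = (u₉ + 9)³`. -/
theorem t3_add_mul_u9 : (t3 K + 27) * (u9 K ^ 2 + 9 * u9 K + 27) = (u9 K + 9) ^ 3 := by
  linear_combination t3_mul_u9 K

/-- `t₃(q³) = u₉ (u₉² + 9u₉ + 27)`. -/
theorem qExpand_t3_eq : qExpand K 3 (t3 K) = u9 K * (u9 K ^ 2 + 9 * u9 K + 27) := by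
  have h := congrArg (em K) CZ_eq
  simp only [map_mul, map_add, map_pow, map_ofNat] at h
  have hx := xinv_mul_em_X K
  rw [qExpand_t3, u9]
  linear_combination xinv K ^ 3 * h
    + (27 * xinv K ^ 2 * em K X * em K u9Num + 9 * xinv K ^ 2 * em K u9Num ^ 2
        + 27 * xinv K * em K u9Num) * hx

/-- `t₃(q³) + 27 = (u₉ + 3)³`. -/
theorem qExpand_t3_add : qExpand K 3 (t3 K) + 27 = (u9 K + 3) ^ 3 := by
  linear_combination qExpand_t3_eq K

/-- The denominator `xy + 9y - 243x + 729` is `q⁻⁴ · denZ`. -/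
theorem den_eq :
    t3 K * qExpand K 3 (t3 K) + 9 * qExpand K 3 (t3 K) - 243 * t3 K + 729
      = xinv K ^ 4 * em K denZ := by
  have hx := xinv_mul_em_X K
  rw [qExpand_t3, t3, denZ]
  simp only [map_mul, map_add, map_sub, map_pow, map_ofNat]
  linear_combination
    (-729 * xinv K ^ 3 * em K X ^ 3 + 243 * xinv K ^ 3 * em K X ^ 2 * em K t3Num
      - 9 * xinv K ^ 3 * em K CZ - 729 * xinv K ^ 2 * em K X ^ 2
      + 243 * xinv K ^ 2 * em K X * em K t3Num - 729 * xinv K * em K X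
      + 243 * xinv K * em K t3Num - 729) * hx

/-- The numerator `x²y + 18xy + 27y + 1458x` is `q⁻⁵ · numZ`. -/
theorem num_eq :
    t3 K ^ 2 * qExpand K 3 (t3 K) + 18 * t3 K * qExpand K 3 (t3 K) + 27 * qExpand K 3 (t3 K)
        + 1458 * t3 K
      = xinv K ^ 5 * em K numZ := by
  have hx := xinv_mul_em_X K
  rw [qExpand_t3, t3, numZ]
  simp only [map_mul, map_add, map_pow, map_ofNat]
  linear_combination
    (-1458 * xinv K ^ 4 * em K X ^ 3 * em K t3Num - 27 * xinv K ^ 4 * em K X * em K CZ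
      - 18 * xinv K ^ 4 * em K t3Num * em K CZ - 1458 * xinv K ^ 3 * em K X ^ 2 * em K t3Num
      - 27 * xinv K ^ 3 * em K CZ - 1458 * xinv K ^ 2 * em K X * em K t3Num
      - 1458 * xinv K * em K t3Num) * hx

/-- `u₉ (xy + 9y - 243x + 729) = x²y + 18xy + 27y + 1458x`: the definition of `u₉`. -/
theorem u9_mul_den :
    u9 K * (t3 K * qExpand K 3 (t3 K) + 9 * qExpand K 3 (t3 K) - 243 * t3 K + 729)
      = t3 K ^ 2 * qExpand K 3 (t3 K) + 18 * t3 K * qExpand K 3 (t3 K)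
        + 27 * qExpand K 3 (t3 K) + 1458 * t3 K := by
  have h := congrArg (em K) u9Num_mul
  rw [map_mul] at h
  rw [den_eq, num_eq, u9]
  linear_combination xinv K ^ 5 * h

/-- `j · u₉⁹ (u₉² + 9u₉ + 27) = (u₉ + 9)³ (u₉³ + 243u₉² + 2187u₉ + 6561)³`. -/
theorem jq_mul_u9 :
    jqModC K * u9 K ^ 9 * (u9 K ^ 2 + 9 * u9 K + 27)
      = (u9 K + 9) ^ 3 * (u9 K ^ 3 + 243 * u9 K ^ 2 + 2187 * u9 K + 6561) ^ 3 := by
  have h := congrArg (em K) jNum_mul_u9Num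
  simp only [map_mul, map_add, map_pow, map_ofNat] at h
  have hx := xinv_mul_em_X K
  rw [jqModC_eq, u9]
  have e1 : (xinv K * em K u9Num) ^ 2 + 9 * (xinv K * em K u9Num) + 27
      = xinv K ^ 2 * (em K u9Num ^ 2 + 9 * em K X * em K u9Num + 27 * em K X ^ 2) := by
    linear_combination (-9 * xinv K * em K u9Num - 27 * (xinv K * em K X + 1)) * hx
  have e2 : xinv K * em K u9Num + 9 = xinv K * (em K u9Num + 9 * em K X) := by
    linear_combination (-9 : LaurentSeries K) * hx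
  have e3 : (xinv K * em K u9Num) ^ 3 + 243 * (xinv K * em K u9Num) ^ 2
        + 2187 * (xinv K * em K u9Num) + 6561
      = xinv K ^ 3 * (em K u9Num ^ 3 + 243 * em K X * em K u9Num ^ 2
          + 2187 * em K X ^ 2 * em K u9Num + 6561 * em K X ^ 3) := by
    linear_combination (-243 * xinv K ^ 2 * em K u9Num ^ 2
      - 2187 * xinv K * em K u9Num * (xinv K * em K X + 1)
      - 6561 * ((xinv K * em K X) ^ 2 + xinv K * em K X + 1)) * hx
  rw [e1, e2, e3]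
  linear_combination xinv K ^ 12 * h

variable {K} in
theorem coeffMap_u9 {K' : Type*} [CommRing K'] (f : K →+* K') :
    coeffMap f (u9 K) = u9 K' := by
  rw [u9, map_mul, coeffMap_xinv, coeffMap_em, u9]

theorem coeff_u9_neg_one : (u9 K).coeff (-1) = 1 := by
  rw [u9, coeff_xinv_mul_em, neg_add_cancel, em_apply,
    show (0 : ℤ) = ((0 : ℕ) : ℤ) from rfl, HahnSeries.ofPowerSeries_apply_coeff,
    PowerSeries.coeff_map, PowerSeries.coeff_zero_eq_constantCoeff_apply, constantCoeff_u9Num]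
  simp

theorem coeff_u9_of_lt {k : ℤ} (hk : k < -1) : (u9 K).coeff k = 0 := by
  rw [u9, coeff_xinv_mul_em, em_apply]
  exact ofPowerSeries_coeff_of_neg _ (by omega)

/-- The denominator of `u₉` does not vanish. -/
theorem den_ne_zero [Nontrivial K] :
    t3 K * qExpand K 3 (t3 K) + 9 * qExpand K 3 (t3 K) - 243 * t3 K + 729 ≠ 0 := by
  intro h
  rw [den_eq] at h
  have hx := xinv_mul_em_X K
  have h1 : em K denZ = 0 := by
    linear_combination em K X ^ 4 * h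
      - (em K denZ * ((xinv K * em K X) ^ 3 + (xinv K * em K X) ^ 2 + xinv K * em K X + 1)) * hx
  have h2 := congrArg (fun z : LaurentSeries K => z.coeff 0) h1
  simp only [HahnSeries.coeff_zero] at h2
  rw [em_apply, show (0 : ℤ) = ((0 : ℕ) : ℤ) from rfl, HahnSeries.ofPowerSeries_apply_coeff,
    PowerSeries.coeff_map, PowerSeries.coeff_zero_eq_constantCoeff_apply, constantCoeff_denZ] at h2
  simp at h2

end Laurent

/-! ### Membership in the modular function fields -/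

/-- `u₉ ∈ ℚ(j(q^d) : d ∣ 9)`. -/
theorem u9_mem : u9 ℚ ∈ modularFunctionFieldFull 9 := by
  have h2 : t3 ℚ ∈ modularFunctionFieldFull 9 := t3_mem_full (by norm_num)
  have h3 : qExpand ℚ 3 (t3 ℚ) ∈ modularFunctionFieldFull 9 := by
    have h4 : qExpandₐ 3 (t3 ℚ) ∈ (modularFunctionFieldFull 3).map (qExpandₐ 3) :=
      ⟨t3 ℚ, t3_mem, rfl⟩
    exact full_degeneracy_map_le (N := 3) 3 h4
  have hne := den_ne_zero ℚ
  have h5 : u9 ℚ = (t3 ℚ ^ 2 * qExpand ℚ 3 (t3 ℚ) + 18 * t3 ℚ * qExpand ℚ 3 (t3 ℚ)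
      + 27 * qExpand ℚ 3 (t3 ℚ) + 1458 * t3 ℚ)
      / (t3 ℚ * qExpand ℚ 3 (t3 ℚ) + 9 * qExpand ℚ 3 (t3 ℚ) - 243 * t3 ℚ + 729) := by
    rw [eq_div_iff hne]
    exact u9_mul_den ℚ
  rw [h5]
  refine div_mem ?_ ?_
  · exact add_mem (add_mem (add_mem (mul_mem (pow_mem h2 2) h3)
      (mul_mem (mul_mem (ofNat_mem _ 18) h2) h3)) (mul_mem (ofNat_mem _ 27) h3))
      (mul_mem (ofNat_mem _ 1458) h2)
  · exact add_mem (sub_mem (add_mem (mul_mem h2 h3) (mul_mem (ofNat_mem _ 9) h3))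
      (mul_mem (ofNat_mem _ 243) h2)) (ofNat_mem _ 729)

theorem u9_mem_full {M : ℕ} [NeZero M] (h : 9 ∣ M) : u9 ℚ ∈ modularFunctionFieldFull M :=
  full_degeneracy_le h u9_mem

section Field

variable (L : Type*) [Field L] [Algebra ℚ L]

theorem coeffEmb_u9 : coeffEmb L (u9 ℚ) = u9 L := coeffMap_u9 _

/-- `u₉` lies in the level-`M` function field over `L` whenever `9 ∣ M`. -/
theorem u9_mem_laurentBaseChange {M : ℕ} [NeZero M] (h : 9 ∣ M) :
    u9 L ∈ laurentBaseChange L (modularFunctionFieldFull M) := by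
  rw [← coeffEmb_u9]
  exact coeffEmb_mem_laurentBaseChange L (u9_mem_full h)

end Field

end Fermat.Agent.S36.Haupt9
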