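import Mathlib
import Fermat.Agent.S30.Haupt.Horiz
import Fermat.Agent.S36.Haupt9.Defs
import Fermat.Agent.S36.Haupt9.Gauss

/-!
# S36 / Haupt9 / Horiz — Model inputs (T) and (ii) for the Hauptmodul base `u = u₉`

`E ⊆ ℚ̄` ANY intermediate field, `M` a level with `9 ∣ M`,
`L_E = laurentBaseChange E (modularFunctionFieldFull M) ⊆ E((q))` (`= S18.K1Defs.LE M E`).

* `u9F M h : F_M`, `u9E M E h : L_E` : the Hauptmodul `u₉` of `Γ₀(9)` as an element of the
  level-`M` function field over `ℚ̄`, resp. over `E`;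
* `ord_u9F_sub_eq_one` : **`F_M / ℚ̄(u₉)` is unramified outside `u₉ ∈ {0, w, w', ∞}`**, `w, w'`
  the roots of `X² + 9X + 27` (place form).  Proof: tower `ℚ̄(t₃) ⊆ ℚ̄(u₉) ⊆ F_M` with
  `t₃ (u₉² + 9u₉ + 27) = u₉³`; the map `u₉ ↦ t₃` is unramified outside `u₉ ∈ {0, -9, w, w', ∞}`
  (`Horiz.ord_t3_sub_eq_one` then gives the claim), and at `u₉ = -9` (over `t₃ = -27`, over
  `j = 0`) one has `(t₃ + 27)(u₉² + 9u₉ + 27) = (u₉ + 9)³` and `ord (t₃ + 27) = ord j ∣ 3`;
* `transcendental_u9E`, `jE_mul_u9E`, `finiteDimensional_u9E`;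
* `ord_aeval_u9_eq_one`, `horizUnram_u9` : `Model.HorizUnram S u₉` as soon as `S` contains `0`
  and two elements `c, c'` with `c + c' = -9`, `c c' = 27`.

Same layout as `S30/Haupt/HorizThree.lean`.
-/

set_option autoImplicit false

noncomputable section

namespace Fermat.Agent.S36.Haupt9

open AlgebraicCurve Polynomial ModularCurve
open Fermat.Agent.S24.Modular Fermat.Agent.S24.FF

set_option synthInstance.maxHeartbeats 400000
set_option maxHeartbeats 1000000

local notation "Qb" => AlgebraicClosure ℚ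

/-! ### Polynomial identities (any field) -/

section Identities

variable {F : Type*} [Field F]

/-- Taylor expansion of `U³ D - B³ (U² + 9U + 27)` at `U = B` (`D = B² + 9B + 27`). -/
theorem key_generic9 (T U B b D c0 c1 : F) (hT : T * (U ^ 2 + 9 * U + 27) = U ^ 3)
    (hb : b * D = B ^ 3) (hD : D = B ^ 2 + 9 * B + 27) (h0 : c0 = B ^ 2 * (B + 9) ^ 2)
    (h1 : c1 = 2 * B ^ 3 + 27 * B ^ 2 + 81 * B) :
    (T - b) * (U ^ 2 + 9 * U + 27) * D = (U - B) * (c0 + (U - B) * (c1 + D * (U - B))) := by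
  subst hD h0 h1
  linear_combination (B ^ 2 + 9 * B + 27) * hT - (U ^ 2 + 9 * U + 27) * hb

/-- `U² + 9U + 27` expanded at `U = B`. -/
theorem quad_expand9 (U B c d : F) (hc : c = B ^ 2 + 9 * B + 27) (hd : d = 2 * B + 9) :
    U ^ 2 + 9 * U + 27 = c + (U - B) * (d + (U - B)) := by
  subst hc hd
  ring

end Identities

/-! ### The element `u₉` of `F_M` -/

variable (M : ℕ) [NeZero M]

/-- `u₉` as an element of the function field of `X₀(M)` over `ℚ̄` (`9 ∣ M`). -/
def u9F (h : 9 ∣ M) : FN M := ⟨u9 Kbar, u9_mem_laurentBaseChange Kbar h⟩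

@[simp] theorem coe_u9F (h : 9 ∣ M) : ((u9F M h : FN M) : LaurentSeries Kbar) = u9 Kbar := rfl

theorem three_dvd_of_nine_dvd {M : ℕ} (h : 9 ∣ M) : 3 ∣ M := Dvd.dvd.trans (by norm_num) h

/-- `t₃ (u₉² + 9u₉ + 27) = u₉³` in `F_M`. -/
theorem h3F_mul_u9F (h : 9 ∣ M) :
    Fermat.Agent.S30.Haupt.BranchThree.h3F M (three_dvd_of_nine_dvd h)
        * (u9F M h ^ 2 + 9 * u9F M h + 27) = u9F M h ^ 3 := by
  apply Subtype.ext
  have h2 : ((Fermat.Agent.S30.Haupt.BranchThree.h3F M (three_dvd_of_nine_dvd h)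
      * (u9F M h ^ 2 + 9 * u9F M h + 27) : FN M) : LaurentSeries Kbar)
      = ((Fermat.Agent.S30.Haupt.BranchThree.h3F M (three_dvd_of_nine_dvd h) : FN M) :
          LaurentSeries Kbar) * (u9 Kbar ^ 2 + 9 * u9 Kbar + 27) := rfl
  have h3 : ((u9F M h ^ 3 : FN M) : LaurentSeries Kbar) = u9 Kbar ^ 3 := rfl
  rw [h2, h3, Fermat.Agent.S30.Haupt.Horiz.coe_h3F_eq]
  exact t3_mul_u9 Kbar

/-- `u₉` is transcendental over `ℚ̄`. -/
theorem transcendental_u9F (h : 9 ∣ M) : Transcendental Kbar (u9F M h) := by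
  intro hal
  have hx' : IsAlgebraic Kbar ((u9F M h : FN M) : LaurentSeries Kbar) :=
    hal.algebraMap (A := LaurentSeries Kbar)
  obtain ⟨c, hc⟩ := Fermat.Agent.S30.Inst.exists_C_eq_of_isAlgebraic _ hx'
  have h1 := congrArg (fun x : LaurentSeries Kbar => x.coeff (-1)) hc
  simp only [coe_u9F, coeff_u9_neg_one] at h1
  rw [HahnSeries.C_apply, HahnSeries.coeff_single_of_ne (by norm_num)] at h1
  exact one_ne_zero h1

/-- `u₉` is not a constant. -/
theorem u9F_not_const (h : 9 ∣ M) (a : Kbar) : u9F M h ≠ algebraMap Kbar (FN M) a := by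
  intro hs
  apply transcendental_u9F M h
  rw [hs]
  exact isAlgebraic_algebraMap a

/-- **`F_M / ℚ̄(u₉)` is unramified outside `u₉ ∈ {0, w, w', ∞}`**, `w, w'` the roots of
`X² + 9X + 27` (place form). -/
theorem ord_u9F_sub_eq_one (h : 9 ∣ M) (β : Kbar) (h0 : β ≠ 0) (h1 : β ^ 2 + 9 * β + 27 ≠ 0)
    (v : Place Kbar (FN M)) (hv : 0 < v.ord (u9F M h - algebraMap Kbar (FN M) β)) :
    v.ord (u9F M h - algebraMap Kbar (FN M) β) = 1 := by
  have h3M : 3 ∣ M := three_dvd_of_nine_dvd h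
  set U := u9F M h with hU
  set B := algebraMap Kbar (FN M) β with hB
  set T := Fermat.Agent.S30.Haupt.BranchThree.h3F M h3M with hT
  have hrel : T * (U ^ 2 + 9 * U + 27) = U ^ 3 := h3F_mul_u9F M h
  have ht0 : U - B ≠ 0 := Fermat.Agent.S30.Haupt.BranchTwo.ne_zero_of_ord_pos v hv
  have htV : U - B ∈ v.toValuationSubring := mem_of_ord_pos v hv
  have hAV (c : Kbar) : algebraMap Kbar (FN M) c ∈ v.toValuationSubring := v.algebraMap_mem' c
  -- `v(U² + 9U + 27) = 0`
  have hQ : U ^ 2 + 9 * U + 27 ≠ 0 ∧ v.ord (U ^ 2 + 9 * U + 27) = 0 := by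
    have h2 := Fermat.Agent.S30.Haupt.BranchTwo.ord_const_add v (β ^ 2 + 9 * β + 27) h1 (U - B)
      (algebraMap Kbar (FN M) (2 * β + 9) + (U - B)) hv (add_mem (hAV _) htV)
    have h3 : U ^ 2 + 9 * U + 27 = algebraMap Kbar (FN M) (β ^ 2 + 9 * β + 27)
        + (U - B) * (algebraMap Kbar (FN M) (2 * β + 9) + (U - B)) := by
      refine quad_expand9 U B _ _ ?_ ?_
      · simp only [map_add, map_mul, map_pow, map_ofNat, hB]
      · simp only [map_add, map_mul, map_ofNat, hB]
    rwa [← h3] at h2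
  by_cases hc : β + 9 = 0
  · -- the point `u₉ = -9` over `t₃ = -27` over `j = 0`
    have hB9 : U + 9 = U - B := by
      have h2 : B = -9 := by
        have := congrArg (algebraMap Kbar (FN M)) (eq_neg_of_add_eq_zero_left hc)
        rwa [map_neg, map_ofNat] at this
      rw [h2]; ring
    have hT27 : (T + 27) * (U ^ 2 + 9 * U + 27) = (U - B) ^ 3 := by
      rw [← hB9]; linear_combination hrel
    have hT27ne : T + 27 ≠ 0 := by
      intro hz
      rw [hz, zero_mul] at hT27
      exact pow_ne_zero 3 ht0 hT27.symm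
    have hord1 : v.ord (T + 27) = 3 * v.ord (U - B) := by
      have hord := congrArg v.ord hT27
      rw [v.ord_mul hT27ne hQ.1, hQ.2, Fermat.Agent.S30.Haupt.BranchTwo.ord_pow'] at hord
      push_cast at hord
      omega
    have hT27pos : 0 < v.ord (T + 27) := by omega
    -- `v(T) = 0`, `v(T + 243) = 0`
    have hTu : T ≠ 0 ∧ v.ord T = 0 := by
      have h2 := Fermat.Agent.S30.Haupt.BranchTwo.ord_const_add v (-27 : Kbar) (by norm_num)
        (T + 27) 1 hT27pos (one_mem _)
      have h3 : algebraMap Kbar (FN M) (-27) + (T + 27) * 1 = T := by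
        rw [map_neg, map_ofNat]; ring
      rwa [h3] at h2
    have hT243 : T + 243 ≠ 0 ∧ v.ord (T + 243) = 0 := by
      have h2 := Fermat.Agent.S30.Haupt.BranchTwo.ord_const_add v (216 : Kbar) (by norm_num)
        (T + 27) 1 hT27pos (one_mem _)
      have h3 : algebraMap Kbar (FN M) 216 + (T + 27) * 1 = T + 243 := by
        rw [map_ofNat]; ring
      rwa [h3] at h2
    have hJ : jF M * T ^ 3 = (T + 27) * (T + 243) ^ 3 :=
      Fermat.Agent.S30.Haupt.BranchThree.jF_mul_h3F M h3M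
    have hJ0 : jF M ≠ 0 := by
      intro hz
      rw [hz, zero_mul] at hJ
      exact (mul_ne_zero hT27ne (pow_ne_zero 3 hT243.1)) hJ.symm
    have hordJ : v.ord (jF M) = v.ord (T + 27) := by
      have hord := congrArg v.ord hJ
      rw [v.ord_mul hJ0 (pow_ne_zero 3 hTu.1), Fermat.Agent.S30.Haupt.BranchTwo.ord_pow',
        hTu.2, v.ord_mul hT27ne (pow_ne_zero 3 hT243.1),
        Fermat.Agent.S30.Haupt.BranchTwo.ord_pow', hT243.2] at hord
      push_cast at hord
      omega
    have hJpos : 0 < v.ord (jF M) := by omega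
    have hdvd := Fermat.Agent.S30.Ramif.ord_zero_dvd M v hJpos
    have hle := Int.le_of_dvd (by norm_num) hdvd
    omega
  · -- generic point: `t₃ - b` is a uniformiser times a unit
    set D : Kbar := β ^ 2 + 9 * β + 27 with hD
    set b : Kbar := β ^ 3 / D with hb
    have hbD : b * D = β ^ 3 := by rw [hb]; field_simp
    have hb0 : b ≠ 0 := div_ne_zero (pow_ne_zero 3 h0) h1
    have hb27 : b ≠ -27 := by
      intro hz
      rw [hz] at hbD
      have h2 : (β + 9) ^ 3 = 0 := by rw [hD] at hbD; linear_combination -hbD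
      exact hc ((pow_eq_zero_iff three_ne_zero).mp h2)
    have hbDF : algebraMap Kbar (FN M) b * algebraMap Kbar (FN M) D = B ^ 3 := by
      rw [← map_mul, hbD, map_pow]
    have key : (T - algebraMap Kbar (FN M) b) * (U ^ 2 + 9 * U + 27) * algebraMap Kbar (FN M) D
        = (U - B) * (algebraMap Kbar (FN M) (β ^ 2 * (β + 9) ^ 2)
          + (U - B) * (algebraMap Kbar (FN M) (2 * β ^ 3 + 27 * β ^ 2 + 81 * β)
            + algebraMap Kbar (FN M) D * (U - B))) := by
      refine key_generic9 T U B _ _ _ _ hrel hbDF ?_ ?_ ?_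
      · simp only [hD, map_add, map_mul, map_pow, map_ofNat, hB]
      · simp only [map_add, map_mul, map_pow, map_ofNat, hB]
      · simp only [map_add, map_mul, map_pow, map_ofNat, hB]
    have hDF0 : algebraMap Kbar (FN M) D ≠ 0 := (_root_.map_ne_zero _).mpr h1
    obtain ⟨hC0, hCord⟩ := Fermat.Agent.S30.Haupt.BranchTwo.ord_const_add v
      (β ^ 2 * (β + 9) ^ 2) (mul_ne_zero (pow_ne_zero 2 h0) (pow_ne_zero 2 hc)) (U - B)
      (algebraMap Kbar (FN M) (2 * β ^ 3 + 27 * β ^ 2 + 81 * β)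
            + algebraMap Kbar (FN M) D * (U - B)) hv
      (add_mem (hAV _) (mul_mem (hAV _) htV))
    have hTb0 : T - algebraMap Kbar (FN M) b ≠ 0 := by
      intro hz
      rw [hz, zero_mul, zero_mul] at key
      exact (mul_ne_zero ht0 hC0) key.symm
    have hord := congrArg v.ord key
    rw [v.ord_mul (mul_ne_zero hTb0 hQ.1) hDF0, v.ord_mul hTb0 hQ.1, hQ.2, ord_algebraMap,
      v.ord_mul ht0 hC0, hCord] at hord
    have hTpos : 0 < v.ord (T - algebraMap Kbar (FN M) b) := by omega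
    have h1' : v.ord (T - algebraMap Kbar (FN M) b) = 1 :=
      Fermat.Agent.S30.Haupt.Horiz.ord_t3_sub_eq_one M h3M T
        (Fermat.Agent.S30.Haupt.Horiz.coe_h3F_eq M h3M) b hb0 hb27 v hTpos
    rw [h1'] at hord
    omega

/-! ### The element `u₉` of `L_E` -/

variable (E : IntermediateField ℚ Qb)

/-- `u₉` as an element of `L_E` (`9 ∣ M`). -/
def u9E (h : 9 ∣ M) : ↥(laurentBaseChange E (modularFunctionFieldFull M)) :=
  ⟨u9 E, u9_mem_laurentBaseChange E h⟩

@[simp] theorem coe_u9E (h : 9 ∣ M) :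
    ((u9E M E h : ↥(laurentBaseChange E (modularFunctionFieldFull M))) : LaurentSeries E)
      = u9 E := rfl

theorem transcendental_u9E (h : 9 ∣ M) : Transcendental E (u9E M E h) := by
  intro hal
  have hx' : IsAlgebraic E ((u9E M E h : ↥(laurentBaseChange E (modularFunctionFieldFull M))) :
      LaurentSeries E) := hal.algebraMap (A := LaurentSeries E)
  obtain ⟨c, hc⟩ := Fermat.Agent.S30.Inst.exists_C_eq_of_isAlgebraic _ hx'
  have h1 := congrArg (fun x : LaurentSeries E => x.coeff (-1)) hc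
  simp only [coe_u9E, coeff_u9_neg_one] at h1
  rw [HahnSeries.C_apply, HahnSeries.coeff_single_of_ne (by norm_num)] at h1
  exact one_ne_zero h1

/-- `j · u₉⁹ (u₉² + 9u₉ + 27) = (u₉ + 9)³ (u₉³ + 243u₉² + 2187u₉ + 6561)³` in `L_E`. -/
theorem jE_mul_u9E (h : 9 ∣ M) (uj : ↥(laurentBaseChange E (modularFunctionFieldFull M)))
    (huj : (uj : LaurentSeries E) = coeffEmb E jq) :
    uj * u9E M E h ^ 9 * (u9E M E h ^ 2 + 9 * u9E M E h + 27)
      = (u9E M E h + 9) ^ 3
        * (u9E M E h ^ 3 + 243 * u9E M E h ^ 2 + 2187 * u9E M E h + 6561) ^ 3 := by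
  apply Subtype.ext
  have h2 : ((uj * u9E M E h ^ 9 * (u9E M E h ^ 2 + 9 * u9E M E h + 27) :
      ↥(laurentBaseChange E (modularFunctionFieldFull M))) : LaurentSeries E)
      = coeffEmb E jq * u9 E ^ 9 * (u9 E ^ 2 + 9 * u9 E + 27) := by
    rw [← huj]; rfl
  have h3 : (((u9E M E h + 9) ^ 3
      * (u9E M E h ^ 3 + 243 * u9E M E h ^ 2 + 2187 * u9E M E h + 6561) ^ 3 :
      ↥(laurentBaseChange E (modularFunctionFieldFull M))) : LaurentSeries E)
      = (u9 E + 9) ^ 3 * (u9 E ^ 3 + 243 * u9 E ^ 2 + 2187 * u9 E + 6561) ^ 3 := rfl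
  have h4 : coeffEmb E jq = jqModC E := by rw [← jqModC_rat, coeffEmb, coeffMap_jqModC]
  rw [h2, h3, h4]
  exact jq_mul_u9 E

/-- `j ∈ E(u₉)`. -/
theorem jE_mem_adjoin_u9E (h : 9 ∣ M) (uj : ↥(laurentBaseChange E (modularFunctionFieldFull M)))
    (huj : (uj : LaurentSeries E) = coeffEmb E jq) :
    uj ∈ IntermediateField.adjoin E {u9E M E h} := by
  have hrel := jE_mul_u9E M E h uj huj
  have hU0 : u9E M E h ≠ 0 := ne_zero_of_rel hrel
  have hQ0 : u9E M E h ^ 2 + 9 * u9E M E h + 27 ≠ 0 := quad_ne_zero_of_rel hrel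
  have h1 : uj = (u9E M E h + 9) ^ 3
      * (u9E M E h ^ 3 + 243 * u9E M E h ^ 2 + 2187 * u9E M E h + 6561) ^ 3
      / (u9E M E h ^ 9 * (u9E M E h ^ 2 + 9 * u9E M E h + 27)) := by
    rw [eq_div_iff (mul_ne_zero (pow_ne_zero 9 hU0) hQ0), ← hrel, mul_assoc]
  rw [h1]
  have hmem := IntermediateField.mem_adjoin_simple_self E (u9E M E h)
  have hnum (n : ℕ) [n.AtLeastTwo] :
      (OfNat.ofNat n : ↥(laurentBaseChange E (modularFunctionFieldFull M))) ∈
        IntermediateField.adjoin E {u9E M E h} := by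
    have := (IntermediateField.adjoin E {u9E M E h}).algebraMap_mem (OfNat.ofNat n : E)
    rwa [map_ofNat] at this
  exact div_mem (mul_mem (pow_mem (add_mem hmem (hnum 9)) 3)
    (pow_mem (add_mem (add_mem (add_mem (pow_mem hmem 3) (mul_mem (hnum 243) (pow_mem hmem 2)))
      (mul_mem (hnum 2187) hmem)) (hnum 6561)) 3))
    (mul_mem (pow_mem hmem 9) (add_mem (add_mem (pow_mem hmem 2) (mul_mem (hnum 9) hmem))
      (hnum 27)))

/-- **(T)** `L_E / E(u₉)` is finite as soon as `L_E / E(j)` is. -/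
theorem finiteDimensional_u9E (h : 9 ∣ M)
    (uj : ↥(laurentBaseChange E (modularFunctionFieldFull M)))
    (huj : (uj : LaurentSeries E) = coeffEmb E jq)
    [FiniteDimensional (IntermediateField.adjoin E {uj})
      ↥(laurentBaseChange E (modularFunctionFieldFull M))] :
    FiniteDimensional (IntermediateField.adjoin E {u9E M E h})
      ↥(laurentBaseChange E (modularFunctionFieldFull M)) :=
  Fermat.Agent.S30.Haupt.HorizTwo.finiteDimensional_of_le'
    (IntermediateField.adjoin_simple_le_iff.mpr (jE_mem_adjoin_u9E M E h uj huj))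

/-- `up (u9E) = u9F`. -/
theorem upHom_u9E (h : 9 ∣ M) :
    Fermat.Agent.S18.PlaceUp.upHom E (modularFunctionFieldFull M) (u9E M E h) = u9F M h := by
  apply Subtype.ext
  rw [Fermat.Agent.S18.PlaceUp.coe_upHom, coe_u9E, ← coeffEmb_u9 E,
    Fermat.Agent.S30.GaussDescent.up_coeffEmb, coeffEmb_u9]
  rfl

/-- **Unramifiedness of `L_E / E(u₉)` at the closed points other than `0` and the roots of
`X² + 9X + 27`**, places form. -/
theorem ord_aeval_u9_eq_one (h : 9 ∣ M)
    (f : E[X]) (hf : Irreducible f) (h0 : f.eval 0 ≠ 0)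
    (hq : ∀ a : Qb, (f.map (algebraMap E Qb)).IsRoot a → a ^ 2 + 9 * a + 27 ≠ 0)
    (v : Place E ↥(laurentBaseChange E (modularFunctionFieldFull M)))
    (hpos : 0 < v.ord (aeval (u9E M E h) f)) : v.ord (aeval (u9E M E h) f) = 1 := by
  obtain ⟨P, hP⟩ := Fermat.Agent.S18.PlaceUp.exists_place_up E (modularFunctionFieldFull M) v
  have hφu := upHom_u9E M E h
  refine Fermat.Agent.S30.Ramif.ord_aeval_eq_one_of_up (Ω := Qb) (F := FN M)
    (Fermat.Agent.S18.PlaceUp.upHom E (modularFunctionFieldFull M)) ?_ v P hP (u9E M E h) ?_ f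
    hf.separable ?_ hpos
  · intro c
    apply Subtype.ext
    rw [Fermat.Agent.S18.PlaceUp.coe_upHom]
    exact Fermat.Agent.S30.GaussDescent.up_algebraMap E c
  · intro a
    rw [hφu]
    exact u9F_not_const M h a
  · intro a haroot hapos
    rw [hφu] at hapos ⊢
    have ha0 : a ≠ 0 := by
      rintro rfl
      apply h0
      have h1 : (f.map (algebraMap E Qb)).eval (algebraMap E Qb 0) = 0 := by
        rw [map_zero]; exact haroot
      rw [eval_map_apply] at h1
      exact (algebraMap E Qb).injective (by rw [h1, map_zero])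
    exact ord_u9F_sub_eq_one M h a ha0 (hq a haroot) P hapos

/-- **Hypothesis (ii) of the MODEL THEOREM for `u = u₉`** (`9 ∣ M`): `Model.HorizUnram S u₉` as
soon as `S` contains `0` and the two roots `c, c'` of `X² + 9X + 27` (`c + c' = -9`,
`c c' = 27`; e.g. `c = 3(ζ₃ - 1)`, `c' = 3(ζ₃² - 1)`). -/
theorem horizUnram_u9 (h : 9 ∣ M) {O : Type*} [CommRing O] [Algebra O E]
    [FiniteDimensional (IntermediateField.adjoin E {u9E M E h})
      ↥(laurentBaseChange E (modularFunctionFieldFull M))]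
    (S : Finset O) (h0 : ∃ c ∈ S, algebraMap O E c = 0)
    (hw : ∃ c ∈ S, ∃ c' ∈ S, algebraMap O E c + algebraMap O E c' = -9 ∧
      algebraMap O E c * algebraMap O E c' = 27) :
    Fermat.Agent.S30.Model.HorizUnram (E := E) S (u9E M E h) := by
  refine Fermat.Agent.S30.Ramif.horizUnram_of_places E (u9E M E h) (transcendental_u9E M E h) S
    fun f hf hS v _ hpos => ?_
  obtain ⟨c0, hc0S, hc0⟩ := h0
  obtain ⟨c1, hc1S, c2, hc2S, hsum, hprod⟩ := hw
  have key : ∀ a : E, f.eval a = 0 → Associated f (X - C a) := fun a ha =>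
    ((irreducible_X_sub_C a).associated_of_dvd hf (dvd_iff_isRoot.mpr ha)).symm
  have keyQ : ∀ (a : Qb) (c : O), (f.map (algebraMap E Qb)).IsRoot a →
      a = algebraMap E Qb (algebraMap O E c) → f.eval (algebraMap O E c) = 0 := by
    intro a c haroot ha
    rw [ha] at haroot
    have h3 : (f.map (algebraMap E Qb)).eval (algebraMap E Qb (algebraMap O E c)) = 0 := haroot
    rw [eval_map_apply] at h3
    exact (algebraMap E Qb).injective (by rw [h3, map_zero])
  refine ord_aeval_u9_eq_one M E h f hf (fun h => ?_) (fun a haroot hquad => ?_) v hpos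
  · exact hS c0 hc0S (by rw [hc0]; exact key 0 h)
  · have hfac : (a - algebraMap E Qb (algebraMap O E c1))
        * (a - algebraMap E Qb (algebraMap O E c2)) = 0 := by
      have hs := congrArg (algebraMap E Qb) hsum
      have hp := congrArg (algebraMap E Qb) hprod
      rw [map_add, map_neg, map_ofNat] at hs
      rw [map_mul, map_ofNat] at hp
      linear_combination hquad - a * hs + hp
    rcases mul_eq_zero.mp hfac with h1 | h1
    · exact hS c1 hc1S (key _ (keyQ a c1 haroot (sub_eq_zero.mp h1)))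
    · exact hS c2 hc2S (key _ (keyQ a c2 haroot (sub_eq_zero.mp h1)))

end Fermat.Agent.S36.Haupt9
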