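import Mathlib
import Fermat.Agent.S18.K1Main
import Fermat.Agent.S18.K1Main.Gt3
import Fermat.Agent.S30.Haupt.K1
import Fermat.Agent.S36.Haupt9.Gauss
import Fermat.Agent.S36.Haupt9.Horiz

/-!
# S36 / Haupt9 / Inputs — the inputs of the Model Theorem for the base `u = u₉` (aux. level 9)

`M` a level with `9 ∣ M`, `E ⊆ ℚ̄`, `O` a discrete valuation ring with fraction field `E`,
`L_E = LE M E ⊆ E((q))`, `u₉ = u9E M E h9 : L_E` the Hauptmodul of `Γ₀(9)`
(`j u₉⁹ (u₉² + 9u₉ + 27) = (u₉ + 9)³ (u₉³ + 243u₉² + 2187u₉ + 6561)³`, cusp values `0`, the two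
roots `c₁, c₂` of `X² + 9X + 27`, `∞`).

* `coe_u9E_eq_iota`, `order_rho_u9_neg` : the integral model `u₉ = ι(u9 O)`, with a pole mod `π`;
* `u9_fin_gauss` : finiteness over `E(u₉)` and hypothesis (i) from the `u = j` inputs `FinGaussC`;
* `u9_horiz` : hypothesis (ii) for every `S ∋ 0, c₁, c₂` (`c₁ + c₂ = -9`, `c₁ c₂ = 27`);
* `isUnit_sub_of_mem` : the differences of `{0, c₁, c₂}` are units when `3` is a unit;
* `exists_cusp_values` : `c₁ = 3(ζ₃ - 1)`, `c₂ = 3(ζ₃² - 1)` from a primitive `M`-th root of unity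
  (`3 ∣ M`);
* `baseInputsC_u9` : `K1Main.BaseInputsC M O E` (when `3` is a unit of `O`);
* `u9_inputs` : all of it for `O = OE A E`, `A` a valuation ring of `ℚ̄` over a prime `ℓ ∤ M`,
  `E` a number field containing a primitive `M`-th root of unity.

Same layout as `S36/Haupt4/Inputs.lean` (level `4`, helper28).  The base `u₉` serves every residue
characteristic `ℓ ≠ 3`, in particular `ℓ = 2`.
-/

set_option autoImplicit false
set_option linter.unusedSectionVars false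
set_option linter.style.haveILetI false
set_option synthInstance.maxHeartbeats 400000
set_option maxHeartbeats 1000000

open ModularCurve AlgebraicCurve Polynomial

noncomputable section

namespace Fermat.Agent.S36.Haupt9

open Fermat.Agent.S18.K1Defs Fermat.Agent.S18.K1Main Fermat.Agent.S30

local notation "Qb" => AlgebraicClosure ℚ

section Ring

variable {O : Type*} [CommRing O]

/-- The cusp values `0, c₁, c₂` of `u₉` (`c₁ + c₂ = -9`, `c₁ c₂ = 27`) are distinct modulo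
every maximal ideal when `3` is a unit. -/
theorem isUnit_sub_of_mem [DecidableEq O] (h3 : IsUnit (3 : O)) (c1 c2 : O)
    (hs : c1 + c2 = -9) (hp : c1 * c2 = 27) :
    ∀ c ∈ ({0, c1, c2} : Finset O), ∀ c' ∈ ({0, c1, c2} : Finset O), c ≠ c' →
      IsUnit (c - c') := by
  have h27 : IsUnit (27 : O) := by
    have : (27 : O) = 3 ^ 3 := by norm_num
    rw [this]
    exact h3.pow 3
  have hc1 : IsUnit c1 := isUnit_of_mul_isUnit_left (hp ▸ h27)
  have hc2 : IsUnit c2 := isUnit_of_mul_isUnit_right (hp ▸ h27)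
  have h12 : IsUnit (c1 - c2) := by
    have h : (c1 - c2) * (c1 - c2) = -27 := by
      linear_combination (c1 + c2 - 9) * hs - 4 * hp
    exact isUnit_of_mul_isUnit_left (h ▸ h27.neg)
  have h21 : IsUnit (c2 - c1) := by
    have : c2 - c1 = -(c1 - c2) := by ring
    rw [this]
    exact h12.neg
  intro c hc c' hc' hne
  simp only [Finset.mem_insert, Finset.mem_singleton] at hc hc'
  rcases hc with rfl | rfl | rfl <;> rcases hc' with rfl | rfl | rfl
  · exact absurd rfl hne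
  · rw [zero_sub]; exact hc1.neg
  · rw [zero_sub]; exact hc2.neg
  · rw [sub_zero]; exact hc1
  · exact absurd rfl hne
  · exact h12
  · rw [sub_zero]; exact hc2
  · exact h21
  · exact absurd rfl hne

/-- The roots `3(ζ₃ - 1)`, `3(ζ₃² - 1)` of `X² + 9X + 27` from a primitive `M`-th root of unity,
`3 ∣ M`. -/
theorem exists_cusp_values [IsDomain O] {M : ℕ} [NeZero M] (h3 : 3 ∣ M) {ζ₀ : O}
    (hζ₀ : IsPrimitiveRoot ζ₀ M) : ∃ c1 c2 : O, c1 + c2 = -9 ∧ c1 * c2 = 27 := by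
  obtain ⟨k, hk⟩ := h3
  have hζ : IsPrimitiveRoot (ζ₀ ^ k) 3 :=
    hζ₀.pow (Nat.pos_of_ne_zero (NeZero.ne M)) (by rw [hk, mul_comm])
  set ζ := ζ₀ ^ k with hζdef
  have h1 : ζ ^ 3 = 1 := hζ.pow_eq_one
  have hne : ζ - 1 ≠ 0 := sub_ne_zero.mpr (hζ.ne_one (by norm_num))
  have h2 : ζ ^ 2 + ζ + 1 = 0 := by
    have h : (ζ - 1) * (ζ ^ 2 + ζ + 1) = 0 := by linear_combination h1
    exact (mul_eq_zero.mp h).resolve_left hne
  refine ⟨3 * (ζ - 1), 3 * (ζ ^ 2 - 1), ?_, ?_⟩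
  · linear_combination 3 * h2
  · linear_combination 9 * h1 - 9 * h2

end Ring

section Generic

variable (M : ℕ) [NeZero M] (E : IntermediateField ℚ Qb)

variable {O : Type} [CommRing O] [IsDomain O] [IsDiscreteValuationRing O]
  [Algebra O E] [IsFractionRing O E]

/-- `u₉ = ι(u9 O)`: the integral model of `u₉`. -/
theorem coe_u9E_eq_iota (h9 : 9 ∣ M) :
    ((u9E M E h9 : LE M E) : LaurentSeries E) = GaussDVR.iota O E (u9 O) :=
  (coeffMap_u9 (algebraMap O E)).symm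

/-- The reduction of `u₉` has a pole. -/
theorem order_rho_u9_neg : (GaussDVR.rho O (u9 O)).order < 0 := by
  have h1 : GaussDVR.rho O (u9 O) = u9 (IsLocalRing.ResidueField O) :=
    coeffMap_u9 (IsLocalRing.residue O)
  rw [h1]
  have h2 : (u9 (IsLocalRing.ResidueField O)).coeff (-1) ≠ 0 := by
    rw [coeff_u9_neg_one]
    exact one_ne_zero
  exact lt_of_le_of_lt (HahnSeries.order_le_of_coeff_ne_zero h2) (by norm_num)

/-- **Finiteness over `E(u₉)` and hypothesis (i) for `u₉`**, from the same for `j`. -/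
theorem u9_fin_gauss (h9 : 9 ∣ M) (hFG : FinGaussC M O E) :
    letI := algebraOL O E (LE M E)
    FiniteDimensional (IntermediateField.adjoin E {u9E M E h9}) (LE M E) ∧
      ∀ π : O, Irreducible π → Model.GaussUnram (E := E) π (u9E M E h9) := by
  letI := algebraOL O E (LE M E)
  haveI := isScalarTower_OL O E (LE M E)
  obtain ⟨hfin, hG⟩ := hFG
  haveI := hfin
  have hrel := jE_mul_u9E M E h9 (jE M E) rfl
  have hT : Transcendental E (jE M E) := Fermat.Agent.S30.Haupt.K1.transcendental_jE M E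
  refine ⟨finiteDimensional_u9E M E h9 (jE M E) rfl, fun π hπ => ?_⟩
  exact (gaussUnram_u9 π hπ (jE M E) hT (hG π hπ) (u9E M E h9) hrel).2.2

/-- **Hypothesis (ii) for `u₉`**, for every `S ∋ 0, c₁, c₂` (`c₁ + c₂ = -9`, `c₁ c₂ = 27`). -/
theorem u9_horiz (h9 : 9 ∣ M)
    [FiniteDimensional (IntermediateField.adjoin E {u9E M E h9}) (LE M E)]
    (S : Finset O) (h0 : (0 : O) ∈ S) (c1 c2 : O) (hc1 : c1 ∈ S) (hc2 : c2 ∈ S)
    (hs : c1 + c2 = -9) (hp : c1 * c2 = 27) :
    Model.HorizUnram (E := E) S (u9E M E h9) :=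
  horizUnram_u9 M E h9 S ⟨0, h0, map_zero _⟩
    ⟨c1, hc1, c2, hc2, by rw [← map_add, hs, map_neg, map_ofNat],
      by rw [← map_mul, hp, map_ofNat]⟩

/-- **The inputs of the Model Theorem for `LE M E` with base `u₉`** (`9 ∣ M`, `3` a unit, the
roots `c₁, c₂` of `X² + 9X + 27` in `O`). -/
theorem baseInputsC_u9 (h9 : 9 ∣ M) (h3 : IsUnit (3 : O)) (c1 c2 : O) (hs : c1 + c2 = -9)
    (hp : c1 * c2 = 27) (hFG : FinGaussC M O E) : BaseInputsC M O E := by
  classical
  letI := algebraOL O E (LE M E)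
  haveI := isScalarTower_OL O E (LE M E)
  obtain ⟨hfin, hG⟩ := u9_fin_gauss M E h9 hFG
  haveI := hfin
  exact ⟨u9E M E h9, u9 O, {0, c1, c2}, coe_u9E_eq_iota M E h9, order_rho_u9_neg,
    isUnit_sub_of_mem h3 c1 c2 hs hp, hfin, hG,
    u9_horiz M E h9 {0, c1, c2} (by simp) c1 c2 (by simp) (by simp) hs hp⟩

end Generic

section Modular

/-- **The E2-type inputs for the coordinate `u₉`** at a level `M`, `9 ∣ M`, over `O_E = A ∩ E`
for a valuation ring `A` of `ℚ̄` over a prime `ℓ ∤ M` and a number field `E ⊆ ℚ̄` containing a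
primitive `M`-th root of unity: transcendence, finiteness, hypotheses (i) and (ii) of the Model
Theorem (for every `S ∋ 0, c₁, c₂`), the integral model with a pole modulo `π`, and the cusp
values `c₁, c₂ ∈ O_E`. -/
theorem u9_inputs (A : ValuationSubring Qb) (M : ℕ) [NeZero M] (h9 : 9 ∣ M) {ℓ : ℕ}
    [Fact ℓ.Prime] (hℓM : ¬ ℓ ∣ M) (hA : A.LiesOverPrime ℓ)
    (E : IntermediateField ℚ Qb) [FiniteDimensional ℚ E] [IsDiscreteValuationRing (OE A E)]
    (z : Qb) (hz : IsPrimitiveRoot z M) (hzE : z ∈ E) :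
    letI := algebraOL (OE A E) E (LE M E)
    Transcendental E (u9E M E h9) ∧
    FiniteDimensional (IntermediateField.adjoin E {u9E M E h9}) (LE M E) ∧
    (∀ π : OE A E, Irreducible π → Model.GaussUnram (E := E) π (u9E M E h9)) ∧
    (∀ S : Finset (OE A E), (0 : OE A E) ∈ S → ∀ c1 c2 : OE A E, c1 ∈ S → c2 ∈ S →
      c1 + c2 = -9 → c1 * c2 = 27 → Model.HorizUnram (E := E) S (u9E M E h9)) ∧
    ((u9E M E h9 : LE M E) : LaurentSeries E) = GaussDVR.iota (OE A E) E (u9 (OE A E)) ∧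
    (GaussDVR.rho (OE A E) (u9 (OE A E))).order < 0 ∧
    ∃ c1 c2 : OE A E, c1 + c2 = -9 ∧ c1 * c2 = 27 := by
  classical
  letI := algebraOL (OE A E) E (LE M E)
  haveI := isScalarTower_OL (OE A E) E (LE M E)
  have hℓp : ℓ.Prime := Fact.out
  obtain ⟨ζ₀, hζ₀⟩ := exists_primitiveRoot_OE A E (Nat.pos_of_ne_zero (NeZero.ne M)) hz hzE
  have hM : IsUnit ((M : ℕ) : OE A E) :=
    isUnit_natCast_OE A E hA M
      (Nat.Coprime.symm ((Nat.Prime.coprime_iff_not_dvd hℓp).mpr hℓM))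
  have hFG : FinGaussC M (OE A E) E :=
    finGaussC_of M (Fermat.Agent.S24.Theta.iotaBar.comp (algebraMap E Qb)) hζ₀ hM
  obtain ⟨hfin, hG⟩ := u9_fin_gauss M E h9 hFG
  haveI := hfin
  exact ⟨transcendental_u9E M E h9, hfin, hG,
    fun S h0 c1 c2 hc1 hc2 hs hp => u9_horiz M E h9 S h0 c1 c2 hc1 hc2 hs hp,
    coe_u9E_eq_iota M E h9, order_rho_u9_neg,
    exists_cusp_values (three_dvd_of_nine_dvd h9) hζ₀⟩

/-- `3` is a unit of `O_E` when `A` lies over a prime `ℓ ≠ 3`. -/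
theorem isUnit_three_OE (A : ValuationSubring Qb) {ℓ : ℕ} [Fact ℓ.Prime] (hA : A.LiesOverPrime ℓ)
    (hℓ : ℓ ≠ 3) (E : IntermediateField ℚ Qb) : IsUnit (3 : OE A E) := by
  have hℓp : ℓ.Prime := Fact.out
  have hc : Nat.Coprime 3 ℓ := (Nat.coprime_primes Nat.prime_three hℓp).mpr (Ne.symm hℓ)
  have := isUnit_natCast_OE A E hA 3 hc
  exact_mod_cast this

/-- `BaseInputsC` with the base `u₉` at every level `M`, `9 ∣ M`, prime to the residue
characteristic `ℓ` (so `ℓ ≠ 3`; in particular `ℓ = 2` is allowed). -/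
theorem baseInputsC_u9_OE (A : ValuationSubring Qb) (M : ℕ) [NeZero M] (h9 : 9 ∣ M) {ℓ : ℕ}
    [Fact ℓ.Prime] (hℓM : ¬ ℓ ∣ M) (hA : A.LiesOverPrime ℓ)
    (E : IntermediateField ℚ Qb) [FiniteDimensional ℚ E] [IsDiscreteValuationRing (OE A E)]
    (z : Qb) (hz : IsPrimitiveRoot z M) (hzE : z ∈ E) : BaseInputsC M (OE A E) E := by
  have hℓp : ℓ.Prime := Fact.out
  have hℓ3 : ℓ ≠ 3 := by
    rintro rfl
    exact hℓM (three_dvd_of_nine_dvd h9)
  obtain ⟨ζ₀, hζ₀⟩ := exists_primitiveRoot_OE A E (Nat.pos_of_ne_zero (NeZero.ne M)) hz hzE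
  have hM : IsUnit ((M : ℕ) : OE A E) :=
    isUnit_natCast_OE A E hA M
      (Nat.Coprime.symm ((Nat.Prime.coprime_iff_not_dvd hℓp).mpr hℓM))
  obtain ⟨c1, c2, hs, hp⟩ := exists_cusp_values (three_dvd_of_nine_dvd h9) hζ₀
  exact baseInputsC_u9 M E h9 (isUnit_three_OE A hA hℓ3 E) c1 c2 hs hp
    (finGaussC_of M (Fermat.Agent.S24.Theta.iotaBar.comp (algebraMap E Qb)) hζ₀ hM)

end Modular

end Fermat.Agent.S36.Haupt9
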