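import Mathlib
import Fermat.Agent.S36.Haupt9.Inputs
import Fermat.Agent.S34.HauptU.LevelMAux

/-!
# S36 / Haupt9 / Fibre — the level-`M'` model facts for the coordinate `u₉` (aux. level 9)

Twin of `S36/Haupt4/Fibre.lean` for the coordinate used at the bad prime `q = 2` (and valid
in every residue characteristic `ℓ ≠ 3`): `u = u₉ = Haupt9.u9E M E h9` (`9 ∣ M`), cusp values
`0, c₁, c₂` with `c₁ + c₂ = -9`, `c₁ c₂ = 27` (the roots of `X² + 9X + 27`), and `∞`.

Route sec. 5b (i) of S36 ("`B'bar` normal at level `M'` on both charts"): the conclusions of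
the Model theorem and of its normality complement (`S34/ModelNormal*`), bundled as
`S34.HauptU.LevelMAux.ChartFacts E π u₉ u₉⁻¹`:

* `u₉`, `u₉⁻¹` transcendental over `E`, `LE M E` finite over `E(u₉)`;
* `π` is a prime element of both chart rings (integral closures of `O[u₉]`, `O[u₉⁻¹]`);
* both special fibres are Dedekind domains;
* both special fibres are regular (`RegNB.RegAt`) at EVERY closed point, including the cusps
  over `u₉ = 0, c₁, c₂` and the points over `u₉ = ∞`.

Statements: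

* `modelInputs_u9` : the hypotheses of `Model.main_a` for `(LE M E, u₉)`, `S = {0, c₁, c₂}`;
* `chartFacts_u9` : generic in a DVR `O` with fraction field `E`, `3 ∈ Oˣ`, from `FinGaussC`;
* `chartFacts_u9_OE` : for `O = OE A E`, `A` over a prime `ℓ ∤ M`, `E` a number field
  containing a primitive `M`-th root of unity and with `OE A E` a DVR;
* `exists_chartFacts_u9` : the same, uniformly in `E ⊇ S₀` (`S₀ = {z}`);
* `dedekind_u9`, `prime_u9`, `regAt_zero_u9`, `regAt_inf_u9` : the fields spelled out.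
-/

set_option autoImplicit false
set_option synthInstance.maxHeartbeats 400000
set_option linter.style.haveILetI false
set_option linter.unusedSectionVars false

noncomputable section

open Polynomial IntermediateField ModularCurve

namespace Fermat.Agent.S36.Haupt9.Fibre

open Fermat.Agent.S18.K1Defs Fermat.Agent.S18.K1Main Fermat.Agent.S30 Fermat.Agent.S30.Model
  Fermat.Agent.S34.ModelNormal Fermat.Agent.S34.HauptU.LevelMAux Fermat.Agent.S36.Haupt9

local notation "Qb" => AlgebraicClosure ℚ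

/-! ### Generic in the discrete valuation ring -/

section Generic

variable (M : ℕ) [NeZero M] (E : IntermediateField ℚ Qb)
  {O : Type} [CommRing O] [IsDomain O] [IsDiscreteValuationRing O]
  [Algebra O E] [IsFractionRing O E]

open Classical in
/-- **The hypotheses of the Model theorem for `(LE M E, u₉)`**, `9 ∣ M`, `3 ∈ Oˣ`,
branch values `S = {0, c₁, c₂}`, `c₁ + c₂ = -9`, `c₁ c₂ = 27`. -/
theorem modelInputs_u9 (h9 : 9 ∣ M) (h3 : IsUnit (3 : O)) (c1 c2 : O) (hs : c1 + c2 = -9)
    (hp : c1 * c2 = 27) (hFG : FinGaussC M O E) (π : O) (hπ : Irreducible π) :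
    letI := algebraOL O E (LE M E)
    Transcendental E (u9E M E h9) ∧
      FiniteDimensional (IntermediateField.adjoin E {u9E M E h9}) (LE M E) ∧
      GaussUnram (E := E) π (u9E M E h9) ∧
      (∀ a ∈ ({0, c1, c2} : Finset O), ∀ a' ∈ ({0, c1, c2} : Finset O), a ≠ a' →
        IsUnit (a - a')) ∧
      HorizUnram (E := E) ({0, c1, c2} : Finset O) (u9E M E h9) := by
  letI := algebraOL O E (LE M E)
  haveI := isScalarTower_OL O E (LE M E)
  obtain ⟨hfin, hG⟩ := u9_fin_gauss M E h9 hFG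
  haveI := hfin
  exact ⟨transcendental_u9E M E h9, hfin, hG π hπ, isUnit_sub_of_mem h3 c1 c2 hs hp,
    u9_horiz M E h9 {0, c1, c2} (by simp) c1 c2 (by simp) (by simp) hs hp⟩

/-- **The level-`M` facts for the coordinate `u₉`** (charts `u₉` and `u₉⁻¹`), `9 ∣ M`,
`3 ∈ Oˣ`, the roots `c₁, c₂` of `X² + 9X + 27` in `O`, from the `u = j` inputs `FinGaussC`
at level `M`. -/
theorem chartFacts_u9 (h9 : 9 ∣ M) (h3 : IsUnit (3 : O)) (c1 c2 : O) (hs : c1 + c2 = -9)
    (hp : c1 * c2 = 27) (hFG : FinGaussC M O E) (π : O) (hπ : Irreducible π) :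
    letI := algebraOL O E (LE M E)
    ChartFacts E π (u9E M E h9) (u9E M E h9)⁻¹ := by
  classical
  letI := algebraOL O E (LE M E)
  haveI := isScalarTower_OL O E (LE M E)
  obtain ⟨hT, hFD, hG, hS, hH⟩ := modelInputs_u9 M E h9 h3 c1 c2 hs hp hFG π hπ
  haveI := hFD
  exact chartFacts_of_model π hπ _ hT (algClosedIn_laurent (LE M E)) hG _ hS hH _ rfl

end Generic

/-! ### The arithmetic instance `O = A ∩ E` -/

section Arithmetic

variable (A : ValuationSubring Qb)

/-- **The level-`M` facts for `u₉` over `O_E = A ∩ E`**: `9 ∣ M`, `A` over a prime `ℓ ∤ M`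
(so `ℓ ≠ 3`; `ℓ = 2` allowed), `E` a number field containing a primitive `M`-th root of unity,
`O_E` a DVR (in S36: `ℓ = q = 2`, `E = K` a number field inside the inertia field). -/
theorem chartFacts_u9_OE (M : ℕ) [NeZero M] (h9 : 9 ∣ M) {ℓ : ℕ} [Fact ℓ.Prime]
    (hℓM : ¬ ℓ ∣ M) (hA : A.LiesOverPrime ℓ)
    (E : IntermediateField ℚ Qb) [FiniteDimensional ℚ E] [IsDiscreteValuationRing (OE A E)]
    (z : Qb) (hz : IsPrimitiveRoot z M) (hzE : z ∈ E) (π : OE A E) (hπ : Irreducible π) :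
    letI := algebraOL (OE A E) E (LE M E)
    ChartFacts E π (u9E M E h9) (u9E M E h9)⁻¹ := by
  have hℓp : ℓ.Prime := Fact.out
  have hℓ3 : ℓ ≠ 3 := by
    rintro rfl
    exact hℓM (three_dvd_of_nine_dvd h9)
  obtain ⟨ζ₀, hζ₀⟩ := exists_primitiveRoot_OE A E (Nat.pos_of_ne_zero (NeZero.ne M)) hz hzE
  have hM : IsUnit ((M : ℕ) : OE A E) :=
    isUnit_natCast_OE A E hA M
      (Nat.Coprime.symm ((Nat.Prime.coprime_iff_not_dvd hℓp).mpr hℓM))
  have hFG : FinGaussC M (OE A E) E :=
    finGaussC_of M (Fermat.Agent.S24.Theta.iotaBar.comp (algebraMap E Qb)) hζ₀ hM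
  obtain ⟨c1, c2, hs, hp⟩ :=
    exists_cusp_values (O := OE A E) (three_dvd_of_nine_dvd h9) hζ₀
  exact chartFacts_u9 M E h9 (isUnit_three_OE A hA hℓ3 E) c1 c2 hs hp hFG π hπ

/-- **The level-`M` facts for `u₉`, uniformly in the number field** `E ⊇ S₀`. -/
theorem exists_chartFacts_u9 (M : ℕ) [NeZero M] (h9 : 9 ∣ M) {ℓ : ℕ} [Fact ℓ.Prime]
    (hℓM : ¬ ℓ ∣ M) (hA : A.LiesOverPrime ℓ) :
    ∃ S₀ : Finset Qb, ∀ (E : IntermediateField ℚ Qb) [FiniteDimensional ℚ E]
      [IsDiscreteValuationRing (OE A E)], (∀ s ∈ S₀, s ∈ E) →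
      ∀ π : OE A E, Irreducible π →
      letI := algebraOL (OE A E) E (LE M E)
      ChartFacts E π (u9E M E h9) (u9E M E h9)⁻¹ := by
  have : NeZero (M : Qb) := ⟨Nat.cast_ne_zero.mpr (NeZero.ne M)⟩
  obtain ⟨z, hz⟩ := HasEnoughRootsOfUnity.exists_primitiveRoot Qb M
  exact ⟨{z}, fun E _ _ hE π hπ =>
    chartFacts_u9_OE A M h9 hℓM hA E z hz (hE z (Finset.mem_singleton_self z)) π hπ⟩

/-! ### The fields spelled out (same hypotheses as `chartFacts_u9_OE`) -/

section Fields

variable (M : ℕ) [NeZero M] (h9 : 9 ∣ M) {ℓ : ℕ} [Fact ℓ.Prime]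
  (hℓM : ¬ ℓ ∣ M) (hA : A.LiesOverPrime ℓ)
  (E : IntermediateField ℚ Qb) [FiniteDimensional ℚ E] [IsDiscreteValuationRing (OE A E)]
  (z : Qb) (hz : IsPrimitiveRoot z M) (hzE : z ∈ E) (π : OE A E) (hπ : Irreducible π)

include hℓM hA hz hzE hπ in
/-- `π` is a prime element of both level-`M` chart rings of `u₉`. -/
theorem prime_u9 :
    letI := algebraOL (OE A E) E (LE M E)
    Prime (piC (u9E M E h9) π) ∧ Prime (piC (u9E M E h9)⁻¹ π) := by
  letI := algebraOL (OE A E) E (LE M E)
  have h := chartFacts_u9_OE A M h9 hℓM hA E z hz hzE π hπ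
  exact ⟨h.prime_zero, h.prime_inf⟩

include hℓM hA hz hzE hπ in
/-- **`B'bar` is a Dedekind domain on both charts**: the special fibres of the integral
closures of `O[u₉]` and of `O[u₉⁻¹]` in the level-`M` function field. -/
theorem dedekind_u9 :
    letI := algebraOL (OE A E) E (LE M E)
    IsDedekindDomain (integralClosure (Algebra.adjoin (OE A E) {u9E M E h9}) (LE M E) ⧸
        Ideal.span {piC (u9E M E h9) π}) ∧
      IsDedekindDomain (integralClosure (Algebra.adjoin (OE A E) {(u9E M E h9)⁻¹}) (LE M E) ⧸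
        Ideal.span {piC (u9E M E h9)⁻¹ π}) := by
  letI := algebraOL (OE A E) E (LE M E)
  have h := chartFacts_u9_OE A M h9 hℓM hA E z hz hzE π hπ
  exact ⟨h.dedekind_zero, h.dedekind_inf⟩

include hℓM hA hz hzE hπ in
/-- The level-`M` model is regular at every closed point of the special fibre of the
`u₉`-chart (cusps over `u₉ = 0, c₁, c₂` included). -/
theorem regAt_zero_u9 :
    letI := algebraOL (OE A E) E (LE M E)
    ∀ Q : Ideal (integralClosure (Algebra.adjoin (OE A E) {u9E M E h9}) (LE M E)),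
      Q.IsMaximal → piC (u9E M E h9) π ∈ Q → RegNB.RegAt (piC (u9E M E h9) π) Q := by
  letI := algebraOL (OE A E) E (LE M E)
  exact (chartFacts_u9_OE A M h9 hℓM hA E z hz hzE π hπ).regAt_zero

include hℓM hA hz hzE hπ in
/-- The level-`M` model is regular at every closed point of the special fibre of the
`u₉⁻¹`-chart. -/
theorem regAt_inf_u9 :
    letI := algebraOL (OE A E) E (LE M E)
    ∀ Q : Ideal (integralClosure (Algebra.adjoin (OE A E) {(u9E M E h9)⁻¹}) (LE M E)),
      Q.IsMaximal → piC (u9E M E h9)⁻¹ π ∈ Q → RegNB.RegAt (piC (u9E M E h9)⁻¹ π) Q := by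
  letI := algebraOL (OE A E) E (LE M E)
  exact (chartFacts_u9_OE A M h9 hℓM hA E z hz hzE π hπ).regAt_inf

end Fields

end Arithmetic

end Fermat.Agent.S36.Haupt9.Fibre
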