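import Mathlib
import Fermat.Agent.S30.Haupt.ModEq
import Fermat.Agent.S30.Haupt.Horiz
import Fermat.Agent.S36.Haupt9.Defs

/-!
# S36 / Haupt9 / ModEq2 — the modular equation of level `2` for the Hauptmodul `u₉`

For `u = u₉(q)` and `v = u₉(q²)`:

  `u³ + v³ = u² v² + 6 u v (u + v) + 27 u v`,

an identity of Laurent series over EVERY commutative ring `K` (`modEq2_u9`), equivalently the
identity `modEq2_u9Num` in `ℤ⟦X⟧` between the numerators.  It is symmetric, monic of degree `3`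
in each variable, has integer coefficients, is congruent to `(v - u²)(v² - u)` modulo `2`
(Kronecker), and its value at `v = 0` is `u³`.

Proof: pure algebra on the landed modular equation of level `2` for `t₃ = (η(τ)/η(3τ))¹²`
(`S30/Haupt/ModEq.modEq_three_inv`): with `t₃ = u³/(u² + 9u + 27)` its numerator factors as
`R(u, v) · S(u, v)`, and `S(u₉(q), u₉(q²)) ≠ 0` (leading coefficient).

The polynomial form `phiNine x : R[X]` mirrors `S30/Haupt/ModEq.phiThree`.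
-/

set_option autoImplicit false

noncomputable section

namespace Fermat.Agent.S36.Haupt9

open ModularCurve PowerSeries Fermat.Agent.S30.AuxLevel

/-! ### The modular equation of level `2` for `t₃`, in `ℤ⟦X⟧` -/

theorem em_rat_injective : Function.Injective (em ℚ) := by
  intro a b h
  rw [em_apply, em_apply] at h
  exact PowerSeries.map_injective _ (RingHom.injective_int (Int.castRingHom ℚ))
    (HahnSeries.ofPowerSeries_injective h)

/-- The modular equation of level `2` for `t₃` (Laurent series over `ℚ`). -/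
theorem modEq_t3_rat :
    t3 ℚ ^ 3 + qExpand ℚ 2 (t3 ℚ) ^ 3 - t3 ℚ ^ 2 * qExpand ℚ 2 (t3 ℚ) ^ 2
      - 24 * (t3 ℚ ^ 2 * qExpand ℚ 2 (t3 ℚ) + t3 ℚ * qExpand ℚ 2 (t3 ℚ) ^ 2)
      - 729 * t3 ℚ * qExpand ℚ 2 (t3 ℚ) = 0 := by
  have h1 : Fermat.Agent.S30.Haupt.Three.s3⁻¹ = t3 ℚ :=
    (eq_inv_of_mul_eq_one_left Fermat.Agent.S30.Haupt.Horiz.t3_mul_s3).symm
  have h2 : (qExpand ℚ 2 Fermat.Agent.S30.Haupt.Three.s3)⁻¹ = qExpand ℚ 2 (t3 ℚ) := by
    refine (eq_inv_of_mul_eq_one_left ?_).symm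
    rw [← map_mul, Fermat.Agent.S30.Haupt.Horiz.t3_mul_s3, map_one]
  have h := Fermat.Agent.S30.Haupt.ModEq.modEq_three_inv
  rw [h1, h2] at h
  exact h

/-- The modular equation of level `2` for `t₃`, numerators in `ℤ⟦X⟧`. -/
theorem modEq_t3Num :
    X ^ 3 * t3Num ^ 3 + ex 2 t3Num ^ 3 - t3Num ^ 2 * ex 2 t3Num ^ 2
      - 24 * (X ^ 2 * t3Num ^ 2 * ex 2 t3Num + X * t3Num * ex 2 t3Num ^ 2)
      - 729 * X ^ 3 * t3Num * ex 2 t3Num = 0 := by
  apply em_rat_injective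
  rw [map_zero]
  have hx := xinv_mul_em_X ℚ
  have h1 : em ℚ t3Num = em ℚ X * t3 ℚ := by
    rw [t3, ← mul_assoc, mul_comm (em ℚ X), hx, one_mul]
  have h2 : em ℚ (ex 2 t3Num) = em ℚ X ^ 2 * qExpand ℚ 2 (t3 ℚ) := by
    rw [t3, map_mul, qExpand_xinv, qExpand_em, ← mul_assoc, ← mul_pow, mul_comm (em ℚ X), hx,
      one_pow, one_mul]
  simp only [map_sub, map_add, map_mul, map_pow, map_ofNat]
  rw [h1, h2]
  linear_combination em ℚ X ^ 6 * modEq_t3_rat

/-! ### The algebra: from `t₃` to `u₉` -/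

section Alg

variable {R : Type*} [CommRing R]

theorem alg9_aux (x T T' Q Q' A B : R) (hA : A = T * Q) (hB : B = T' * Q')
    (hΨ : x ^ 3 * T ^ 3 + T' ^ 3 - T ^ 2 * T' ^ 2
      - 24 * (x ^ 2 * T ^ 2 * T' + x * T * T' ^ 2) - 729 * x ^ 3 * T * T' = 0) :
    x ^ 3 * A ^ 3 * Q' ^ 3 + B ^ 3 * Q ^ 3 - A ^ 2 * B ^ 2 * Q * Q'
      - 24 * (x ^ 2 * A ^ 2 * B * Q * Q' ^ 2 + x * A * B ^ 2 * Q ^ 2 * Q')
      - 729 * x ^ 3 * A * B * Q ^ 2 * Q' ^ 2 = 0 := by
  subst hA hB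
  linear_combination Q ^ 3 * Q' ^ 3 * hΨ

/-- The cofactor `S` of the modular polynomial of `u₉` in the numerator of the modular equation
of `t₃`, homogenised (`u = U/x`, `v = V/x²`). -/
def cofac9 (x U V : R) : R :=
  U ^ 6 * V ^ 6 + 27 * x * U ^ 5 * V ^ 6 + 27 * x ^ 2 * U ^ 6 * V ^ 5
      + 324 * x ^ 2 * U ^ 4 * V ^ 6 + 891 * x ^ 3 * U ^ 5 * V ^ 5 + 2187 * x ^ 3 * U ^ 3 * V ^ 6
      + 324 * x ^ 4 * U ^ 6 * V ^ 4 + 10206 * x ^ 4 * U ^ 4 * V ^ 5
      + 8748 * x ^ 4 * U ^ 2 * V ^ 6 + 10206 * x ^ 5 * U ^ 5 * V ^ 4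
      + 54675 * x ^ 5 * U ^ 3 * V ^ 5 + 19683 * x ^ 5 * U * V ^ 6 + 2187 * x ^ 6 * U ^ 6 * V ^ 3
      + 118098 * x ^ 6 * U ^ 4 * V ^ 4 + 137781 * x ^ 6 * U ^ 2 * V ^ 5 + 19683 * x ^ 6 * V ^ 6
      + 54675 * x ^ 7 * U ^ 5 * V ^ 3 + 610173 * x ^ 7 * U ^ 3 * V ^ 4
      + 118098 * x ^ 7 * U * V ^ 5 + 8748 * x ^ 8 * U ^ 6 * V ^ 2
      + 610173 * x ^ 8 * U ^ 4 * V ^ 3 + 1358127 * x ^ 8 * U ^ 2 * V ^ 4
      + 137781 * x ^ 9 * U ^ 5 * V ^ 2 + 3050865 * x ^ 9 * U ^ 3 * V ^ 3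
      + 531441 * x ^ 9 * U * V ^ 4 + 19683 * x ^ 10 * U ^ 6 * V
      + 1358127 * x ^ 10 * U ^ 4 * V ^ 2 + 6377292 * x ^ 10 * U ^ 2 * V ^ 3
      + 118098 * x ^ 11 * U ^ 5 * V + 6377292 * x ^ 11 * U ^ 3 * V ^ 2 + 19683 * x ^ 12 * U ^ 6
      + 531441 * x ^ 12 * U ^ 4 * V + 14348907 * x ^ 12 * U ^ 2 * V ^ 2

/-- The numerator of the modular equation of `t₃` factors through that of `u₉`. -/
theorem alg9 (x U V T T' : R) (hT : T * (U ^ 2 + 9 * x * U + 27 * x ^ 2) = U ^ 3)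
    (hT' : T' * (V ^ 2 + 9 * x ^ 2 * V + 27 * x ^ 4) = V ^ 3)
    (hΨ : x ^ 3 * T ^ 3 + T' ^ 3 - T ^ 2 * T' ^ 2
      - 24 * (x ^ 2 * T ^ 2 * T' + x * T * T' ^ 2) - 729 * x ^ 3 * T * T' = 0) :
    (x ^ 3 * U ^ 3 + V ^ 3 - U ^ 2 * V ^ 2 - 6 * x ^ 2 * U ^ 2 * V - 6 * x * U * V ^ 2
      - 27 * x ^ 3 * U * V) * cofac9 x U V = 0 := by
  have h1 := alg9_aux x T T' (U ^ 2 + 9 * x * U + 27 * x ^ 2) (V ^ 2 + 9 * x ^ 2 * V + 27 * x ^ 4)
    (U ^ 3) (V ^ 3) hT.symm hT'.symm hΨ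
  rw [cofac9]
  linear_combination h1

end Alg

/-! ### The modular equation of level `2` for `u₉` -/

theorem ex2_t3Num_mul :
    ex 2 t3Num * (ex 2 u9Num ^ 2 + 9 * X ^ 2 * ex 2 u9Num + 27 * X ^ 4) = ex 2 u9Num ^ 3 := by
  have h := congrArg (ex 2) t3Num_mul_u9Num
  simp only [map_mul, map_add, map_pow, map_ofNat, PowerSeries.expand_X] at h
  linear_combination h

theorem constantCoeff_ex2_u9Num : PowerSeries.constantCoeff (ex 2 u9Num) = 1 := by
  rw [PowerSeries.constantCoeff_expand, constantCoeff_u9Num]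

theorem cofac9_ne_zero : cofac9 X u9Num (ex 2 u9Num) ≠ 0 := by
  intro h
  have h3 := congrArg (PowerSeries.constantCoeff (R := ℤ)) h
  simp [cofac9, constantCoeff_u9Num] at h3

/-- **The modular equation of level `2` for `u₉`**, numerators in `ℤ⟦X⟧`
(`u₉(q) = q⁻¹ U`, `u₉(q²) = q⁻² V`). -/
theorem modEq2_u9Num :
    X ^ 3 * u9Num ^ 3 + ex 2 u9Num ^ 3
      = u9Num ^ 2 * ex 2 u9Num ^ 2 + 6 * X ^ 2 * u9Num ^ 2 * ex 2 u9Num
        + 6 * X * u9Num * ex 2 u9Num ^ 2 + 27 * X ^ 3 * u9Num * ex 2 u9Num := by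
  have key := alg9 X u9Num (ex 2 u9Num) t3Num (ex 2 t3Num) t3Num_mul_u9Num ex2_t3Num_mul
    modEq_t3Num
  rcases mul_eq_zero.mp key with h | h
  · linear_combination h
  · exact absurd h cofac9_ne_zero

section Laurent

variable (K : Type*) [CommRing K]

theorem qExpand_two_u9 : qExpand K 2 (u9 K) = xinv K ^ 2 * em K (ex 2 u9Num) := by
  rw [u9, map_mul, qExpand_xinv, qExpand_em]

/-- **The modular equation of level `2` for `u₉`**: `u³ + v³ = u²v² + 6uv(u + v) + 27uv` for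
`u = u₉(q)`, `v = u₉(q²)`, over every commutative ring. -/
theorem modEq2_u9 :
    u9 K ^ 3 + qExpand K 2 (u9 K) ^ 3
      = u9 K ^ 2 * qExpand K 2 (u9 K) ^ 2
        + 6 * u9 K * qExpand K 2 (u9 K) * (u9 K + qExpand K 2 (u9 K))
        + 27 * u9 K * qExpand K 2 (u9 K) := by
  have h := congrArg (em K) modEq2_u9Num
  simp only [map_mul, map_add, map_pow, map_ofNat] at h
  have hx := xinv_mul_em_X K
  have h1 : em K u9Num = em K X * u9 K := by
    rw [u9, ← mul_assoc, mul_comm (em K X), hx, one_mul]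
  have h2 : em K (ex 2 u9Num) = em K X ^ 2 * qExpand K 2 (u9 K) := by
    rw [qExpand_two_u9, ← mul_assoc, ← mul_pow, mul_comm (em K X), hx, one_pow, one_mul]
  rw [h1, h2] at h
  have hb6 : xinv K ^ 6 * em K X ^ 6 = 1 := by rw [← mul_pow, hx, one_pow]
  linear_combination xinv K ^ 6 * h
    - (u9 K ^ 3 + qExpand K 2 (u9 K) ^ 3
      - (u9 K ^ 2 * qExpand K 2 (u9 K) ^ 2
        + 6 * u9 K * qExpand K 2 (u9 K) * (u9 K + qExpand K 2 (u9 K))
        + 27 * u9 K * qExpand K 2 (u9 K))) * hb6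

end Laurent

/-! ### The chart at infinity: `s₉ = 1/u₉ = q + 3q² + …` -/

/-- The numerator of `s₉ = 1/u₉`: an integral power series `q + 3 q² + …`. -/
def s9Z : PowerSeries ℤ := X * PowerSeries.invOfUnit u9Num 1

theorem u9Num_mul_invOfUnit : u9Num * PowerSeries.invOfUnit u9Num 1 = 1 :=
  PowerSeries.mul_invOfUnit _ _ (by rw [constantCoeff_u9Num, Units.val_one])

theorem u9Num_mul_s9Z : u9Num * s9Z = X := by
  rw [s9Z, mul_left_comm, u9Num_mul_invOfUnit, mul_one]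

theorem coeff_zero_s9Z : PowerSeries.coeff 0 s9Z = 0 := by
  rw [s9Z, PowerSeries.coeff_zero_eq_constantCoeff_apply, map_mul, PowerSeries.constantCoeff_X,
    zero_mul]

theorem coeff_one_s9Z : PowerSeries.coeff 1 s9Z = 1 := by
  rw [s9Z, show (1 : ℕ) = 0 + 1 from rfl, PowerSeries.coeff_succ_X_mul,
    PowerSeries.coeff_zero_eq_constantCoeff_apply, PowerSeries.constantCoeff_invOfUnit]
  simp

section LaurentInf

variable (K : Type*) [CommRing K]

/-- `s₉ = 1/u₉` as a Laurent series over `K`. -/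
def s9 : LaurentSeries K := em K s9Z

theorem u9_mul_s9 : u9 K * s9 K = 1 := by
  rw [u9, s9, mul_assoc, ← map_mul, u9Num_mul_s9Z, xinv_mul_em_X]

theorem qExpand_two_s9 : qExpand K 2 (s9 K) = em K (ex 2 s9Z) := by
  rw [s9, qExpand_em]

end LaurentInf

end Fermat.Agent.S36.Haupt9

/-! ### The modular equations as monic polynomials -/

namespace Fermat.Agent.S36.Haupt9

open ModularCurve Polynomial

section Poly

variable {R : Type*} [CommRing R]

/-- `Φ₉(x, Y)`: the modular equation of level `2` for the Hauptmodul `u₉` of `Γ₀(9)`, as a monic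
polynomial in `Y` whose coefficients are integer polynomials in `x`. -/
def phiNine (x : R) : R[X] :=
  X ^ 3 + (C (-(x ^ 2 + 6 * x)) * X ^ 2 + C (-(6 * x ^ 2 + 27 * x)) * X + C (x ^ 3))

/-- `G₉(x, Y)`: the modular equation of level `2` for `s₉ = 1/u₉`, as a monic polynomial in
`Y`; all its non-leading coefficients are multiples of `x`. -/
def gNine (x : R) : R[X] :=
  X ^ 3 + (C (-(6 * x + 27 * x ^ 2)) * X ^ 2 + C (-(x + 6 * x ^ 2)) * X + C (x ^ 3))

theorem phiNine_monic (x : R) : (phiNine x).Monic := by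
  refine monic_X_pow_add (lt_of_le_of_lt (b := (2 : WithBot ℕ)) ?_ (by norm_num))
  compute_degree

theorem gNine_monic (x : R) : (gNine x).Monic := by
  refine monic_X_pow_add (lt_of_le_of_lt (b := (2 : WithBot ℕ)) ?_ (by norm_num))
  compute_degree

theorem natDegree_phiNine [Nontrivial R] (x : R) : (phiNine x).natDegree = 3 := by
  unfold phiNine
  compute_degree!

theorem natDegree_gNine [Nontrivial R] (x : R) : (gNine x).natDegree = 3 := by
  unfold gNine
  compute_degree!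

theorem eval_phiNine (x y : R) :
    (phiNine x).eval y = x ^ 3 + y ^ 3 - x ^ 2 * y ^ 2 - 6 * (x ^ 2 * y + x * y ^ 2)
      - 27 * x * y := by
  simp only [phiNine, eval_add, eval_mul, eval_pow, eval_X, eval_C]
  ring

theorem eval_gNine (x y : R) :
    (gNine x).eval y = x ^ 3 + y ^ 3 - (x * y + 6 * (x * y ^ 2 + x ^ 2 * y)
      + 27 * x ^ 2 * y ^ 2) := by
  simp only [gNine, eval_add, eval_mul, eval_pow, eval_X, eval_C]
  ring

/-- the two equations are symmetric -/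
theorem eval_phiNine_comm (x y : R) : (phiNine x).eval y = (phiNine y).eval x := by
  rw [eval_phiNine, eval_phiNine]; ring

theorem eval_gNine_comm (x y : R) : (gNine x).eval y = (gNine y).eval x := by
  rw [eval_gNine, eval_gNine]; ring

/-- **Kronecker's congruence**: `Φ₉(x, y) = (y - x²)(y² - x) - 2 x y (3x + 3y + 13)`. -/
theorem eval_phiNine_kronecker (x y : R) :
    (phiNine x).eval y = (y - x ^ 2) * (y ^ 2 - x) - 2 * (x * y * (3 * x + 3 * y + 13)) := by
  rw [eval_phiNine]; ring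

/-- The value at `Y = 0` (shape at the cusp `0`): `Φ₉(x, 0) = x³`. -/
theorem eval_phiNine_zero (x : R) : (phiNine x).eval 0 = x ^ 3 := by
  rw [eval_phiNine]; ring

theorem coeff_zero_phiNine (x : R) : (phiNine x).coeff 0 = x ^ 3 := by
  rw [coeff_zero_eq_eval_zero, eval_phiNine_zero]

/-- `G₉(x, y) = y³ + x · (…)`: a root `y` of `G₉(x, ·)` is "small" when `x` is. -/
theorem eval_gNine_eq (x y : R) :
    (gNine x).eval y = y ^ 3 + x * (x ^ 2 - (1 + 6 * x) * y - (6 + 27 * x) * y ^ 2) := by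
  rw [eval_gNine]; ring

/-- Cusp shape: `x³ + y³ = x y (1 + 6 (x + y) + 27 x y)` on a root. -/
theorem cusp_of_eval_gNine {x y : R} (h : (gNine x).eval y = 0) :
    x ^ 3 + y ^ 3 = x * y * (1 + 6 * (x + y) + 27 * x * y) := by
  rw [eval_gNine] at h
  linear_combination h

/-- `Φ₉(u, v) = 0 ↔ G₉(1/u, 1/v) = 0`. -/
theorem eval_gNine_of_eval_phiNine {x y s t : R} (hx : x * s = 1) (hy : y * t = 1)
    (h : (phiNine x).eval y = 0) : (gNine s).eval t = 0 := by
  rw [eval_phiNine] at h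
  rw [eval_gNine]
  linear_combination s ^ 3 * t ^ 3 * h
    + (-x ^ 2 * s ^ 2 * t ^ 3 + x * y ^ 2 * s ^ 2 * t ^ 3 + 6 * x * y * s ^ 2 * t ^ 3
        - x * s * t ^ 3 + 6 * y ^ 2 * s ^ 2 * t ^ 3 + y ^ 2 * s * t ^ 3 + 27 * y * s ^ 2 * t ^ 3
        + 6 * y * s * t ^ 3 - t ^ 3) * hx
    + (-y ^ 2 * s ^ 3 * t ^ 2 - y * s ^ 3 * t + 6 * y * s ^ 2 * t ^ 2 + y * s * t ^ 2 - s ^ 3
        + 27 * s ^ 2 * t ^ 2 + 6 * s ^ 2 * t + 6 * s * t ^ 2 + s * t) * hy

variable {S : Type*} [CommRing S] (f : R →+* S)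

theorem map_phiNine (x : R) : (phiNine x).map f = phiNine (f x) := by
  simp [phiNine, map_ofNat]

theorem map_gNine (x : R) : (gNine x).map f = gNine (f x) := by
  simp [gNine, map_ofNat]

variable (R) in
/-- `Φ₉` as a two-variable polynomial (inner variable `x`, outer variable `Y`). -/
def phiNinePoly : Polynomial (Polynomial R) := phiNine (X : R[X])

variable (R) in
/-- `G₉` as a two-variable polynomial. -/
def gNinePoly : Polynomial (Polynomial R) := gNine (X : R[X])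

theorem phiNinePoly_monic : (phiNinePoly R).Monic := phiNine_monic _

theorem gNinePoly_monic : (gNinePoly R).Monic := gNine_monic _

theorem natDegree_phiNinePoly [Nontrivial R] : (phiNinePoly R).natDegree = 3 :=
  natDegree_phiNine _

theorem natDegree_gNinePoly [Nontrivial R] : (gNinePoly R).natDegree = 3 := natDegree_gNine _

theorem eval₂_phiNinePoly (x y : S) :
    (phiNinePoly R).eval₂ (eval₂RingHom f x) y = (phiNine x).eval y := by
  rw [eval₂_eq_eval_map, phiNinePoly, map_phiNine, coe_eval₂RingHom, eval₂_X]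

theorem eval₂_gNinePoly (x y : S) :
    (gNinePoly R).eval₂ (eval₂RingHom f x) y = (gNine x).eval y := by
  rw [eval₂_eq_eval_map, gNinePoly, map_gNine, coe_eval₂RingHom, eval₂_X]

/-- A root of `Φ₉(x, ·)` is integral over any subring containing `x`. -/
theorem isIntegral_of_eval_phiNine (T : Subring R) {x y : R} (hx : x ∈ T)
    (h : (phiNine x).eval y = 0) : IsIntegral T y := by
  refine ⟨phiNine (⟨x, hx⟩ : T), phiNine_monic _, ?_⟩
  rw [eval₂_eq_eval_map, map_phiNine]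
  exact h

theorem isIntegral_of_eval_gNine (T : Subring R) {x y : R} (hx : x ∈ T)
    (h : (gNine x).eval y = 0) : IsIntegral T y := by
  refine ⟨gNine (⟨x, hx⟩ : T), gNine_monic _, ?_⟩
  rw [eval₂_eq_eval_map, map_gNine]
  exact h

/-- A root of `Φ₉(x, ·)` is integral over `O[x]`. -/
theorem isIntegral_adjoin_of_eval_phiNine (O : Type*) [CommRing O] [Algebra O R] {x y : R}
    (h : (phiNine x).eval y = 0) : IsIntegral (Algebra.adjoin O {x}) y := by
  refine ⟨phiNine (⟨x, Algebra.self_mem_adjoin_singleton O x⟩ : Algebra.adjoin O {x}),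
    phiNine_monic _, ?_⟩
  rw [eval₂_eq_eval_map, map_phiNine]
  exact h

theorem isIntegral_adjoin_of_eval_gNine (O : Type*) [CommRing O] [Algebra O R] {x y : R}
    (h : (gNine x).eval y = 0) : IsIntegral (Algebra.adjoin O {x}) y := by
  refine ⟨gNine (⟨x, Algebra.self_mem_adjoin_singleton O x⟩ : Algebra.adjoin O {x}),
    gNine_monic _, ?_⟩
  rw [eval₂_eq_eval_map, map_gNine]
  exact h

end Poly

/-! ### The modular equations in polynomial form, over every commutative ring -/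

section Final

variable (K : Type*) [CommRing K]

/-- `Φ₉(u₉, u₉(q²)) = 0`. -/
theorem eval_phiNine_u9 : (phiNine (u9 K)).eval (qExpand K 2 (u9 K)) = 0 := by
  rw [eval_phiNine]
  linear_combination modEq2_u9 K

/-- `Φ₉(u₉(q²), u₉) = 0`. -/
theorem eval_phiNine_u9' : (phiNine (qExpand K 2 (u9 K))).eval (u9 K) = 0 := by
  rw [← eval_phiNine_comm]
  exact eval_phiNine_u9 K

/-- `Φ₉(u₉(q²), u₉(q⁴)) = 0`. -/
theorem eval_phiNine_u9_four :
    (phiNine (qExpand K 2 (u9 K))).eval (qExpand K 4 (u9 K)) = 0 := by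
  have h := congrArg (qExpand K 2) (eval_phiNine_u9 K)
  rw [eval_phiNine] at h
  simp only [map_sub, map_add, map_mul, map_pow, map_ofNat, map_zero] at h
  rw [qExpand_qExpand, qExpand_congr (show 2 * 2 = 4 from rfl)] at h
  rw [eval_phiNine]
  exact h

/-- `G₉(s₉, s₉(q²)) = 0`. -/
theorem eval_gNine_s9 : (gNine (s9 K)).eval (qExpand K 2 (s9 K)) = 0 := by
  have h2 : qExpand K 2 (u9 K) * qExpand K 2 (s9 K) = 1 := by
    rw [← map_mul, u9_mul_s9, map_one]
  exact eval_gNine_of_eval_phiNine (u9_mul_s9 K) h2 (eval_phiNine_u9 K)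

/-- The modular equation of level `2` for `s₉ = 1/u₉`, over every commutative ring:
`s³ + s'³ = s s' + 6 s s' (s + s') + 27 s² s'²`. -/
theorem modEq2_s9 :
    s9 K ^ 3 + qExpand K 2 (s9 K) ^ 3
      = s9 K * qExpand K 2 (s9 K) + 6 * s9 K * qExpand K 2 (s9 K) * (s9 K + qExpand K 2 (s9 K))
        + 27 * s9 K ^ 2 * qExpand K 2 (s9 K) ^ 2 := by
  have h := eval_gNine_s9 K
  rw [eval_gNine] at h
  linear_combination h

/-- `G₉(s₉(q²), s₉) = 0`. -/
theorem eval_gNine_s9' : (gNine (qExpand K 2 (s9 K))).eval (s9 K) = 0 := by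
  rw [← eval_gNine_comm]
  exact eval_gNine_s9 K

/-- `u₉(q²)` is integral over `O[u₉]` (as Laurent series over `K`). -/
theorem isIntegral_qExpand_two_u9 (O : Type*) [CommRing O] [Algebra O (LaurentSeries K)] :
    IsIntegral (Algebra.adjoin O {u9 K}) (qExpand K 2 (u9 K)) :=
  isIntegral_adjoin_of_eval_phiNine O (eval_phiNine_u9 K)

/-- `u₉` is integral over `O[u₉(q²)]`. -/
theorem isIntegral_u9_qExpand_two (O : Type*) [CommRing O] [Algebra O (LaurentSeries K)] :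
    IsIntegral (Algebra.adjoin O {qExpand K 2 (u9 K)}) (u9 K) :=
  isIntegral_adjoin_of_eval_phiNine O (eval_phiNine_u9' K)

end Final

end Fermat.Agent.S36.Haupt9
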