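import Mathlib
import Fermat.Agent.S34.HauptU.E
import Fermat.Agent.S36.Haupt9.Inputs
import Fermat.Agent.S36.Haupt9.ModEq2

/-!
# S36 / Haupt9 / LevelTwo — the level-`2M` coordinate package for `u₉` (`q = 2`)

Twin of `S34/HauptU/E.lean` for the coordinate `u' = u₉ ∈ LE M E` (`9 ∣ M`, chart zero) and
`s₉ = 1/u₉` (chart infinity), Hecke prime `ℓ = 2`, level `N = M · 2`.  Everything is in the
literal hypothesis shapes of `S34/TwoPrimesGauss.package` (`hσu`, `hord`, `hcop`, `hfrob`,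
`hwu`); `hprime` is `Haupt9/Fibre.prime_u9`.

* `order_u9`, `order_rho_u9`, `isCoprime_order_rho_u9`, `order_rho_u9_ne_zero` (`hord`, `hcop`),
  `qExpand_rho_u9` (`hfrob`), the same for `s₉ = posO O s9Z`;
* `s9E`, `coe_s9E`, `coe_alpha_u9E`, `coe_alpha_s9E`, `coe_alpha_u9E_inv` (`hσu`);
* `eval_phiNine_alpha_beta`, `eval_gNine_alpha_beta` : the modular equation of level `2` between
  `α u₉ = u₉(q)` and `β u₉ = u₉(q²)` in `LE (M · 2) E`, and for `s₉`;
* `hwu_u9E`, `hwu_u9E'`, `hwu_s9E`, `hwu_s9E'`, `hwu_u9E_inv`, `hwu_u9E_inv'` : integrality of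
  `β u'` over `O[α u']` and conversely, on both charts;
* `kronecker_nine` : `(β u - (α u)²)((β u)² - α u) = 2 · α u · β u · (3 α u + 3 β u + 13)`
  (thickness one at `q = 2` is explicit: the cofactor is `≡ (α u)² · cusp(α u)` modulo
  `(2, β u - (α u)²)`, `cusp(u) = u (u² + 9u + 27)`, see `kronecker_cofactor_nine`);
* `cusp_nine` : `x³ + y³ = x y (1 + 6 (x + y) + 27 x y)` for `x = α s₉`, `y = β s₉`.
-/

set_option autoImplicit false
set_option linter.unusedSectionVars false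
set_option linter.style.haveILetI false
set_option synthInstance.maxHeartbeats 400000
set_option maxHeartbeats 1000000

open ModularCurve

noncomputable section

namespace Fermat.Agent.S36.Haupt9

open Fermat.Agent.S30 Fermat.Agent.S18.K1Defs Fermat.Agent.S18.K1Main
open Fermat.Agent.S34.HauptU.E

local notation "Qb" => AlgebraicClosure ℚ

/-! ### Integral series: `hord`, `hcop`, `hfrob` -/

section IntSeries

/-- `u₉` has a simple pole: its order is exactly `-1`. -/
theorem order_u9 (K : Type*) [CommRing K] [Nontrivial K] : (u9 K).order = -1 := by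
  have h1 : (u9 K).coeff (-1) ≠ 0 := by
    rw [coeff_u9_neg_one]; exact one_ne_zero
  have hx0 : u9 K ≠ 0 := fun h0 => h1 (by rw [h0, HahnSeries.coeff_zero])
  refine le_antisymm (HahnSeries.order_le_of_coeff_ne_zero h1) ?_
  by_contra hlt
  have h2 : (u9 K).coeff (u9 K).order ≠ 0 := fun h => hx0 (HahnSeries.coeff_order_eq_zero.mp h)
  exact h2 (coeff_u9_of_lt K (by omega))

theorem u9_eq_intO (O : Type*) [CommRing O] : u9 O = intO O (u9 ℤ) :=
  (coeffMap_u9 (Int.castRingHom O)).symm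

theorem coeffMap_s9 {K K' : Type*} [CommRing K] [CommRing K'] (f : K →+* K') :
    coeffMap f (s9 K) = s9 K' := by
  rw [s9, AuxLevel.coeffMap_em, s9]

theorem s9_eq_posO (O : Type*) [CommRing O] : s9 O = posO O s9Z := by
  rw [posO, intO, Congr.coeffMap_ofPowerSeries]
  rfl

variable {O : Type*} [CommRing O] [IsDomain O] [IsDiscreteValuationRing O]

theorem rho_u9 : GaussDVR.rho O (u9 O) = u9 (IsLocalRing.ResidueField O) :=
  coeffMap_u9 (IsLocalRing.residue O)

/-- `hord`, chart zero: the reduction of `u₉` has order exactly `-1`. -/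
theorem order_rho_u9 : (GaussDVR.rho O (u9 O)).order = -1 := by
  rw [rho_u9]
  exact order_u9 _

theorem order_rho_u9_ne_zero : (GaussDVR.rho O (u9 O)).order ≠ 0 := by
  rw [order_rho_u9]; norm_num

/-- `hcop`, chart zero. -/
theorem isCoprime_order_rho_u9 (ℓ : ℕ) : IsCoprime (GaussDVR.rho O (u9 O)).order (ℓ : ℤ) := by
  rw [order_rho_u9]
  exact isCoprime_one_left.neg_left

/-- `hfrob`, chart zero: `(ρ u₉)(q^ℓ) = (ρ u₉)^ℓ` in residue characteristic `ℓ`. -/
theorem qExpand_rho_u9 (ℓ : ℕ) [NeZero ℓ] (hℓ : ℓ.Prime)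
    [CharP (IsLocalRing.ResidueField O) ℓ] :
    qExpand (IsLocalRing.ResidueField O) ℓ (GaussDVR.rho O (u9 O)) =
      GaussDVR.rho O (u9 O) ^ ℓ := by
  rw [u9_eq_intO]
  exact qExpand_rho_intO ℓ hℓ _

/-- `hord`, chart infinity: the reduction of `s₉ = 1/u₉` has order exactly `1`. -/
theorem order_rho_s9 : (GaussDVR.rho O (posO O s9Z)).order = 1 :=
  order_rho_posO s9Z coeff_zero_s9Z coeff_one_s9Z

theorem order_rho_s9_ne_zero : (GaussDVR.rho O (posO O s9Z)).order ≠ 0 :=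
  order_rho_posO_ne_zero s9Z coeff_zero_s9Z coeff_one_s9Z

/-- `hcop`, chart infinity. -/
theorem isCoprime_order_rho_s9 (ℓ : ℕ) :
    IsCoprime (GaussDVR.rho O (posO O s9Z)).order (ℓ : ℤ) :=
  isCoprime_order_rho_posO s9Z coeff_zero_s9Z coeff_one_s9Z ℓ

/-- `hfrob`, chart infinity. -/
theorem qExpand_rho_s9 (ℓ : ℕ) [NeZero ℓ] (hℓ : ℓ.Prime)
    [CharP (IsLocalRing.ResidueField O) ℓ] :
    qExpand (IsLocalRing.ResidueField O) ℓ (GaussDVR.rho O (posO O s9Z)) =
      GaussDVR.rho O (posO O s9Z) ^ ℓ :=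
  qExpand_rho_posO ℓ hℓ s9Z

end IntSeries

/-! ### Transport of the modular equation along an injective ring homomorphism -/

section Transport

open Polynomial

variable {A B : Type*} [CommRing A] [CommRing B]

theorem eval_phiNine_of_map (f : A →+* B) (hf : Function.Injective f) {x y : A}
    (h : (phiNine (f x)).eval (f y) = 0) : (phiNine x).eval y = 0 := by
  apply hf
  rw [map_zero, ← h, ← map_phiNine, eval_map, eval₂_at_apply]

theorem eval_gNine_of_map (f : A →+* B) (hf : Function.Injective f) {x y : A}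
    (h : (gNine (f x)).eval (f y) = 0) : (gNine x).eval y = 0 := by
  apply hf
  rw [map_zero, ← h, ← map_gNine, eval_map, eval₂_at_apply]

end Transport

/-! ### The coordinates in `LE M E` and `LE (M · 2) E` -/

section Level

variable (M : ℕ) [NeZero M] (E : IntermediateField ℚ Qb)

/-- `s₉ = 1/u₉` as an element of `LE M E` (`9 ∣ M`): the coordinate of the chart at infinity. -/
def s9E (h9 : 9 ∣ M) : LE M E := (u9E M E h9)⁻¹

theorem u9E_inv (h9 : 9 ∣ M) : (u9E M E h9)⁻¹ = s9E M E h9 := rfl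

theorem inv_u9_eq_s9 (K : Type*) [Field K] : (u9 K)⁻¹ = s9 K :=
  (eq_inv_of_mul_eq_one_right (u9_mul_s9 K)).symm

theorem coe_s9E (h9 : 9 ∣ M) : ((s9E M E h9 : LE M E) : LaurentSeries E) = s9 E := by
  show ((u9E M E h9 : LE M E) : LaurentSeries E)⁻¹ = s9 E
  rw [coe_u9E, inv_u9_eq_s9]

theorem u9E_ne_zero (h9 : 9 ∣ M) : u9E M E h9 ≠ 0 := fun h0 =>
  transcendental_u9E M E h9 (h0 ▸ isAlgebraic_zero)

theorem s9E_ne_zero (h9 : 9 ∣ M) : s9E M E h9 ≠ 0 := inv_ne_zero (u9E_ne_zero M E h9)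

/-! #### `hσu` -/

section Sigma

variable {O : Type} [CommRing O] [IsDomain O] [IsDiscreteValuationRing O]
  [Algebra O E] [IsFractionRing O E]

theorem coe_s9E_eq_iota (h9 : 9 ∣ M) :
    ((s9E M E h9 : LE M E) : LaurentSeries E) = GaussDVR.iota O E (posO O s9Z) := by
  rw [coe_s9E, ← s9_eq_posO]
  exact (coeffMap_s9 (algebraMap O E)).symm

variable (ℓ : ℕ) [NeZero ℓ]

/-- `hσu`, chart zero. -/
theorem coe_alpha_u9E (h9 : 9 ∣ M) :
    ((heckeAlphaBar E M ℓ (u9E M E h9) : LE (M * ℓ) E) : LaurentSeries E)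
      = GaussDVR.iota O E (u9 O) := by
  rw [coe_heckeAlphaBar]
  exact coe_u9E_eq_iota M E h9

/-- `hσu`, chart infinity, coordinate `s₉`. -/
theorem coe_alpha_s9E (h9 : 9 ∣ M) :
    ((heckeAlphaBar E M ℓ (s9E M E h9) : LE (M * ℓ) E) : LaurentSeries E)
      = GaussDVR.iota O E (posO O s9Z) := by
  rw [coe_heckeAlphaBar]
  exact coe_s9E_eq_iota M E h9

/-- `hσu`, chart infinity, literal coordinate `u₉⁻¹`. -/
theorem coe_alpha_u9E_inv (h9 : 9 ∣ M) :
    ((heckeAlphaBar E M ℓ (u9E M E h9)⁻¹ : LE (M * ℓ) E) : LaurentSeries E)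
      = GaussDVR.iota O E (posO O s9Z) :=
  coe_alpha_s9E M E ℓ h9

end Sigma

/-! #### The modular equation of level `2` in `LE (M · 2) E` -/

local notation "α" => heckeAlphaBar E M 2
local notation "β" => heckeBetaBar E M 2

theorem coe_beta_u9E (h9 : 9 ∣ M) :
    ((β (u9E M E h9) : LE (M * 2) E) : LaurentSeries E) = qExpand E 2 (u9 E) := by
  rw [coe_heckeBetaBar, coe_u9E]

theorem coe_beta_s9E (h9 : 9 ∣ M) :
    ((β (s9E M E h9) : LE (M * 2) E) : LaurentSeries E) = qExpand E 2 (s9 E) := by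
  rw [coe_heckeBetaBar, coe_s9E]

/-- **`Φ₉(α u₉, β u₉) = 0`** in `LE (M · 2) E`. -/
theorem eval_phiNine_alpha_beta (h9 : 9 ∣ M) :
    (phiNine (α (u9E M E h9))).eval (β (u9E M E h9)) = 0 := by
  refine eval_phiNine_of_map (algebraMap (LE (M * 2) E) (LaurentSeries E))
    (FaithfulSMul.algebraMap_injective _ _) ?_
  show (phiNine ((α (u9E M E h9) : LE (M * 2) E) : LaurentSeries E)).eval
    ((β (u9E M E h9) : LE (M * 2) E) : LaurentSeries E) = 0
  rw [coe_heckeAlphaBar, coe_beta_u9E, coe_u9E]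
  exact eval_phiNine_u9 E

/-- `Φ₉(β u₉, α u₉) = 0`. -/
theorem eval_phiNine_beta_alpha (h9 : 9 ∣ M) :
    (phiNine (β (u9E M E h9))).eval (α (u9E M E h9)) = 0 := by
  rw [← eval_phiNine_comm]
  exact eval_phiNine_alpha_beta M E h9

/-- **`G₉(α s₉, β s₉) = 0`** in `LE (M · 2) E`. -/
theorem eval_gNine_alpha_beta (h9 : 9 ∣ M) :
    (gNine (α (s9E M E h9))).eval (β (s9E M E h9)) = 0 := by
  refine eval_gNine_of_map (algebraMap (LE (M * 2) E) (LaurentSeries E))
    (FaithfulSMul.algebraMap_injective _ _) ?_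
  show (gNine ((α (s9E M E h9) : LE (M * 2) E) : LaurentSeries E)).eval
    ((β (s9E M E h9) : LE (M * 2) E) : LaurentSeries E) = 0
  rw [coe_heckeAlphaBar, coe_beta_s9E, coe_s9E]
  exact eval_gNine_s9 E

theorem eval_gNine_beta_alpha (h9 : 9 ∣ M) :
    (gNine (β (s9E M E h9))).eval (α (s9E M E h9)) = 0 := by
  rw [← eval_gNine_comm]
  exact eval_gNine_alpha_beta M E h9

/-- The modular equation of level `2` for `x = α u₉`, `y = β u₉`. -/
theorem modEq2_alpha_beta (h9 : 9 ∣ M) :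
    α (u9E M E h9) ^ 3 + β (u9E M E h9) ^ 3
      = α (u9E M E h9) ^ 2 * β (u9E M E h9) ^ 2
        + 6 * α (u9E M E h9) * β (u9E M E h9) * (α (u9E M E h9) + β (u9E M E h9))
        + 27 * α (u9E M E h9) * β (u9E M E h9) := by
  have h := eval_phiNine_alpha_beta M E h9
  rw [eval_phiNine] at h
  linear_combination h

/-- **Kronecker at `q = 2`, explicit**: `t₁ t₂ = 2 G` with
`t₁ = β u - (α u)²`, `t₂ = (β u)² - α u`, `G = α u · β u · (3 α u + 3 β u + 13)`. -/
theorem kronecker_nine (h9 : 9 ∣ M) :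
    (β (u9E M E h9) - α (u9E M E h9) ^ 2) * (β (u9E M E h9) ^ 2 - α (u9E M E h9))
      = 2 * (α (u9E M E h9) * β (u9E M E h9)
          * (3 * α (u9E M E h9) + 3 * β (u9E M E h9) + 13)) := by
  have h := eval_phiNine_alpha_beta M E h9
  rw [eval_phiNine_kronecker] at h
  linear_combination h

/-- The Kronecker cofactor `G = x y (3x + 3y + 13)` is congruent to `x² · cusp(x)`,
`cusp(x) = x (x² + 9x + 27)`, modulo `(2, y - x²)`: it is a unit at a point of the special
fibre on the component `y = x²` exactly when the point is not a cusp. -/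
theorem kronecker_cofactor_nine {R : Type*} [CommRing R] (x y : R) :
    x * y * (3 * x + 3 * y + 13) = x ^ 2 * (x * (x ^ 2 + 9 * x + 27))
      + 2 * (x ^ 3 * (x ^ 2 - 3 * x - 7))
      + (y - x ^ 2) * (x * (3 * x + 3 * y + 13) + 3 * x ^ 3) := by
  ring

/-- Cusp shape at level `M · 2`: `x³ + y³ = x y (1 + 6 (x + y) + 27 x y)` for `x = α s₉`,
`y = β s₉`. -/
theorem cusp_nine (h9 : 9 ∣ M) :
    α (s9E M E h9) ^ 3 + β (s9E M E h9) ^ 3
      = α (s9E M E h9) * β (s9E M E h9)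
        * (1 + 6 * (α (s9E M E h9) + β (s9E M E h9)) + 27 * α (s9E M E h9) * β (s9E M E h9)) :=
  cusp_of_eval_gNine (eval_gNine_alpha_beta M E h9)

/-! #### `hwu` : integrality of `β u'` over `O[α u']`, on both charts, both directions -/

variable {O : Type*} [CommRing O] [Algebra O (LE (M * 2) E)]

/-- `hwu`, chart zero: `u₉(q²)` is integral over `O[u₉(q)]`. -/
theorem hwu_u9E (h9 : 9 ∣ M) :
    IsIntegral (Algebra.adjoin O {α (u9E M E h9)}) (β (u9E M E h9)) :=
  isIntegral_adjoin_of_eval_phiNine O (eval_phiNine_alpha_beta M E h9)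

/-- Chart zero: `u₉(q)` is integral over `O[u₉(q²)]`. -/
theorem hwu_u9E' (h9 : 9 ∣ M) :
    IsIntegral (Algebra.adjoin O {β (u9E M E h9)}) (α (u9E M E h9)) :=
  isIntegral_adjoin_of_eval_phiNine O (eval_phiNine_beta_alpha M E h9)

/-- `hwu`, chart infinity, coordinate `s₉`: `s₉(q²)` is integral over `O[s₉(q)]`. -/
theorem hwu_s9E (h9 : 9 ∣ M) :
    IsIntegral (Algebra.adjoin O {α (s9E M E h9)}) (β (s9E M E h9)) :=
  isIntegral_adjoin_of_eval_gNine O (eval_gNine_alpha_beta M E h9)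

theorem hwu_s9E' (h9 : 9 ∣ M) :
    IsIntegral (Algebra.adjoin O {β (s9E M E h9)}) (α (s9E M E h9)) :=
  isIntegral_adjoin_of_eval_gNine O (eval_gNine_beta_alpha M E h9)

/-- `hwu`, chart infinity, literal coordinate `u₉⁻¹`. -/
theorem hwu_u9E_inv (h9 : 9 ∣ M) :
    IsIntegral (Algebra.adjoin O {α (u9E M E h9)⁻¹}) (β (u9E M E h9)⁻¹) :=
  hwu_s9E M E h9

theorem hwu_u9E_inv' (h9 : 9 ∣ M) :
    IsIntegral (Algebra.adjoin O {β (u9E M E h9)⁻¹}) (α (u9E M E h9)⁻¹) :=
  hwu_s9E' M E h9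

end Level

end Fermat.Agent.S36.Haupt9
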