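import Mathlib
import Fermat.Agent.S36.ThickUnram
import Fermat.Agent.S36.Haupt9.ModEq2

/-!
# S36, brick C1 at `q = 2`: thickness one WITHOUT any pole input

Setting of `S34/Modular/ChartZero` section `Main` VERBATIM at `ℓ = 2` (`O` a DVR with uniformiser
`ϖ`, `L' ⊆ L` via `α`, `σ : L → E((x))`, `u'`, `U`, `w`; `C = Chart O (α u')`,
`p_∞ = ker redInf`, `p_0 = ker redZero`, `u = α u'`, `v = w u`).

For the Hauptmodul `u₉` of `Γ₀(9)` the modular equation of level `2` is explicit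
(`Haupt9/ModEq2`): `Φ₉(u, v) = (v - u²)(v² - u) - 2 u v (3u + 3v + 13)`, so the Kronecker
cofactor is the explicit element `G = u v (3u + 3v + 13)`, and
`G ≡ u² · u (u² + 9u + 27)  mod (2, v - u²)`:
it is a unit at every point of the `∞`-component which is not a cusp.  Hence

* `exists_not_mem_mul_eq_two` : `(v - u²)(u - v²) = ϖ g` with `g ∉ y` at every prime `y ⊇ p_∞`
  with `u (u² + 9u + 27) ∉ y` — the conclusion of `ThickGauss.exists_not_mem_mul_eq` at `ℓ = 2`,
  with NO derivation, NO local principality input and NO Hasse pair `(a, b)`;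
* `prin_two` : both branches are principal at such a point (`= ThickGauss.prin_of_pole`);
* `prinAt_two` / `prinAt_two_of_nb` : the C1 exit `ThickUnram.prinAt_of_unram` at `ℓ = 2`
  (the second with the literal non-cuspidality binder `hnb` of `prinAt_of_unram`);
* `gen_two` : the C1 exit on the whole chart (`= ThickUnram.gen_of_unram` at `ℓ = 2`).

The hypothesis `hkron` (the Kronecker form of `Φ₉(u, v) = 0`) is discharged by
`kron_of_sigma` as soon as the `q`-expansion of `u'` is `u₉` (`U = u9 O`).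
-/

set_option autoImplicit false
set_option linter.unusedSectionVars false
set_option linter.style.haveILetI false

noncomputable section

namespace Fermat.Agent.S36.Haupt9.Thick2

open ModularCurve Polynomial
open Fermat.Agent.S30 Fermat.Agent.S34 Fermat.Agent.S34.TwoPrimesGauss
open Fermat.Agent.S36.ThickGauss Fermat.Agent.S36.PrinAt

/-! ### The Kronecker form of the modular equation from the `q`-expansion -/

section Sigma

variable {O E : Type*} [CommRing O] [Field E] [Algebra O E]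
  {L : Type*} [Field L] (σ : L →+* LaurentSeries E)

/-- If `σ x = u₉` and `σ y = u₉(q²)` then `(y - x²)(y² - x) = 2 x y (3x + 3y + 13)`. -/
theorem kron_of_sigma_eq (x y : L) (hx : σ x = u9 E) (hy : σ y = qExpand E 2 (u9 E)) :
    (y - x ^ 2) * (y ^ 2 - x) = 2 * (x * y * (3 * x + 3 * y + 13)) := by
  have h := eval_phiNine_u9 E
  rw [eval_phiNine_kronecker] at h
  apply σ.injective
  simp only [map_mul, map_sub, map_add, map_pow, map_ofNat, hx, hy]
  linear_combination h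

end Sigma

/-! ### The chart -/

section Main

variable {O E : Type*} [CommRing O] [IsDomain O] [IsDiscreteValuationRing O] [Field E]
  [Algebra O E] [FaithfulSMul O E]
  {L' L : Type*} [Field L'] [Field L] [Algebra O L'] [Algebra O L]
  (ϖ : O) (hϖ : Irreducible ϖ)
  (α : L' →+* L) (hαO : ∀ r : O, α (algebraMap O L' r) = algebraMap O L r)
  (σ : L →+* LaurentSeries E)
  (hσO : ∀ r : O, σ (algebraMap O L r) = HahnSeries.C (algebraMap O E r))
  (hσfrac : ∀ x : L, σ x ∈ GaussDVR.fracField O E)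
  (u' : L') (U : LaurentSeries O) (hσu : σ (α u') = GaussDVR.iota O E U)
  (w : L ≃+* L) (hwO : ∀ r : O, w (algebraMap O L r) = algebraMap O L r)
  (hwα : ∀ x : L', σ (w (α x)) = qExpand E 2 (σ (α x)))
  (hww : ∀ z : L, w (w z) = z)
  (hprime : Prime (piC u' ϖ))
  (hcop : IsCoprime (GaussDVR.rho O U).order ((2 : ℕ) : ℤ)) (hord : (GaussDVR.rho O U).order ≠ 0)
  (hfrob : qExpand (IsLocalRing.ResidueField O) 2 (GaussDVR.rho O U) = GaussDVR.rho O U ^ 2)
  (hwu : IsIntegral (Algebra.adjoin O {α u'}) (w (α u')))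
  (hrank : ∀ v : Option (Fin 1 ⊕ Fin 2) → Chart O (α u'),
    ∃ c : Option (Fin 1 ⊕ Fin 2) → Chart O u', c ≠ 0 ∧ ∑ i, incl α hαO u' (c i) * v i = 0)

local notation "rI" => redInf ϖ hϖ α σ hσO hσfrac u' U hσu
local notation "rZ" => redZero ϖ hϖ α σ hσO hσfrac u' U hσu w hwO 2 hwα
local notation "ι" => incl α hαO u'
local notation "ρU" => GaussDVR.rho O U
local notation "uC" => incl α hαO u' (polyChart u' X)
local notation "vC" =>
  Fermat.Agent.S34.Modular.ChartZero.wChart α u' w hwO hww hwu (incl α hαO u' (polyChart u' X))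

include hσu hwα in
/-- `hkron` from the `q`-expansion: if `U = u9 O` then
`(w u - u²)((w u)² - u) = 2 u (w u)(3u + 3 w u + 13)` for `u = α u'`. -/
theorem kron_of_sigma (hU : GaussDVR.iota O E U = u9 E) :
    (w (α u') - α u' ^ 2) * (w (α u') ^ 2 - α u')
      = 2 * (α u' * w (α u') * (3 * α u' + 3 * w (α u') + 13)) :=
  kron_of_sigma_eq σ (α u') (w (α u')) (hσu.trans hU) (by rw [hwα, hσu, hU])

/-- The coordinate `u - c` of the chart. -/
theorem coe_incl_sub (c : O) :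
    ((ι (polyChart u' (X - C c)) : Chart O (α u')) : L) = α u' - algebraMap O L c := by
  rw [coe_incl, coe_polyChart, map_sub, aeval_X, aeval_C, map_sub, hαO]

include hϖ hαO hσO hσfrac hσu hwO hwα hww hfrob hwu in
/-- **Thickness one at `q = 2`, explicit.**  `t₁ * t₂ = ϖ * g` with `g` a unit at every prime
`y ⊇ p_∞` which is not a cusp. -/
theorem exists_not_mem_mul_eq_two (e : O) (he : IsUnit e) (hℓe : ((2 : ℕ) : O) = ϖ * e)
    (hkron : (w (α u') - α u' ^ 2) * (w (α u') ^ 2 - α u')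
      = 2 * (α u' * w (α u') * (3 * α u' + 3 * w (α u') + 13)))
    (y : Ideal (Chart O (α u'))) [hy : y.IsPrime] (hIy : RingHom.ker rI ≤ y)
    (hcusp : uC * (uC ^ 2 + 9 * uC + 27) ∉ y) :
    ∃ g : Chart O (α u'), g ∉ y ∧ (vC - uC ^ 2) * (uC - vC ^ 2) = piC (α u') ϖ * g := by
  classical
  set f : Chart O (α u') →+* L := algebraMap (Chart O (α u')) L with hf
  have hfinj : Function.Injective f := Subtype.val_injective
  have hfu : f uC = α u' := coe_uC α hαO u'
  have hfv : f vC = w (α u') := coe_vC α hαO u' w hwO hww hwu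
  have hfπ : ∀ r : O, f (piC (α u') r) = algebraMap O L r := fun r => rfl
  have h2L : algebraMap O L ϖ * algebraMap O L e = 2 := by
    rw [← map_mul, ← hℓe, map_natCast, Nat.cast_ofNat]
  have h2C : (2 : Chart O (α u')) = piC (α u') ϖ * piC (α u') e := by
    apply hfinj
    rw [map_mul, hfπ, hfπ, h2L, map_ofNat]
  have hπI : piC (α u') ϖ ∈ RingHom.ker rI := redHom_piC σ hσO ϖ hϖ hσfrac (α u') U hσu
  have h2y : (2 : Chart O (α u')) ∈ y := by
    rw [h2C]
    exact y.mul_mem_right _ (hIy hπI)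
  have ht1 : vC - uC ^ 2 ∈ y :=
    hIy (t1_mem ϖ hϖ α hαO σ hσO hσfrac u' U hσu w hwO 2 hwα hww hfrob hwu)
  -- `e` is a unit of the chart
  obtain ⟨e', hee'⟩ := he.exists_right_inv
  have heC : piC (α u') e * piC (α u') e' = 1 := by
    apply hfinj
    rw [map_mul, hfπ, hfπ, ← map_mul, hee', map_one, map_one]
  have hey : piC (α u') e ∉ y := fun h =>
    hy.ne_top ((Ideal.eq_top_iff_one y).mpr (heC ▸ y.mul_mem_right _ h))
  refine ⟨-(piC (α u') e * (uC * vC * (3 * uC + 3 * vC + 13))), ?_, ?_⟩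
  · intro hg
    have hG0 : piC (α u') e * (uC * vC * (3 * uC + 3 * vC + 13)) ∈ y := by
      have := y.neg_mem hg
      rwa [neg_neg] at this
    have hG : uC * vC * (3 * uC + 3 * vC + 13) ∈ y := (hy.mem_or_mem hG0).resolve_left hey
    -- `G ≡ u² · cusp(u)` modulo `(2, v - u²)`
    have hcong : uC ^ 2 * (uC * (uC ^ 2 + 9 * uC + 27))
        = uC * vC * (3 * uC + 3 * vC + 13)
          - 2 * (uC ^ 3 * (uC ^ 2 - 3 * uC - 7))
          - (vC - uC ^ 2) * (uC * (3 * uC + 3 * vC + 13) + 3 * uC ^ 3) := by ring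
    have hmem : uC ^ 2 * (uC * (uC ^ 2 + 9 * uC + 27)) ∈ y := by
      rw [hcong]
      exact y.sub_mem (y.sub_mem hG (y.mul_mem_right _ h2y)) (y.mul_mem_right _ ht1)
    rcases hy.mem_or_mem hmem with h | h
    · exact hcusp (y.mul_mem_right _ (hy.mem_of_pow_mem 2 h))
    · exact hcusp h
  · apply hfinj
    simp only [map_mul, map_sub, map_neg, map_add, map_pow, map_ofNat, hfu, hfv, hfπ]
    linear_combination (-1 : L) * hkron
      + (α u' * w (α u') * (3 * α u' + 3 * w (α u') + 13)) * h2L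

include hϖ hαO hσO hσfrac hσu hwO hwα hww hprime hcop hord hfrob hwu hrank in
/-- **Both branches are principal at a non-cuspidal crossing point** (`q = 2`): `p_∞ = (t₁)`,
`p_0 = (t₂)` locally at `y`.  The conclusion of `ThickGauss.prin_of_pole`. -/
theorem prin_two (e : O) (he : IsUnit e) (hℓe : ((2 : ℕ) : O) = ϖ * e)
    (hkron : (w (α u') - α u' ^ 2) * (w (α u') ^ 2 - α u')
      = 2 * (α u' * w (α u') * (3 * α u' + 3 * w (α u') + 13)))
    (y : Ideal (Chart O (α u'))) [hy : y.IsPrime] (hIy : RingHom.ker rI ≤ y)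
    (hcusp : uC * (uC ^ 2 + 9 * uC + 27) ∉ y) :
    (∀ m ∈ RingHom.ker rI, ∃ s, s ∉ y ∧ s * m ∈ Ideal.span {vC - uC ^ 2}) ∧
      (∀ m ∈ RingHom.ker rZ, ∃ s, s ∉ y ∧ s * m ∈ Ideal.span {uC - vC ^ 2}) := by
  obtain ⟨g, hg, h⟩ := exists_not_mem_mul_eq_two ϖ hϖ α hαO σ hσO hσfrac u' U hσu w hwO hwα hww
    hfrob hwu e he hℓe hkron y hIy hcusp
  exact Fermat.Agent.S36.Thick.principal_branches (piC (α u') ϖ) (vC - uC ^ 2) (uC - vC ^ 2) g
    (RingHom.ker rI) (RingHom.ker rZ) y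
    (inf_eq ϖ hϖ α hαO σ hσO hσfrac u' U hσu w hwO 2 hwα hww hprime hcop hord le_rfl hfrob hwu
      hrank)
    (t1_mem ϖ hϖ α hαO σ hσO hσfrac u' U hσu w hwO 2 hwα hww hfrob hwu)
    (t2_mem ϖ hϖ α hαO σ hσO hσfrac u' U hσu w hwO 2 hwα hww hfrob hwu)
    (t1_ne_zero ϖ hϖ α hαO σ hσO hσfrac u' U hσu w hwO 2 hwα hww hord le_rfl hfrob hwu)
    (t2_ne_zero ϖ hϖ α hαO σ hσO hσfrac u' U hσu w hwO 2 hwα hww hord le_rfl hfrob hwu)
    hg h

include hϖ hαO hσO hσfrac hσu hwO hwα hww hprime hcop hord hfrob hwu hrank in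
/-- **The C1 exit at a non-cuspidal point, `q = 2`** (`ThickUnram.prinAt_of_unram` at `ℓ = 2`
with the pole input, the Model hypotheses and the regularity of level `M'` all REMOVED): `y` a
prime of `C = Chart O (α u')` with `u (u² + 9u + 27) ∉ y`. -/
theorem prinAt_two (e : O) (he : IsUnit e) (hℓe : ((2 : ℕ) : O) = ϖ * e)
    (hkron : (w (α u') - α u' ^ 2) * (w (α u') ^ 2 - α u')
      = 2 * (α u' * w (α u') * (3 * α u' + 3 * w (α u') + 13)))
    (y : Ideal (Chart O (α u'))) [hy : y.IsPrime]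
    (hcusp : uC * (uC ^ 2 + 9 * uC + 27) ∉ y) :
    (RingHom.ker rI ≤ y → ∃ t, t ≠ 0 ∧ PrinAt y (RingHom.ker rI) t) ∧
      (RingHom.ker rZ ≤ y → ∃ t, t ≠ 0 ∧ PrinAt y (RingHom.ker rZ) t) := by
  classical
  have hπ0 : piC (α u') ϖ ≠ 0 := by
    rw [← incl_piC ϖ α hαO u']
    exact fun h => hprime.ne_zero (incl_injective α hαO u' (by rw [h, map_zero]))
  have hπI : piC (α u') ϖ ∈ RingHom.ker rI := redHom_piC σ hσO ϖ hϖ hσfrac (α u') U hσu
  have hπZ : piC (α u') ϖ ∈ RingHom.ker rZ :=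
    redHom_piC (σ.comp (w : L →+* L)) (sigmaW_O σ hσO w hwO) ϖ hϖ (fun x => hσfrac (w x))
      (α u') (qExpand O 2 U) (sigmaW_u α σ u' U hσu w 2 hwα)
  have hcross : RingHom.ker rI ≤ y →
      PrinAt y (RingHom.ker rI) (vC - uC ^ 2) ∧ PrinAt y (RingHom.ker rZ) (uC - vC ^ 2) := by
    intro hI
    have hprin := prin_two ϖ hϖ α hαO σ hσO hσfrac u' U hσu w hwO hwα hww hprime hcop hord hfrob
      hwu hrank e he hℓe hkron y hI hcusp
    exact ⟨⟨t1_mem ϖ hϖ α hαO σ hσO hσfrac u' U hσu w hwO 2 hwα hww hfrob hwu, hprin.1⟩,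
      ⟨t2_mem ϖ hϖ α hαO σ hσO hσfrac u' U hσu w hwO 2 hwα hww hfrob hwu, hprin.2⟩⟩
  constructor
  · intro hI
    by_cases hZ : RingHom.ker rZ ≤ y
    · exact ⟨_, t1_ne_zero ϖ hϖ α hαO σ hσO hσfrac u' U hσu w hwO 2 hwα hww hord le_rfl hfrob hwu,
        (hcross hI).1⟩
    · exact ⟨_, hπ0, hπI, prin_inf_of_not_le ϖ hϖ α hαO σ hσO hσfrac u' U hσu w hwO 2 hwα hww
        hprime hcop hord le_rfl hfrob hwu hrank y hZ⟩
  · intro hZ
    by_cases hI : RingHom.ker rI ≤ y
    · exact ⟨_, t2_ne_zero ϖ hϖ α hαO σ hσO hσfrac u' U hσu w hwO 2 hwα hww hord le_rfl hfrob hwu,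
        (hcross hI).2⟩
    · exact ⟨_, hπ0, hπZ, prin_zero_of_not_le ϖ hϖ α hαO σ hσO hσfrac u' U hσu w hwO 2 hwα hww
        hprime hcop hord le_rfl hfrob hwu hrank y hI⟩

include hαO in
/-- Non-cuspidality in the literal shape of `ThickUnram.prinAt_of_unram` (`hnb` for a set `S`
containing `0` and the two roots `c, c'` of `X² + 9X + 27`) gives `u (u² + 9u + 27) ∉ y`. -/
theorem cusp_not_mem_of_nb (S : Finset O) (h0 : (0 : O) ∈ S) (c c' : O) (hc : c ∈ S)
    (hc' : c' ∈ S) (hsum : c + c' = -9) (hprod : c * c' = 27)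
    (y : Ideal (Chart O (α u'))) [hy : y.IsPrime]
    (hnb : ∀ c ∈ S, ∀ m : Chart O u', ι m ∈ y → (m : L') ≠ u' - algebraMap O L' c) :
    uC * (uC ^ 2 + 9 * uC + 27) ∉ y := by
  set f : Chart O (α u') →+* L := algebraMap (Chart O (α u')) L with hf
  have hfinj : Function.Injective f := Subtype.val_injective
  have hfu : f uC = α u' := coe_uC α hαO u'
  have hfc : ∀ r : O, f (ι (polyChart u' (X - C r))) = α u' - algebraMap O L r :=
    fun r => coe_incl_sub α hαO u' r
  have hn : ∀ r ∈ S, ι (polyChart u' (X - C r)) ∉ y := fun r hr hmem =>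
    hnb r hr (polyChart u' (X - C r)) hmem (by
      rw [coe_polyChart, map_sub, aeval_X, aeval_C])
  have h1 : algebraMap O L c + algebraMap O L c' = -9 := by
    rw [← map_add, hsum, map_neg, map_ofNat]
  have h2 : algebraMap O L c * algebraMap O L c' = 27 := by
    rw [← map_mul, hprod, map_ofNat]
  have hfac : uC * (uC ^ 2 + 9 * uC + 27)
      = ι (polyChart u' (X - C 0)) * (ι (polyChart u' (X - C c)) * ι (polyChart u' (X - C c'))) := by
    apply hfinj
    simp only [map_mul, map_add, map_pow, map_ofNat, hfu, hfc, map_zero, sub_zero]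
    linear_combination (α u' ^ 2) * h1 - (α u') * h2
  rw [hfac]
  intro hmem
  rcases hy.mem_or_mem hmem with h | h
  · exact hn 0 h0 h
  · rcases hy.mem_or_mem h with h | h
    · exact hn c hc h
    · exact hn c' hc' h

include hϖ hαO hσO hσfrac hσu hwO hwα hww hprime hcop hord hfrob hwu hrank in
/-- **The C1 exit at a non-cuspidal point, `q = 2`**, with the literal non-cuspidality binder
`hnb` of `ThickUnram.prinAt_of_unram`. -/
theorem prinAt_two_of_nb (e : O) (he : IsUnit e) (hℓe : ((2 : ℕ) : O) = ϖ * e)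
    (hkron : (w (α u') - α u' ^ 2) * (w (α u') ^ 2 - α u')
      = 2 * (α u' * w (α u') * (3 * α u' + 3 * w (α u') + 13)))
    (S : Finset O) (h0 : (0 : O) ∈ S) (c c' : O) (hc : c ∈ S) (hc' : c' ∈ S)
    (hsum : c + c' = -9) (hprod : c * c' = 27)
    (y : Ideal (Chart O (α u'))) [hy : y.IsPrime]
    (hnb : ∀ c ∈ S, ∀ m : Chart O u', ι m ∈ y → (m : L') ≠ u' - algebraMap O L' c) :
    (RingHom.ker rI ≤ y → ∃ t, t ≠ 0 ∧ PrinAt y (RingHom.ker rI) t) ∧
      (RingHom.ker rZ ≤ y → ∃ t, t ≠ 0 ∧ PrinAt y (RingHom.ker rZ) t) :=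
  prinAt_two ϖ hϖ α hαO σ hσO hσfrac u' U hσu w hwO hwα hww hprime hcop hord hfrob hwu hrank e he
    hℓe hkron y (cusp_not_mem_of_nb α hαO u' S h0 c c' hc hc' hsum hprod y hnb)

include hϖ hαO hσO hσfrac hσu hwO hwα hww hprime hcop hord hfrob hwu hrank in
/-- **The C1 exit on the whole chart, `q = 2`** (the fields `gen_oo`, `gen_0` of `S36/C11.Data`;
`ThickUnram.gen_of_unram` at `ℓ = 2` without pole input): both vertical primes are locally
principal at EVERY closed point, provided the crossing points are non-cuspidal. -/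
theorem gen_two (e : O) (he : IsUnit e) (hℓe : ((2 : ℕ) : O) = ϖ * e)
    (hkron : (w (α u') - α u' ^ 2) * (w (α u') ^ 2 - α u')
      = 2 * (α u' * w (α u') * (3 * α u' + 3 * w (α u') + 13)))
    (hnb : ∀ y : Ideal (Chart O (α u')), y.IsMaximal → RingHom.ker rI ≤ y → RingHom.ker rZ ≤ y →
      uC * (uC ^ 2 + 9 * uC + 27) ∉ y) :
    (∀ y : Ideal (Chart O (α u')), y.IsMaximal → RingHom.ker rI ≤ y →
        ∃ t, t ≠ 0 ∧ PrinAt y (RingHom.ker rI) t) ∧
      (∀ y : Ideal (Chart O (α u')), y.IsMaximal → RingHom.ker rZ ≤ y →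
        ∃ t, t ≠ 0 ∧ PrinAt y (RingHom.ker rZ) t) := by
  classical
  have hπ0 : piC (α u') ϖ ≠ 0 := by
    rw [← incl_piC ϖ α hαO u']
    exact fun h => hprime.ne_zero (incl_injective α hαO u' (by rw [h, map_zero]))
  have hπI : piC (α u') ϖ ∈ RingHom.ker rI := redHom_piC σ hσO ϖ hϖ hσfrac (α u') U hσu
  have hπZ : piC (α u') ϖ ∈ RingHom.ker rZ :=
    redHom_piC (σ.comp (w : L →+* L)) (sigmaW_O σ hσO w hwO) ϖ hϖ (fun x => hσfrac (w x))
      (α u') (qExpand O 2 U) (sigmaW_u α σ u' U hσu w 2 hwα)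
  have key : ∀ y : Ideal (Chart O (α u')), y.IsMaximal → RingHom.ker rI ≤ y →
      RingHom.ker rZ ≤ y →
      (∃ t, t ≠ 0 ∧ PrinAt y (RingHom.ker rI) t) ∧ (∃ t, t ≠ 0 ∧ PrinAt y (RingHom.ker rZ) t) := by
    intro y hy hI hZ
    haveI : y.IsPrime := hy.isPrime
    have h := prinAt_two ϖ hϖ α hαO σ hσO hσfrac u' U hσu w hwO hwα hww hprime hcop hord hfrob hwu
      hrank e he hℓe hkron y (hnb y hy hI hZ)
    exact ⟨h.1 hI, h.2 hZ⟩
  constructor
  · intro y hy hI
    by_cases hZ : RingHom.ker rZ ≤ y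
    · exact (key y hy hI hZ).1
    · exact ⟨_, hπ0, hπI, prin_inf_of_not_le ϖ hϖ α hαO σ hσO hσfrac u' U hσu w hwO 2 hwα hww
        hprime hcop hord le_rfl hfrob hwu hrank y hZ⟩
  · intro y hy hZ
    by_cases hI : RingHom.ker rI ≤ y
    · exact (key y hy hI hZ).2
    · exact ⟨_, hπ0, hπZ, prin_zero_of_not_le ϖ hϖ α hαO σ hσO hσfrac u' U hσu w hwO 2 hwα hww
        hprime hcop hord le_rfl hfrob hwu hrank y hI⟩

end Main

end Fermat.Agent.S36.Haupt9.Thick2
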