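import Mathlib
import Fermat.Agent.S36.Haupt9.Thick2

/-!
# S36, brick C1 at `q = 2`: the cofactor criterion, the chart at infinity, exit predicates

Setting of `S34/Modular/ChartZero` section `Main` VERBATIM at `ℓ = 2` (as in `Haupt9/Thick2`).

* `exists_not_mem_mul_eq_of_cofactor`, `prinAt_of_cofactor` : the level-free criterion behind
  `Thick2.prinAt_two`.  If `(v - u²)(v² - u) = 2 G` in the chart ring and
  `G = N + 2 A + (v - u²) B` with `N ∉ y`, then both vertical primes through `y` are locally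
  principal at `y` (no derivation, no pole input).
* `kron_inf_of_sigma_eq` : for `s = 1/u₉` the modular equation of level `2` reads
  `(y - x²)(y² - x) = 2 x y (3x + 3y + 13 x y)` (`x = s(q)`, `y = s(q²)`).
* `prinAt_two_inf` : the C1 exit on the chart at infinity (coordinate `s = 1/u₉`) at every prime
  `y` with `s (27 s² + 9 s + 1) ∉ y` (the cusps are `s = 0` and the roots of `27 s² + 9 s + 1`,
  i.e. `u = ∞` and `u² + 9u + 27 = 0`).
* `PrinExitAt`, `NonCuspZero`, `NonCuspInf` : the exit and the two non-cuspidality conditions as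
  level-free predicates, so that `E`-level statements need no elaboration of chart-ring
  arithmetic; `prinExitAt_zero`, `prinExitAt_inf`.
-/

set_option autoImplicit false
set_option linter.unusedSectionVars false
set_option linter.style.haveILetI false

noncomputable section

namespace Fermat.Agent.S36.Haupt9.Thick2

open ModularCurve Polynomial
open Fermat.Agent.S30 Fermat.Agent.S34 Fermat.Agent.S34.TwoPrimesGauss
open Fermat.Agent.S36.ThickGauss Fermat.Agent.S36.PrinAt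

/-! ### The Kronecker form of the modular equation of `s = 1/u₉` -/

section Sigma

variable {E : Type*} [Field E] {L : Type*} [Field L] (σ : L →+* LaurentSeries E)

/-- If `σ x = s₉` and `σ y = s₉(q²)` then `(y - x²)(y² - x) = 2 x y (3x + 3y + 13 x y)`. -/
theorem kron_inf_of_sigma_eq (x y : L) (hx : σ x = s9 E) (hy : σ y = qExpand E 2 (s9 E)) :
    (y - x ^ 2) * (y ^ 2 - x) = 2 * (x * y * (3 * x + 3 * y + 13 * (x * y))) := by
  have h := eval_gNine_s9 E
  rw [eval_gNine] at h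
  apply σ.injective
  simp only [map_mul, map_sub, map_add, map_pow, map_ofNat, hx, hy]
  linear_combination h

/-- The same from a root of `gNine`. -/
theorem kron_inf_of_eval_gNine {R : Type*} [CommRing R] {x y : R}
    (h : (gNine x).eval y = 0) :
    (y - x ^ 2) * (y ^ 2 - x) = 2 * (x * y * (3 * x + 3 * y + 13 * (x * y))) := by
  rw [eval_gNine] at h
  linear_combination h

end Sigma

/-! ### The chart -/

section Main

variable {O E : Type*} [CommRing O] [IsDomain O] [IsDiscreteValuationRing O] [Field E]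
  [Algebra O E] [FaithfulSMul O E]
  {L' L : Type*} [Field L'] [Field L] [Algebra O L'] [Algebra O L]
  (ϖ : O) (hϖ : Irreducible ϖ)
  (α : L' →+* L) (hαO : ∀ r : O, α (algebraMap O L' r) = algebraMap O L r)
  (σ : L →+* LaurentSeries E)
  (hσO : ∀ r : O, σ (algebraMap O L r) = HahnSeries.C (algebraMap O E r))
  (hσfrac : ∀ x : L, σ x ∈ GaussDVR.fracField O E)
  (u' : L') (U : LaurentSeries O) (hσu : σ (α u') = GaussDVR.iota O E U)
  (w : L ≃+* L) (hwO : ∀ r : O, w (algebraMap O L r) = algebraMap O L r)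
  (hwα : ∀ x : L', σ (w (α x)) = qExpand E 2 (σ (α x)))
  (hww : ∀ z : L, w (w z) = z)
  (hprime : Prime (piC u' ϖ))
  (hcop : IsCoprime (GaussDVR.rho O U).order ((2 : ℕ) : ℤ)) (hord : (GaussDVR.rho O U).order ≠ 0)
  (hfrob : qExpand (IsLocalRing.ResidueField O) 2 (GaussDVR.rho O U) = GaussDVR.rho O U ^ 2)
  (hwu : IsIntegral (Algebra.adjoin O {α u'}) (w (α u')))
  (hrank : ∀ v : Option (Fin 1 ⊕ Fin 2) → Chart O (α u'),
    ∃ c : Option (Fin 1 ⊕ Fin 2) → Chart O u', c ≠ 0 ∧ ∑ i, incl α hαO u' (c i) * v i = 0)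

local notation "rI" => redInf ϖ hϖ α σ hσO hσfrac u' U hσu
local notation "rZ" => redZero ϖ hϖ α σ hσO hσfrac u' U hσu w hwO 2 hwα
local notation "ι" => incl α hαO u'
local notation "ρU" => GaussDVR.rho O U
local notation "uC" => incl α hαO u' (polyChart u' X)
local notation "vC" =>
  Fermat.Agent.S34.Modular.ChartZero.wChart α u' w hwO hww hwu (incl α hαO u' (polyChart u' X))

/-! #### Exit predicates -/

/-- **The C1 exit at `y`**: both vertical primes of the chart `C = Chart O (α u')` are locally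
principal at `y` (each one if it passes through `y`). -/
def PrinExitAt (y : Ideal (Chart O (α u'))) : Prop :=
  (RingHom.ker rI ≤ y → ∃ t, t ≠ 0 ∧ PrinAt y (RingHom.ker rI) t) ∧
    (RingHom.ker rZ ≤ y → ∃ t, t ≠ 0 ∧ PrinAt y (RingHom.ker rZ) t)

/-- `y` is not a cusp of the `u₉`-chart: `u (u² + 9u + 27) ∉ y`. -/
def NonCuspZero (y : Ideal (Chart O (α u'))) : Prop :=
  uC * (uC ^ 2 + 9 * uC + 27) ∉ y

/-- `y` is not a cusp of the `s = 1/u₉`-chart: `s (27 s² + 9 s + 1) ∉ y`. -/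
def NonCuspInf (y : Ideal (Chart O (α u'))) : Prop :=
  uC * (27 * uC ^ 2 + 9 * uC + 1) ∉ y

theorem PrinExitAt.inf {y : Ideal (Chart O (α u'))}
    (h : PrinExitAt ϖ hϖ α σ hσO hσfrac u' U hσu w hwO hwα y) (hy : RingHom.ker rI ≤ y) :
    ∃ t, t ≠ 0 ∧ PrinAt y (RingHom.ker rI) t := h.1 hy

theorem PrinExitAt.zero {y : Ideal (Chart O (α u'))}
    (h : PrinExitAt ϖ hϖ α σ hσO hσfrac u' U hσu w hwO hwα y) (hy : RingHom.ker rZ ≤ y) :
    ∃ t, t ≠ 0 ∧ PrinAt y (RingHom.ker rZ) t := h.2 hy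

theorem nonCuspZero_iff (y : Ideal (Chart O (α u'))) :
    NonCuspZero α hαO u' y ↔ uC * (uC ^ 2 + 9 * uC + 27) ∉ y := Iff.rfl

theorem nonCuspInf_iff (y : Ideal (Chart O (α u'))) :
    NonCuspInf α hαO u' y ↔ uC * (27 * uC ^ 2 + 9 * uC + 1) ∉ y := Iff.rfl

/-- Non-cuspidality from the two factors. -/
theorem nonCuspZero_of_not_mem (y : Ideal (Chart O (α u'))) [hy : y.IsPrime]
    (h1 : uC ∉ y) (h2 : uC ^ 2 + 9 * uC + 27 ∉ y) : NonCuspZero α hαO u' y := fun h =>
  (hy.mem_or_mem h).elim h1 h2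

theorem nonCuspInf_of_not_mem (y : Ideal (Chart O (α u'))) [hy : y.IsPrime]
    (h1 : uC ∉ y) (h2 : 27 * uC ^ 2 + 9 * uC + 1 ∉ y) : NonCuspInf α hαO u' y := fun h =>
  (hy.mem_or_mem h).elim h1 h2

/-- Non-cuspidality of the `u₉`-chart in the literal shape `hnb` of
`ThickUnram.prinAt_of_unram`. -/
theorem nonCuspZero_of_nb (S : Finset O) (h0 : (0 : O) ∈ S) (c c' : O) (hc : c ∈ S)
    (hc' : c' ∈ S) (hsum : c + c' = -9) (hprod : c * c' = 27)
    (y : Ideal (Chart O (α u'))) [hy : y.IsPrime]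
    (hnb : ∀ c ∈ S, ∀ m : Chart O u', ι m ∈ y → (m : L') ≠ u' - algebraMap O L' c) :
    NonCuspZero α hαO u' y :=
  cusp_not_mem_of_nb α hαO u' S h0 c c' hc hc' hsum hprod y hnb

/-! #### The cofactor criterion -/

include hϖ hαO hσO hσfrac hσu hwO hwα hww hfrob hwu in
/-- **Thickness one from an explicit Kronecker cofactor** (`ℓ = 2`).  If
`(v - u²)(v² - u) = 2 G` and `G = N + 2 A + (v - u²) B` with `N ∉ y`, then
`(v - u²)(u - v²) = ϖ g` with `g ∉ y`. -/
theorem exists_not_mem_mul_eq_of_cofactor (e : O) (he : IsUnit e) (hℓe : ((2 : ℕ) : O) = ϖ * e)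
    (G N A B : Chart O (α u'))
    (hkron : (vC - uC ^ 2) * (vC ^ 2 - uC) = 2 * G)
    (hcong : G = N + 2 * A + (vC - uC ^ 2) * B)
    (y : Ideal (Chart O (α u'))) [hy : y.IsPrime] (hIy : RingHom.ker rI ≤ y) (hN : N ∉ y) :
    ∃ g : Chart O (α u'), g ∉ y ∧ (vC - uC ^ 2) * (uC - vC ^ 2) = piC (α u') ϖ * g := by
  classical
  set f : Chart O (α u') →+* L := algebraMap (Chart O (α u')) L with hf
  have hfinj : Function.Injective f := Subtype.val_injective
  have hfπ : ∀ r : O, f (piC (α u') r) = algebraMap O L r := fun r => rfl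
  have h2L : algebraMap O L ϖ * algebraMap O L e = 2 := by
    rw [← map_mul, ← hℓe, map_natCast, Nat.cast_ofNat]
  have h2C : (2 : Chart O (α u')) = piC (α u') ϖ * piC (α u') e := by
    apply hfinj
    rw [map_mul, hfπ, hfπ, h2L, map_ofNat]
  have hπI : piC (α u') ϖ ∈ RingHom.ker rI := redHom_piC σ hσO ϖ hϖ hσfrac (α u') U hσu
  have h2y : (2 : Chart O (α u')) ∈ y := by
    rw [h2C]
    exact y.mul_mem_right _ (hIy hπI)
  have ht1 : vC - uC ^ 2 ∈ y :=
    hIy (t1_mem ϖ hϖ α hαO σ hσO hσfrac u' U hσu w hwO 2 hwα hww hfrob hwu)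
  obtain ⟨e', hee'⟩ := he.exists_right_inv
  have heC : piC (α u') e * piC (α u') e' = 1 := by
    apply hfinj
    rw [map_mul, hfπ, hfπ, ← map_mul, hee', map_one, map_one]
  have hey : piC (α u') e ∉ y := fun h =>
    hy.ne_top ((Ideal.eq_top_iff_one y).mpr (heC ▸ y.mul_mem_right _ h))
  refine ⟨-(piC (α u') e * G), ?_, ?_⟩
  · intro hg
    have hG0 : piC (α u') e * G ∈ y := by
      have := y.neg_mem hg
      rwa [neg_neg] at this
    have hG : G ∈ y := (hy.mem_or_mem hG0).resolve_left hey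
    have hNeq : N = G - 2 * A - (vC - uC ^ 2) * B := by rw [hcong]; ring
    exact hN (hNeq ▸ y.sub_mem (y.sub_mem hG (y.mul_mem_right _ h2y)) (y.mul_mem_right _ ht1))
  · have h1 : (vC - uC ^ 2) * (uC - vC ^ 2) = -((vC - uC ^ 2) * (vC ^ 2 - uC)) := by ring
    rw [h1, hkron, h2C]
    ring

include hϖ hαO hσO hσfrac hσu hwO hwα hww hprime hcop hord hfrob hwu hrank in
/-- **The C1 exit from an explicit Kronecker cofactor** (`ℓ = 2`). -/
theorem prinAt_of_cofactor (e : O) (he : IsUnit e) (hℓe : ((2 : ℕ) : O) = ϖ * e)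
    (G N A B : Chart O (α u'))
    (hkron : (vC - uC ^ 2) * (vC ^ 2 - uC) = 2 * G)
    (hcong : G = N + 2 * A + (vC - uC ^ 2) * B)
    (y : Ideal (Chart O (α u'))) [hy : y.IsPrime] (hN : N ∉ y) :
    PrinExitAt ϖ hϖ α σ hσO hσfrac u' U hσu w hwO hwα y := by
  classical
  have hπ0 : piC (α u') ϖ ≠ 0 := by
    rw [← incl_piC ϖ α hαO u']
    exact fun h => hprime.ne_zero (incl_injective α hαO u' (by rw [h, map_zero]))
  have hπI : piC (α u') ϖ ∈ RingHom.ker rI := redHom_piC σ hσO ϖ hϖ hσfrac (α u') U hσu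
  have hπZ : piC (α u') ϖ ∈ RingHom.ker rZ :=
    redHom_piC (σ.comp (w : L →+* L)) (sigmaW_O σ hσO w hwO) ϖ hϖ (fun x => hσfrac (w x))
      (α u') (qExpand O 2 U) (sigmaW_u α σ u' U hσu w 2 hwα)
  have hcross : RingHom.ker rI ≤ y →
      PrinAt y (RingHom.ker rI) (vC - uC ^ 2) ∧ PrinAt y (RingHom.ker rZ) (uC - vC ^ 2) := by
    intro hI
    obtain ⟨g, hg, h⟩ := exists_not_mem_mul_eq_of_cofactor ϖ hϖ α hαO σ hσO hσfrac u' U hσu w hwO
      hwα hww hfrob hwu e he hℓe G N A B hkron hcong y hI hN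
    have hprin := Fermat.Agent.S36.Thick.principal_branches (piC (α u') ϖ) (vC - uC ^ 2)
      (uC - vC ^ 2) g (RingHom.ker rI) (RingHom.ker rZ) y
      (inf_eq ϖ hϖ α hαO σ hσO hσfrac u' U hσu w hwO 2 hwα hww hprime hcop hord le_rfl hfrob hwu
        hrank)
      (t1_mem ϖ hϖ α hαO σ hσO hσfrac u' U hσu w hwO 2 hwα hww hfrob hwu)
      (t2_mem ϖ hϖ α hαO σ hσO hσfrac u' U hσu w hwO 2 hwα hww hfrob hwu)
      (t1_ne_zero ϖ hϖ α hαO σ hσO hσfrac u' U hσu w hwO 2 hwα hww hord le_rfl hfrob hwu)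
      (t2_ne_zero ϖ hϖ α hαO σ hσO hσfrac u' U hσu w hwO 2 hwα hww hord le_rfl hfrob hwu)
      hg h
    exact ⟨⟨t1_mem ϖ hϖ α hαO σ hσO hσfrac u' U hσu w hwO 2 hwα hww hfrob hwu, hprin.1⟩,
      ⟨t2_mem ϖ hϖ α hαO σ hσO hσfrac u' U hσu w hwO 2 hwα hww hfrob hwu, hprin.2⟩⟩
  constructor
  · intro hI
    by_cases hZ : RingHom.ker rZ ≤ y
    · exact ⟨_, t1_ne_zero ϖ hϖ α hαO σ hσO hσfrac u' U hσu w hwO 2 hwα hww hord le_rfl hfrob hwu,
        (hcross hI).1⟩
    · exact ⟨_, hπ0, hπI, prin_inf_of_not_le ϖ hϖ α hαO σ hσO hσfrac u' U hσu w hwO 2 hwα hww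
        hprime hcop hord le_rfl hfrob hwu hrank y hZ⟩
  · intro hZ
    by_cases hI : RingHom.ker rI ≤ y
    · exact ⟨_, t2_ne_zero ϖ hϖ α hαO σ hσO hσfrac u' U hσu w hwO 2 hwα hww hord le_rfl hfrob hwu,
        (hcross hI).2⟩
    · exact ⟨_, hπ0, hπZ, prin_zero_of_not_le ϖ hϖ α hαO σ hσO hσfrac u' U hσu w hwO 2 hwα hww
        hprime hcop hord le_rfl hfrob hwu hrank y hI⟩

/-! #### The two charts of `u₉` -/

include hϖ hαO hσO hσfrac hσu hwO hwα hww hprime hcop hord hfrob hwu hrank in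
/-- **The C1 exit on the chart `u₉`** at a non-cuspidal prime (`= Thick2.prinAt_two`). -/
theorem prinExitAt_zero (e : O) (he : IsUnit e) (hℓe : ((2 : ℕ) : O) = ϖ * e)
    (hkron : (w (α u') - α u' ^ 2) * (w (α u') ^ 2 - α u')
      = 2 * (α u' * w (α u') * (3 * α u' + 3 * w (α u') + 13)))
    (y : Ideal (Chart O (α u'))) [hy : y.IsPrime] (hcusp : NonCuspZero α hαO u' y) :
    PrinExitAt ϖ hϖ α σ hσO hσfrac u' U hσu w hwO hwα y :=
  prinAt_two ϖ hϖ α hαO σ hσO hσfrac u' U hσu w hwO hwα hww hprime hcop hord hfrob hwu hrank e he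
    hℓe hkron y hcusp

include hϖ hαO hσO hσfrac hσu hwO hwα hww hprime hcop hord hfrob hwu hrank in
/-- **The C1 exit on the chart at infinity `s = 1/u₉`** at a non-cuspidal prime: here
`u' = s` and `hkron` is the Kronecker form of `gNine` (`kron_inf_of_sigma_eq`). -/
theorem prinExitAt_inf (e : O) (he : IsUnit e) (hℓe : ((2 : ℕ) : O) = ϖ * e)
    (hkron : (w (α u') - α u' ^ 2) * (w (α u') ^ 2 - α u')
      = 2 * (α u' * w (α u') * (3 * α u' + 3 * w (α u') + 13 * (α u' * w (α u')))))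
    (y : Ideal (Chart O (α u'))) [hy : y.IsPrime] (hcusp : NonCuspInf α hαO u' y) :
    PrinExitAt ϖ hϖ α σ hσO hσfrac u' U hσu w hwO hwα y := by
  classical
  set f : Chart O (α u') →+* L := algebraMap (Chart O (α u')) L with hf
  have hfinj : Function.Injective f := Subtype.val_injective
  have hfu : f uC = α u' := coe_uC α hαO u'
  have hfv : f vC = w (α u') := coe_vC α hαO u' w hwO hww hwu
  have hkronC : (vC - uC ^ 2) * (vC ^ 2 - uC)
      = 2 * (uC * vC * (3 * uC + 3 * vC + 13 * (uC * vC))) := by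
    apply hfinj
    simp only [map_mul, map_sub, map_add, map_pow, map_ofNat, hfu, hfv]
    exact hkron
  have hN : uC ^ 4 * (27 * uC ^ 2 + 9 * uC + 1) ∉ y := by
    intro h
    rcases hy.mem_or_mem h with h | h
    · exact hcusp (y.mul_mem_right _ (hy.mem_of_pow_mem 4 h))
    · exact hcusp (y.mul_mem_left _ h)
  exact prinAt_of_cofactor ϖ hϖ α hαO σ hσO hσfrac u' U hσu w hwO hwα hww hprime hcop hord hfrob
    hwu hrank e he hℓe (uC * vC * (3 * uC + 3 * vC + 13 * (uC * vC)))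
    (uC ^ 4 * (27 * uC ^ 2 + 9 * uC + 1)) (uC ^ 4 * (1 - 3 * uC - 7 * uC ^ 2))
    (3 * uC ^ 2 + (3 * uC + 13 * uC ^ 2) * (vC + uC ^ 2)) hkronC (by ring) y hN

end Main

end Fermat.Agent.S36.Haupt9.Thick2
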