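import Mathlib
import Fermat.Agent.S34.HauptU.Plug
import Fermat.Agent.S34.Sat
import Fermat.Agent.S36.Haupt9.Thick2Inf
import Fermat.Agent.S36.Haupt9.LevelTwo
import Fermat.Agent.S36.Haupt9.Fibre

/-!
# S36, brick C1 at `q = 2`: the `E`-level instance for the coordinate `u₉`

Level `N = M · 2` (`9 ∣ M`, `2 ∤ M`), `O = OE A E` (`A` over `2`),
`α = TwoPrimesRank.alphaHom M 2 E`, `σ = HauptU.Plug.sigmaHom (M · 2) E`,
`w = HauptU.Plug.wHom M 2 E prime_two h2M`, `u' = u9E M E h9`, `U = u9 (OE A E)`.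

The whole variable block of `S34/Modular/ChartZero` section `Main` (`= TwoPrimesGauss.package`)
is discharged here at `ℓ = 2` for `u₉`:

* `hσu_u9`, `hord_u9`, `hcop_u9`, `hfrob_u9`, `hwu_u9`, `hrank_u9`, `hkron_u9` : the coordinate
  binders (`hαO`, `hσO`, `hσfrac`, `hwO`, `hwα`, `hww` are the coordinate-free ones of
  `HauptU.Plug` / `TwoPrimesRank`);
* `prinExitAt_u9` : the C1 exit at a prime `y` of the level-`2M` chart ring which is not a cusp
  (`Thick2.NonCuspZero`: `u (u² + 9u + 27) ∉ y`): both vertical primes through `y` are locally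
  principal at `y` (`Thick2.PrinExitAt`, the pointwise forms of `gen_oo`, `gen_0` of
  `S36/C11.Data`);
* `hσu_s9`, …, `hkron_s9`, `prinExitAt_s9` : the same on the chart at infinity, coordinate
  `s = 1/u₉`, `U = posO O s9Z` (`Thick2.NonCuspInf`: `s (27 s² + 9 s + 1) ∉ y`).

No pole input, no Model hypotheses at level `2M`: only `Prime (piC u₉ π)` at level `M`
(`Haupt9/Fibre.prime_u9`) and the unramified base (`2 = π * unit`).  The exits are stated with
the level-free predicates of `Haupt9/Thick2Inf`, so that no chart-ring arithmetic is elaborated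
at the `E`-level.
-/

set_option autoImplicit false
set_option linter.unusedSectionVars false
set_option linter.unusedVariables false
set_option linter.style.haveILetI false
set_option synthInstance.maxHeartbeats 400000

open ModularCurve Polynomial

noncomputable section

namespace Fermat.Agent.S36.Haupt9.C1Inst

open Fermat.Agent.S18.K1Defs Fermat.Agent.S18.K1Main Fermat.Agent.S30
open Fermat.Agent.S34 Fermat.Agent.S34.TwoPrimesRank Fermat.Agent.S34.HauptU.Plug
  Fermat.Agent.S34.TwoPrimesGauss Fermat.Agent.S34.Sat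
open Fermat.Agent.S36.Haupt9 Fermat.Agent.S36.PrinAt

local notation "Qb" => AlgebraicClosure ℚ

section Main

variable (M : ℕ) [NeZero M] (h9 : 9 ∣ M) (h2M : ¬ 2 ∣ M)
  (A : ValuationSubring Qb) (hA : A.LiesOverPrime 2) (E : IntermediateField ℚ Qb)
  [IsDiscreteValuationRing (OE A E)]
  [Algebra (OE A E) (LE M E)] [IsScalarTower (OE A E) E (LE M E)]
  [Algebra (OE A E) (LE (M * 2) E)] [IsScalarTower (OE A E) E (LE (M * 2) E)]
  (π : OE A E) (hπ : Irreducible π)

/-- `hσu` at `u' = u₉`, `U = u9 O`. -/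
theorem hσu_u9 : sigmaHom (M * 2) E (alphaHom M 2 E (u9E M E h9))
    = GaussDVR.iota (OE A E) E (u9 (OE A E)) :=
  coe_alpha_u9E M E 2 h9

/-- `hord` at `u' = u₉`. -/
theorem hord_u9 : (GaussDVR.rho (OE A E) (u9 (OE A E))).order ≠ 0 :=
  order_rho_u9_ne_zero

/-- `hcop` at `u' = u₉`. -/
theorem hcop_u9 : IsCoprime (GaussDVR.rho (OE A E) (u9 (OE A E))).order ((2 : ℕ) : ℤ) :=
  isCoprime_order_rho_u9 2

include hA in
/-- `hfrob` at `u' = u₉`, `ℓ = 2`. -/
theorem hfrob_u9 : qExpand (IsLocalRing.ResidueField (OE A E)) 2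
    (GaussDVR.rho (OE A E) (u9 (OE A E))) = GaussDVR.rho (OE A E) (u9 (OE A E)) ^ 2 := by
  haveI := charP_residue_OE' A E Nat.prime_two hA
  exact qExpand_rho_u9 2 Nat.prime_two

/-- `hwu` at `u' = u₉`, `ℓ = 2` (the explicit modular equation `Φ₉`). -/
theorem hwu_u9 : IsIntegral (Algebra.adjoin (OE A E) {alphaHom M 2 E (u9E M E h9)})
    (wHom M 2 E Nat.prime_two h2M (alphaHom M 2 E (u9E M E h9))) := by
  rw [wHom_alpha]
  exact hwu_u9E M E h9

/-- `LE M E` is finite over `E(u₉)`. -/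
theorem finite_u9E : FiniteDimensional (IntermediateField.adjoin E {u9E M E h9}) (LE M E) := by
  haveI : FiniteDimensional (IntermediateField.adjoin E {E2Deg.jE M E}) (LE M E) :=
    E2Deg.finite_LE M E
  exact finiteDimensional_u9E M E h9 (E2Deg.jE M E) (E2Deg.coe_jE M E)

include h2M in
/-- `hrank` at `u' = u₉`, `ℓ = 2`. -/
theorem hrank_u9 (v : Option (Fin 1 ⊕ Fin 2) → Chart (OE A E) (alphaHom M 2 E (u9E M E h9))) :
    ∃ c : Option (Fin 1 ⊕ Fin 2) → Chart (OE A E) (u9E M E h9), c ≠ 0 ∧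
      ∑ i, incl (alphaHom M 2 E) (alphaHom_algebraMap M 2 E) (u9E M E h9) (c i) * v i = 0 := by
  haveI := finite_u9E M h9 E
  exact hrank_modular_of_finite M 2 E Nat.prime_two h2M (u9E M E h9) v

/-- `hkron` : the Kronecker form of `Φ₉(α u₉, w (α u₉)) = 0`. -/
theorem hkron_u9 :
    (wHom M 2 E Nat.prime_two h2M (alphaHom M 2 E (u9E M E h9))
        - alphaHom M 2 E (u9E M E h9) ^ 2)
      * (wHom M 2 E Nat.prime_two h2M (alphaHom M 2 E (u9E M E h9)) ^ 2
        - alphaHom M 2 E (u9E M E h9))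
      = 2 * (alphaHom M 2 E (u9E M E h9)
          * wHom M 2 E Nat.prime_two h2M (alphaHom M 2 E (u9E M E h9))
          * (3 * alphaHom M 2 E (u9E M E h9)
            + 3 * wHom M 2 E Nat.prime_two h2M (alphaHom M 2 E (u9E M E h9)) + 13)) := by
  rw [wHom_alpha]
  exact kronecker_nine M E h9

include hA in
/-- **The C1 exit at a non-cuspidal prime of the level-`2M` chart of `u₉`** (`q = 2`): both
vertical primes through `y` are locally principal at `y` (`Thick2.PrinExitAt`, i.e. the pointwise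
forms of `gen_oo`, `gen_0` of `S36/C11.Data`). -/
theorem prinExitAt_u9 (hprime : Prime (piC (u9E M E h9) π))
    (e : OE A E) (he : IsUnit e) (h2e : ((2 : ℕ) : OE A E) = π * e)
    (y : Ideal (Chart (OE A E) (alphaHom M 2 E (u9E M E h9)))) [hy : y.IsPrime]
    (hcusp : Thick2.NonCuspZero (alphaHom M 2 E) (alphaHom_algebraMap M 2 E) (u9E M E h9) y) :
    Thick2.PrinExitAt π hπ (alphaHom M 2 E) (sigmaHom (M * 2) E)
      (sigmaHom_algebraMap (M * 2) E) (sigmaHom_mem_fracField (M * 2) E A) (u9E M E h9)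
      (u9 (OE A E)) (hσu_u9 M h9 A E) (wHom M 2 E Nat.prime_two h2M)
      (wHom_algebraMap M 2 E Nat.prime_two h2M) (sigmaHom_wHom_alpha M 2 E Nat.prime_two h2M) y :=
  Thick2.prinExitAt_zero π hπ (alphaHom M 2 E) (alphaHom_algebraMap M 2 E) (sigmaHom (M * 2) E)
    (sigmaHom_algebraMap (M * 2) E) (sigmaHom_mem_fracField (M * 2) E A) (u9E M E h9)
    (u9 (OE A E)) (hσu_u9 M h9 A E) (wHom M 2 E Nat.prime_two h2M)
    (wHom_algebraMap M 2 E Nat.prime_two h2M) (sigmaHom_wHom_alpha M 2 E Nat.prime_two h2M)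
    (wHom_wHom M 2 E Nat.prime_two h2M) hprime (hcop_u9 A E) (hord_u9 A E) (hfrob_u9 A hA E)
    (hwu_u9 M h9 h2M A E) (hrank_u9 M h9 h2M A E) e he h2e (hkron_u9 M h9 h2M E) y hcusp

/-! ### The chart at infinity, coordinate `s = 1/u₉` -/

/-- `hσu` at `u' = 1/u₉`, `U = posO O s9Z`. -/
theorem hσu_s9 : sigmaHom (M * 2) E (alphaHom M 2 E (u9E M E h9)⁻¹)
    = GaussDVR.iota (OE A E) E (HauptU.E.posO (OE A E) s9Z) :=
  coe_alpha_u9E_inv M E 2 h9

/-- `hord` at `u' = 1/u₉`. -/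
theorem hord_s9 : (GaussDVR.rho (OE A E) (HauptU.E.posO (OE A E) s9Z)).order ≠ 0 :=
  order_rho_s9_ne_zero

/-- `hcop` at `u' = 1/u₉`. -/
theorem hcop_s9 :
    IsCoprime (GaussDVR.rho (OE A E) (HauptU.E.posO (OE A E) s9Z)).order ((2 : ℕ) : ℤ) :=
  isCoprime_order_rho_s9 2

include hA in
/-- `hfrob` at `u' = 1/u₉`, `ℓ = 2`. -/
theorem hfrob_s9 : qExpand (IsLocalRing.ResidueField (OE A E)) 2
    (GaussDVR.rho (OE A E) (HauptU.E.posO (OE A E) s9Z))
      = GaussDVR.rho (OE A E) (HauptU.E.posO (OE A E) s9Z) ^ 2 := by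
  haveI := charP_residue_OE' A E Nat.prime_two hA
  exact qExpand_rho_s9 2 Nat.prime_two

/-- `hwu` at `u' = 1/u₉`, `ℓ = 2` (the explicit modular equation `gNine`). -/
theorem hwu_s9 : IsIntegral (Algebra.adjoin (OE A E) {alphaHom M 2 E (u9E M E h9)⁻¹})
    (wHom M 2 E Nat.prime_two h2M (alphaHom M 2 E (u9E M E h9)⁻¹)) := by
  rw [wHom_alpha]
  exact hwu_u9E_inv M E h9

/-- `LE M E` is finite over `E(1/u₉)`. -/
theorem finite_u9E_inv :
    FiniteDimensional (IntermediateField.adjoin E {(u9E M E h9)⁻¹}) (LE M E) := by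
  haveI := finite_u9E M h9 E
  exact finite_adjoin_inv (E := E) (u9E M E h9)

include h2M in
/-- `hrank` at `u' = 1/u₉`, `ℓ = 2`. -/
theorem hrank_s9
    (v : Option (Fin 1 ⊕ Fin 2) → Chart (OE A E) (alphaHom M 2 E (u9E M E h9)⁻¹)) :
    ∃ c : Option (Fin 1 ⊕ Fin 2) → Chart (OE A E) (u9E M E h9)⁻¹, c ≠ 0 ∧
      ∑ i, incl (alphaHom M 2 E) (alphaHom_algebraMap M 2 E) (u9E M E h9)⁻¹ (c i) * v i = 0 := by
  haveI := finite_u9E_inv M h9 E
  exact hrank_modular_of_finite M 2 E Nat.prime_two h2M (u9E M E h9)⁻¹ v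

/-- `hkron` at `u' = 1/u₉` : the Kronecker form of `gNine(α s, w (α s)) = 0`. -/
theorem hkron_s9 :
    (wHom M 2 E Nat.prime_two h2M (alphaHom M 2 E (u9E M E h9)⁻¹)
        - alphaHom M 2 E (u9E M E h9)⁻¹ ^ 2)
      * (wHom M 2 E Nat.prime_two h2M (alphaHom M 2 E (u9E M E h9)⁻¹) ^ 2
        - alphaHom M 2 E (u9E M E h9)⁻¹)
      = 2 * (alphaHom M 2 E (u9E M E h9)⁻¹
          * wHom M 2 E Nat.prime_two h2M (alphaHom M 2 E (u9E M E h9)⁻¹)
          * (3 * alphaHom M 2 E (u9E M E h9)⁻¹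
            + 3 * wHom M 2 E Nat.prime_two h2M (alphaHom M 2 E (u9E M E h9)⁻¹)
            + 13 * (alphaHom M 2 E (u9E M E h9)⁻¹
              * wHom M 2 E Nat.prime_two h2M (alphaHom M 2 E (u9E M E h9)⁻¹)))) := by
  rw [wHom_alpha]
  exact Thick2.kron_inf_of_eval_gNine (eval_gNine_alpha_beta M E h9)

include hA in
/-- **The C1 exit at a non-cuspidal prime of the level-`2M` chart at infinity of `u₉`**
(coordinate `s = 1/u₉`, `q = 2`). -/
theorem prinExitAt_s9 (hprime : Prime (piC (u9E M E h9)⁻¹ π))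
    (e : OE A E) (he : IsUnit e) (h2e : ((2 : ℕ) : OE A E) = π * e)
    (y : Ideal (Chart (OE A E) (alphaHom M 2 E (u9E M E h9)⁻¹))) [hy : y.IsPrime]
    (hcusp : Thick2.NonCuspInf (alphaHom M 2 E) (alphaHom_algebraMap M 2 E) (u9E M E h9)⁻¹ y) :
    Thick2.PrinExitAt π hπ (alphaHom M 2 E) (sigmaHom (M * 2) E)
      (sigmaHom_algebraMap (M * 2) E) (sigmaHom_mem_fracField (M * 2) E A) (u9E M E h9)⁻¹
      (HauptU.E.posO (OE A E) s9Z) (hσu_s9 M h9 A E) (wHom M 2 E Nat.prime_two h2M)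
      (wHom_algebraMap M 2 E Nat.prime_two h2M) (sigmaHom_wHom_alpha M 2 E Nat.prime_two h2M) y :=
  Thick2.prinExitAt_inf π hπ (alphaHom M 2 E) (alphaHom_algebraMap M 2 E) (sigmaHom (M * 2) E)
    (sigmaHom_algebraMap (M * 2) E) (sigmaHom_mem_fracField (M * 2) E A) (u9E M E h9)⁻¹
    (HauptU.E.posO (OE A E) s9Z) (hσu_s9 M h9 A E) (wHom M 2 E Nat.prime_two h2M)
    (wHom_algebraMap M 2 E Nat.prime_two h2M) (sigmaHom_wHom_alpha M 2 E Nat.prime_two h2M)
    (wHom_wHom M 2 E Nat.prime_two h2M) hprime (hcop_s9 A E) (hord_s9 A E) (hfrob_s9 A hA E)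
    (hwu_s9 M h9 h2M A E) (hrank_s9 M h9 h2M A E) e he h2e (hkron_s9 M h9 h2M E) y hcusp

end Main

end Fermat.Agent.S36.Haupt9.C1Inst
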