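import Mathlib
import Fermat.Agent.S36.Haupt9.ModEq2

/-!
# S36 / Haupt9 / CuspSq — the cusps of the level-`2` correspondence of `u₉`, explicitly

`Φ₉(x, y) = x³ + y³ - x²y² - 6xy(x + y) - 27xy` is the modular equation of level `2` of the
Hauptmodul `u₉` of `Γ₀(9)` (`Haupt9/ModEq2`: `Φ₉(u₉(q), u₉(q²)) = 0`).  The finite cusp values of
`u₉` are `0` and the two roots `c, c'` of `X² + 9X + 27`, and the correspondence maps the cusp
`0` to `0` and SWAPS the two conjugate cusps: `Φ₉(0, Y) = Y³`, `Φ₉(c, Y) = (Y - c')³`.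

Level-free and explicit (no valuations, no Newton polygon): for a cusp pair
`(c, c') ∈ {(0, 0), (c₁, c₂), (c₂, c₁)}` and `t = x - c`, `s = y - c'`,

  `t³ + s³ = t s (27 + a t + b s + t s)`,  `a = 2c' + 6`, `b = 2c + 6`,

hence `θ' = t² / s` is a root of the MONIC cubic
`Z³ - (27 + a t) Z² - (b t² + t³) Z + t³` over `ℤ[c, c'][t]`, and symmetrically `θ'' = s² / t`.

* `cusp_rel_zero`, `cusp_rel_twist` : the relation between `t` and `s`;
* `isIntegral_sq_div` : `t² / s` is integral over `O[x]` as soon as `t ∈ O[x]`;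
* `isIntegral_cusp_zero`, `isIntegral_cusp_zero'` : `x² / y`, `y² / x` are integral over `O[x]`;
* `isIntegral_cusp_twist`, `isIntegral_cusp_twist'` : `(x - c)² / (y - c')`, `(y - c')² / (x - c)`
  are integral over `O[x]` (`c + c' = -9`, `c c' = 27`).

These are the integrality inputs (I3) of the "no crossing at the cusps" lemma of the level-`2M'`
chart (`S36/ThickCusp`), in the TWISTED form needed at `q = 2`.
-/

set_option autoImplicit false

namespace Fermat.Agent.S36.Haupt9.CuspSq

open Polynomial

section Rel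

variable {R : Type*} [CommRing R]

/-- The cusp `0 ↦ 0`: the modular equation in the coordinates `t = x`, `s = y`. -/
theorem cusp_rel_zero {x y : R} (h : (phiNine x).eval y = 0) :
    x ^ 3 + y ^ 3 = x * y * (27 + 6 * x + 6 * y + x * y) := by
  rw [eval_phiNine] at h
  linear_combination h

/-- The cusps `c ↦ c'` (`c + c' = -9`, `c c' = 27`): the modular equation in the coordinates
`t = x - c`, `s = y - c'`. -/
theorem cusp_rel_twist {x y c c' : R} (hsum : c + c' = -9) (hprod : c * c' = 27)
    (h : (phiNine x).eval y = 0) :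
    (x - c) ^ 3 + (y - c') ^ 3 = (x - c) * (y - c')
      * (27 + (2 * c' + 6) * (x - c) + (2 * c + 6) * (y - c') + (x - c) * (y - c')) := by
  rw [eval_phiNine] at h
  have hc' : c' = -9 - c := by linear_combination hsum
  subst hc'
  have hq : c ^ 2 + 9 * c + 27 = 0 := by linear_combination -hprod
  linear_combination h + (27 + 9 * c + c ^ 2 + (2 * c + 9) * (x - c) + (x - c) ^ 2
    - (2 * c + 9) * (y + 9 + c) + (y + 9 + c) ^ 2 - 4 * (x - c) * (y + 9 + c)) * hq

end Rel

/-! ### The monic cubic of `θ = t² / s` -/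

section Cubic

variable {R : Type*} [CommRing R]

/-- The cubic `Z³ - p Z² - q Z + r`. -/
noncomputable def cubic (p q r : R) : R[X] := X ^ 3 + (C (-p) * X ^ 2 + C (-q) * X + C r)

theorem cubic_monic (p q r : R) : (cubic p q r).Monic := by
  refine monic_X_pow_add (lt_of_le_of_lt (b := (2 : WithBot ℕ)) ?_ (by norm_num))
  compute_degree

theorem eval₂_cubic {S : Type*} [CommRing S] (f : R →+* S) (p q r : R) (z : S) :
    (cubic p q r).eval₂ f z = z ^ 3 - f p * z ^ 2 - f q * z + f r := by
  simp only [cubic, eval₂_add, eval₂_mul, eval₂_pow, eval₂_X, eval₂_C, eval₂_neg, map_neg]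
  ring

end Cubic

section Integral

variable {O L : Type*} [CommRing O] [Field L] [Algebra O L]

/-- If `t³ + s³ = t s (27 + a t + b s + t s)` then `θ = t² / s` is a root of the monic cubic
`Z³ - (27 + a t) Z² - (b t² + t³) Z + t³`. -/
theorem sq_div_cubic {t s a b : L} (h : t ^ 3 + s ^ 3 = t * s * (27 + a * t + b * s + t * s)) :
    (t ^ 2 / s) ^ 3 - (27 + a * t) * (t ^ 2 / s) ^ 2 - (b * t ^ 2 + t ^ 3) * (t ^ 2 / s) + t ^ 3
      = 0 := by
  by_cases hs : s = 0
  · subst hs
    have ht3 : t ^ 3 = 0 := by linear_combination h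
    have ht : t = 0 := (pow_eq_zero_iff (by norm_num)).mp ht3
    subst ht
    simp
  · field_simp
    linear_combination (t ^ 3) * h

/-- **`t² / s` is integral** over every subalgebra containing `t`, when
`t³ + s³ = t s (27 + a t + b s + t s)` with constants `a, b`. -/
theorem isIntegral_sq_div (T : Subalgebra O L) (a b : O) {t s : L} (ht : t ∈ T)
    (h : t ^ 3 + s ^ 3 = t * s * (27 + algebraMap O L a * t + algebraMap O L b * s + t * s)) :
    IsIntegral T (t ^ 2 / s) := by
  refine ⟨cubic (27 + algebraMap O T a * ⟨t, ht⟩) (algebraMap O T b * ⟨t, ht⟩ ^ 2 + ⟨t, ht⟩ ^ 3)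
    (⟨t, ht⟩ ^ 3), cubic_monic _ _ _, ?_⟩
  rw [eval₂_cubic]
  have e := sq_div_cubic h
  simp only [map_add, map_mul, map_pow, map_ofNat]
  exact e

/-- The same over `O[x]`, for `t ∈ O[x]`. -/
theorem isIntegral_adjoin_sq_div (a b : O) {x t s : L} (ht : t ∈ Algebra.adjoin O {x})
    (h : t ^ 3 + s ^ 3 = t * s * (27 + algebraMap O L a * t + algebraMap O L b * s + t * s)) :
    IsIntegral (Algebra.adjoin O {x}) (t ^ 2 / s) :=
  isIntegral_sq_div (Algebra.adjoin O {x}) a b ht h

/-- Transitivity: `y` integral over `O[x]` and `z` integral over `O[y]` give `z` integral over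
`O[x]`. -/
theorem isIntegral_adjoin_of_adjoin {x y z : L} (hxy : IsIntegral (Algebra.adjoin O {x}) y)
    (hyz : IsIntegral (Algebra.adjoin O {y}) z) : IsIntegral (Algebra.adjoin O {x}) z := by
  have hle : Algebra.adjoin O {y} ≤
      (integralClosure (Algebra.adjoin O {x}) L).restrictScalars O := by
    refine Algebra.adjoin_le ?_
    rintro _ rfl
    exact hxy
  obtain ⟨p, hp, hpz⟩ := hyz
  let f : Algebra.adjoin O {y} →+* integralClosure (Algebra.adjoin O {x}) L :=
    (Subalgebra.inclusion hle : Algebra.adjoin O {y} →ₐ[O] _).toRingHom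
  have hz' : IsIntegral (integralClosure (Algebra.adjoin O {x}) L) z := by
    refine ⟨p.map f, hp.map f, ?_⟩
    rw [Polynomial.eval₂_map]
    exact hpz
  exact isIntegral_trans (A := integralClosure (Algebra.adjoin O {x}) L) z hz'

end Integral

/-! ### The cusps of `Φ₉` -/

section Phi

variable {O L : Type*} [CommRing O] [Field L] [Algebra O L] {x y : L}

theorem sub_algebraMap_mem_adjoin (x : L) (c : O) :
    x - algebraMap O L c ∈ Algebra.adjoin O {x} :=
  Subalgebra.sub_mem _ (Algebra.self_mem_adjoin_singleton O x) (Subalgebra.algebraMap_mem _ c)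

/-- Cusp `0 ↦ 0`: `x² / y` is integral over `O[x]`. -/
theorem isIntegral_cusp_zero (h : (phiNine x).eval y = 0) :
    IsIntegral (Algebra.adjoin O {x}) (x ^ 2 / y) := by
  refine isIntegral_adjoin_sq_div (6 : O) (6 : O) (Algebra.self_mem_adjoin_singleton O x) ?_
  rw [map_ofNat]
  exact cusp_rel_zero h

/-- Cusp `0 ↦ 0`: `y² / x` is integral over `O[x]`. -/
theorem isIntegral_cusp_zero' (h : (phiNine x).eval y = 0) :
    IsIntegral (Algebra.adjoin O {x}) (y ^ 2 / x) := by
  have hy : IsIntegral (Algebra.adjoin O {x}) y := isIntegral_adjoin_of_eval_phiNine O h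
  have h' : (phiNine y).eval x = 0 := by
    rw [eval_phiNine] at h ⊢
    linear_combination h
  exact isIntegral_adjoin_of_adjoin hy (isIntegral_cusp_zero h')

variable {c c' : O}

/-- Cusps `c ↦ c'` (the two roots of `X² + 9X + 27`, SWAPPED by the correspondence):
`(x - c)² / (y - c')` is integral over `O[x]`. -/
theorem isIntegral_cusp_twist (hsum : c + c' = -9) (hprod : c * c' = 27)
    (h : (phiNine x).eval y = 0) :
    IsIntegral (Algebra.adjoin O {x})
      ((x - algebraMap O L c) ^ 2 / (y - algebraMap O L c')) := by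
  refine isIntegral_adjoin_sq_div (2 * c' + 6) (2 * c + 6) (sub_algebraMap_mem_adjoin x c) ?_
  have h1 : algebraMap O L c + algebraMap O L c' = -9 := by
    rw [← map_add, hsum, map_neg, map_ofNat]
  have h2 : algebraMap O L c * algebraMap O L c' = 27 := by
    rw [← map_mul, hprod, map_ofNat]
  have e := cusp_rel_twist h1 h2 h
  simp only [map_add, map_mul, map_ofNat]
  exact e

/-- Cusps `c ↦ c'`: `(y - c')² / (x - c)` is integral over `O[x]`. -/
theorem isIntegral_cusp_twist' (hsum : c + c' = -9) (hprod : c * c' = 27)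
    (h : (phiNine x).eval y = 0) :
    IsIntegral (Algebra.adjoin O {x})
      ((y - algebraMap O L c') ^ 2 / (x - algebraMap O L c)) := by
  have hy : IsIntegral (Algebra.adjoin O {x}) y := isIntegral_adjoin_of_eval_phiNine O h
  have h' : (phiNine y).eval x = 0 := by
    rw [eval_phiNine] at h ⊢
    linear_combination h
  exact isIntegral_adjoin_of_adjoin hy
    (isIntegral_cusp_twist (c := c') (c' := c) (by rw [add_comm]; exact hsum)
      (by rw [mul_comm]; exact hprod) h')

end Phi

end Fermat.Agent.S36.Haupt9.CuspSq
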