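import Mathlib
import Fermat.Agent.S34.HauptU.Plug
import Fermat.Agent.S36.Haupt9.LevelTwo
import Fermat.Agent.S36.Haupt9.CuspSq
import Fermat.Agent.S36.SqRankE

/-!
# S36 / Haupt9 / InfSq — the exits (I1), (I2), (I3) for `u₉` at `q = 2`, EXPLICIT, at ANY level

The `u₉` twin of `Haupt4/InfSq` + `Haupt4/LevelQ.hint_u4E`.  Everything is read off the explicit
modular equation `Φ₉` of level `2` (`Haupt9/ModEq2`) and its companion `gNine` for `s = 1/u₉`: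
no valuation criterion, no `j`, no root of the modular equation of `j`, NO unit hypothesis
(`3 ∈ Oˣ` is not needed), no cusp value in `O`.

* `quad_sq_div_cubic`, `isIntegral_quad_sq_div` : the ROOT-FREE quadratic cusp form: if
  `Φ₉(x, y) = 0` then `W(x)² / W(y)` (`W(t) = t² + 9t + 27`) is a root of an explicit monic cubic
  over `ℤ[x]` (`N(W(y)) = W(x)³`);
* `sq_div_cubic_inf`, `isIntegral_sq_div_inf` : if `gNine(x, y) = 0` then `x² / y` is integral over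
  `O[x]`;
* `exits_of_eval` : the ten integrality statements for a pair `(x, y)` in a field with
  `Φ₉(x, y) = 0`, `x ≠ 0`, `y ≠ 0`;
* `exits_alpha_beta` : the ten statements for
  `(alphaHom M 2 E (u9E M E h9), betaHom M 2 E (u9E M E h9))`, every level `M` with `9 ∣ M`
  (no condition `2 ∤ M`), every commutative ring `O` acting on `LE (M · 2) E`;
* `hbeta_u9E`, `halpha_u9E`, `hbetaInv_u9E`, `halphaInv_u9E` : the level-`R · 2 · 2` literals in
  the binder shapes of `S36/SqInfMaps` / `SqInfMapsInt` (twins of `Haupt4.InfSq.hbeta_u4E`, …);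
* `hint0_u9E`, `hintW_u9E` (+ companions) : the cusp-separation inputs of the level-`2M` chart in
  the `(α u₉, w (α u₉))` shape (`w = Plug.wHom M 2 E prime_two h2M`): `(α u)² / w (α u)` and
  `W(α u)² / W(w (α u))` are integral over `O[α u]`.
-/

set_option autoImplicit false
set_option linter.unusedSectionVars false
set_option linter.style.haveILetI false
set_option synthInstance.maxHeartbeats 400000

open ModularCurve Polynomial

noncomputable section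

namespace Fermat.Agent.S36.Haupt9.InfSq

open Fermat.Agent.S18.K1Defs Fermat.Agent.S30
open Fermat.Agent.S34.TwoPrimesRank Fermat.Agent.S34.HauptU.Plug
open Fermat.Agent.S36.SqRankE
open Fermat.Agent.S36.Haupt9 Fermat.Agent.S36.Haupt9.CuspSq

local notation "Qb" => AlgebraicClosure ℚ

/-! ### Level-free: the explicit cubics -/

section Quad

variable {O L : Type*} [CommRing O] [Field L] [Algebra O L] {x y : L}

/-- The root-free quadratic cusp form: if `Φ₉(x, y) = 0` then `θ = W(x)² / W(y)`,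
`W(t) = t² + 9t + 27`, is a root of the monic cubic
`Z³ - (2x³ + 30x² + 108x + 81) Z² + W(x) (x⁴ + 12x³ + 57x² + 108x + 81) Z - W(x)³`. -/
theorem quad_sq_div_cubic (h : (phiNine x).eval y = 0) :
    ((x ^ 2 + 9 * x + 27) ^ 2 / (y ^ 2 + 9 * y + 27)) ^ 3
      - (2 * x ^ 3 + 30 * x ^ 2 + 108 * x + 81) * ((x ^ 2 + 9 * x + 27) ^ 2 / (y ^ 2 + 9 * y + 27)) ^ 2
      - (-((x ^ 2 + 9 * x + 27) * (x ^ 4 + 12 * x ^ 3 + 57 * x ^ 2 + 108 * x + 81))) * ((x ^ 2 + 9 * x + 27) ^ 2 / (y ^ 2 + 9 * y + 27))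
      + (-(x ^ 2 + 9 * x + 27) ^ 3) = 0 := by
  rw [eval_phiNine] at h
  by_cases hW : y ^ 2 + 9 * y + 27 = 0
  · -- then `W(x)³ = 0` by the norm identity
    have hx3 : (x ^ 2 + 9 * x + 27) ^ 3 = 0 := by
      linear_combination ((y ^ 2 + 9 * y + 27) ^ 2 - (x ^ 4 + 12 * x ^ 3 + 57 * x ^ 2 + 108 * x + 81) * (y ^ 2 + 9 * y + 27) + (2 * x ^ 3 + 30 * x ^ 2 + 108 * x + 81) * (x ^ 2 + 9 * x + 27)) * hW
        - (y ^ 3 + 27 * y ^ 2 + 243 * y + 729 + x ^ 2 * y ^ 2 + 12 * x ^ 2 * y + 27 * x ^ 2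
        + 6 * x * y ^ 2 + 81 * x * y + 243 * x - x ^ 3) * h
    have hx : x ^ 2 + 9 * x + 27 = 0 := (pow_eq_zero_iff (by norm_num)).mp hx3
    rw [hx, hW]
    simp
  · have key : ((x ^ 2 + 9 * x + 27) ^ 2 / (y ^ 2 + 9 * y + 27)) * (y ^ 2 + 9 * y + 27) = (x ^ 2 + 9 * x + 27) ^ 2 := div_mul_cancel₀ _ hW
    generalize ((x ^ 2 + 9 * x + 27) ^ 2 / (y ^ 2 + 9 * y + 27)) = θ at key ⊢
    apply mul_right_cancel₀ (pow_ne_zero 3 hW)
    rw [zero_mul]
    linear_combination (((θ * (y ^ 2 + 9 * y + 27)) ^ 2 + θ * (y ^ 2 + 9 * y + 27) * (x ^ 2 + 9 * x + 27) ^ 2 + (x ^ 2 + 9 * x + 27) ^ 4)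
        - (2 * x ^ 3 + 30 * x ^ 2 + 108 * x + 81) * (y ^ 2 + 9 * y + 27) * (θ * (y ^ 2 + 9 * y + 27) + (x ^ 2 + 9 * x + 27) ^ 2)
        + (x ^ 2 + 9 * x + 27) * (x ^ 4 + 12 * x ^ 3 + 57 * x ^ 2 + 108 * x + 81) * (y ^ 2 + 9 * y + 27) ^ 2) * key
      - (x ^ 2 + 9 * x + 27) ^ 3 * (y ^ 3 + 27 * y ^ 2 + 243 * y + 729 + x ^ 2 * y ^ 2 + 12 * x ^ 2 * y + 27 * x ^ 2
        + 6 * x * y ^ 2 + 81 * x * y + 243 * x - x ^ 3) * h

/-- **`W(x)² / W(y)` is integral over `O[x]`** (`W(t) = t² + 9t + 27`; no root of `W` in `O` is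
needed, no unit hypothesis). -/
theorem isIntegral_quad_sq_div (h : (phiNine x).eval y = 0) :
    IsIntegral (Algebra.adjoin O {x})
      ((x ^ 2 + 9 * x + 27) ^ 2 / (y ^ 2 + 9 * y + 27)) := by
  set x₀ : Algebra.adjoin O {x} := ⟨x, Algebra.self_mem_adjoin_singleton O x⟩ with hx₀
  refine ⟨cubic (2 * x₀ ^ 3 + 30 * x₀ ^ 2 + 108 * x₀ + 81)
    (-((x₀ ^ 2 + 9 * x₀ + 27) * (x₀ ^ 4 + 12 * x₀ ^ 3 + 57 * x₀ ^ 2 + 108 * x₀ + 81)))
    (-(x₀ ^ 2 + 9 * x₀ + 27) ^ 3), cubic_monic _ _ _, ?_⟩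
  rw [eval₂_cubic]
  have e := quad_sq_div_cubic h
  have hx : algebraMap (Algebra.adjoin O {x}) L x₀ = x := rfl
  simp only [map_add, map_mul, map_pow, map_neg, map_ofNat, hx]
  exact e

/-- The companion: `W(y)² / W(x)` is integral over `O[x]`. -/
theorem isIntegral_quad_sq_div' (h : (phiNine x).eval y = 0) :
    IsIntegral (Algebra.adjoin O {x})
      ((y ^ 2 + 9 * y + 27) ^ 2 / (x ^ 2 + 9 * x + 27)) := by
  have hy : IsIntegral (Algebra.adjoin O {x}) y := isIntegral_adjoin_of_eval_phiNine O h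
  have h' : (phiNine y).eval x = 0 := by
    rw [← eval_phiNine_comm]
    exact h
  exact isIntegral_adjoin_of_adjoin hy (isIntegral_quad_sq_div h')

/-- If `gNine(x, y) = 0` then `θ = x² / y` is a root of the monic cubic
`Z³ - (1 + 6x) Z² - (6x² + 27x³) Z + x³`. -/
theorem sq_div_cubic_inf (h : (gNine x).eval y = 0) :
    (x ^ 2 / y) ^ 3 - (1 + 6 * x) * (x ^ 2 / y) ^ 2 - (6 * x ^ 2 + 27 * x ^ 3) * (x ^ 2 / y)
      + x ^ 3 = 0 := by
  rw [eval_gNine] at h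
  by_cases hy : y = 0
  · subst hy
    have hx3 : x ^ 3 = 0 := by linear_combination h
    have hx : x = 0 := (pow_eq_zero_iff (by norm_num)).mp hx3
    subst hx
    simp
  · have key : x ^ 2 / y * y = x ^ 2 := div_mul_cancel₀ _ hy
    generalize x ^ 2 / y = θ at key ⊢
    apply mul_right_cancel₀ (pow_ne_zero 3 hy)
    rw [zero_mul]
    linear_combination (((θ * y) ^ 2 + θ * y * x ^ 2 + x ^ 4)
        - (1 + 6 * x) * y * (θ * y + x ^ 2) - (6 * x ^ 2 + 27 * x ^ 3) * y ^ 2) * key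
      + x ^ 3 * h

/-- **`x² / y` is integral over `O[x]`** when `gNine(x, y) = 0` (chart at infinity). -/
theorem isIntegral_sq_div_inf (h : (gNine x).eval y = 0) :
    IsIntegral (Algebra.adjoin O {x}) (x ^ 2 / y) := by
  set x₀ : Algebra.adjoin O {x} := ⟨x, Algebra.self_mem_adjoin_singleton O x⟩ with hx₀
  refine ⟨cubic (1 + 6 * x₀) (6 * x₀ ^ 2 + 27 * x₀ ^ 3) (x₀ ^ 3), cubic_monic _ _ _, ?_⟩
  rw [eval₂_cubic]
  have e := sq_div_cubic_inf h
  have hx : algebraMap (Algebra.adjoin O {x}) L x₀ = x := rfl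
  simp only [map_add, map_mul, map_pow, map_one, map_ofNat, hx]
  exact e

/-- The companion: `y² / x` is integral over `O[x]` when `gNine(x, y) = 0`. -/
theorem isIntegral_sq_div_inf' (h : (gNine x).eval y = 0) :
    IsIntegral (Algebra.adjoin O {x}) (y ^ 2 / x) := by
  have hy : IsIntegral (Algebra.adjoin O {x}) y := isIntegral_adjoin_of_eval_gNine O h
  have h' : (gNine y).eval x = 0 := by
    rw [← eval_gNine_comm]
    exact h
  exact isIntegral_adjoin_of_adjoin hy (isIntegral_sq_div_inf h')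

/-- **The ten exits from the modular equation alone**: `x`, `y` nonzero elements of a field with
`Φ₉(x, y) = 0`. -/
theorem exits_of_eval (hx : x ≠ 0) (hy : y ≠ 0) (h : (phiNine x).eval y = 0) :
    (IsIntegral (Algebra.adjoin O {x}) y ∧ IsIntegral (Algebra.adjoin O {y}) x) ∧
    (IsIntegral (Algebra.adjoin O {x⁻¹}) y⁻¹ ∧ IsIntegral (Algebra.adjoin O {y⁻¹}) x⁻¹) ∧
    (IsIntegral (Algebra.adjoin O {x}) (x ^ 2 / y) ∧
      IsIntegral (Algebra.adjoin O {x}) (y ^ 2 / x)) ∧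
    (IsIntegral (Algebra.adjoin O {x}) ((x ^ 2 + 9 * x + 27) ^ 2 / (y ^ 2 + 9 * y + 27)) ∧
      IsIntegral (Algebra.adjoin O {x}) ((y ^ 2 + 9 * y + 27) ^ 2 / (x ^ 2 + 9 * x + 27))) ∧
    (IsIntegral (Algebra.adjoin O {x⁻¹}) (x⁻¹ ^ 2 / y⁻¹) ∧
      IsIntegral (Algebra.adjoin O {x⁻¹}) (y⁻¹ ^ 2 / x⁻¹)) := by
  have h' : (phiNine y).eval x = 0 := by
    rw [← eval_phiNine_comm]
    exact h
  have hg : (gNine x⁻¹).eval y⁻¹ = 0 :=
    eval_gNine_of_eval_phiNine (mul_inv_cancel₀ hx) (mul_inv_cancel₀ hy) h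
  have hg' : (gNine y⁻¹).eval x⁻¹ = 0 := by
    rw [← eval_gNine_comm]
    exact hg
  exact ⟨⟨isIntegral_adjoin_of_eval_phiNine O h, isIntegral_adjoin_of_eval_phiNine O h'⟩,
    ⟨isIntegral_adjoin_of_eval_gNine O hg, isIntegral_adjoin_of_eval_gNine O hg'⟩,
    ⟨isIntegral_cusp_zero h, isIntegral_cusp_zero' h⟩,
    ⟨isIntegral_quad_sq_div h, isIntegral_quad_sq_div' h⟩,
    ⟨isIntegral_sq_div_inf hg, isIntegral_sq_div_inf' hg⟩⟩

end Quad

/-! ### The pair `(α u₉, β u₉)` at any level -/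

section Level

variable (M : ℕ) [NeZero M] (E : IntermediateField ℚ Qb)

/-- `α u₉` is the Hauptmodul `u₉` of the level `M ℓ`. -/
theorem alphaHom_u9E (ℓ : ℕ) [NeZero ℓ] (h9 : 9 ∣ M) :
    alphaHom M ℓ E (u9E M E h9) = u9E (M * ℓ) E (Dvd.dvd.mul_right h9 ℓ) := by
  apply Subtype.ext
  exact coe_heckeAlphaBar M ℓ (u9E M E h9)

/-- `Φ₉(α u₉, β u₉) = 0` in the `alphaHom` / `betaHom` vocabulary. -/
theorem eval_phiNine_alphaHom_betaHom (h9 : 9 ∣ M) :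
    (phiNine (alphaHom M 2 E (u9E M E h9))).eval (betaHom M 2 E (u9E M E h9)) = 0 :=
  eval_phiNine_alpha_beta M E h9

theorem alphaHom_u9E_ne_zero (h9 : 9 ∣ M) : alphaHom M 2 E (u9E M E h9) ≠ 0 :=
  (map_ne_zero (alphaHom M 2 E)).mpr (u9E_ne_zero M E h9)

theorem betaHom_u9E_ne_zero (h9 : 9 ∣ M) : betaHom M 2 E (u9E M E h9) ≠ 0 :=
  (map_ne_zero (betaHom M 2 E)).mpr (u9E_ne_zero M E h9)

variable {O : Type*} [CommRing O] [Algebra O (LE (M * 2) E)]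

/-- **The exits for `u₉` along `(α, β)` at level `M · 2`** (`u = α u₉`, `u' = β u₉`), for every
level `M` with `9 ∣ M` (no condition `2 ∤ M`, no unit hypothesis on `O`). -/
theorem exits_alpha_beta (h9 : 9 ∣ M) :
    let u := alphaHom M 2 E (u9E M E h9)
    let u' := betaHom M 2 E (u9E M E h9)
    (IsIntegral (Algebra.adjoin O {u}) u' ∧ IsIntegral (Algebra.adjoin O {u'}) u) ∧
    (IsIntegral (Algebra.adjoin O {u⁻¹}) u'⁻¹ ∧ IsIntegral (Algebra.adjoin O {u'⁻¹}) u⁻¹) ∧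
    (IsIntegral (Algebra.adjoin O {u}) (u ^ 2 / u') ∧
      IsIntegral (Algebra.adjoin O {u}) (u' ^ 2 / u)) ∧
    (IsIntegral (Algebra.adjoin O {u}) ((u ^ 2 + 9 * u + 27) ^ 2 / (u' ^ 2 + 9 * u' + 27)) ∧
      IsIntegral (Algebra.adjoin O {u}) ((u' ^ 2 + 9 * u' + 27) ^ 2 / (u ^ 2 + 9 * u + 27))) ∧
    (IsIntegral (Algebra.adjoin O {u⁻¹}) (u⁻¹ ^ 2 / u'⁻¹) ∧
      IsIntegral (Algebra.adjoin O {u⁻¹}) (u'⁻¹ ^ 2 / u⁻¹)) :=
  exits_of_eval (alphaHom_u9E_ne_zero M E h9) (betaHom_u9E_ne_zero M E h9)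
    (eval_phiNine_alphaHom_betaHom M E h9)

end Level

/-! ### Level `R · 2 · 2`: the literal shapes of `SqInfMaps` -/

section Sq

variable (R : ℕ) [NeZero R] (K : IntermediateField ℚ Qb)
variable {O : Type*} [CommRing O] [Algebra O (LE (R * 2 * 2) K)]

/-- **Chart `u`**: `β₂ (α₁ u₉)` (expansion `u₉(q²)`) is integral over `O[α₂ (α₁ u₉)]`. -/
theorem hbeta_u9E (h9 : 9 ∣ R) :
    IsIntegral (Algebra.adjoin O {((alphaHom (R * 2) 2 K).comp (alphaHom R 2 K)) (u9E R K h9)})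
      (betaHom (R * 2) 2 K (alphaHom R 2 K (u9E R K h9))) := by
  rw [RingHom.comp_apply, alphaHom_u9E R K 2 h9]
  exact (exits_alpha_beta (R * 2) K (Dvd.dvd.mul_right h9 2)).1.1

/-- **Chart `u`**, reverse direction: `α₂ (α₁ u₉)` is integral over `O[β₂ (α₁ u₉)]`. -/
theorem halpha_u9E (h9 : 9 ∣ R) :
    IsIntegral (Algebra.adjoin O {betaHom (R * 2) 2 K (alphaHom R 2 K (u9E R K h9))})
      (((alphaHom (R * 2) 2 K).comp (alphaHom R 2 K)) (u9E R K h9)) := by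
  rw [RingHom.comp_apply, alphaHom_u9E R K 2 h9]
  exact (exits_alpha_beta (R * 2) K (Dvd.dvd.mul_right h9 2)).1.2

/-- **`hβinv` of `SqInfMaps.betaInf`** for `u₉`: `(β₂ (α₁ u₉))⁻¹` is integral over
`O[(α₂ (α₁ u₉))⁻¹]`. -/
theorem hbetaInv_u9E (h9 : 9 ∣ R) :
    IsIntegral
      (Algebra.adjoin O {(((alphaHom (R * 2) 2 K).comp (alphaHom R 2 K)) (u9E R K h9))⁻¹})
      (betaHom (R * 2) 2 K (alphaHom R 2 K (u9E R K h9)))⁻¹ := by
  rw [RingHom.comp_apply, alphaHom_u9E R K 2 h9]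
  exact (exits_alpha_beta (R * 2) K (Dvd.dvd.mul_right h9 2)).2.1.1

/-- **`hαinv` of `SqInfMaps.betaInf_isIntegral`** for `u₉`: `(α₂ (α₁ u₉))⁻¹` is integral over
`O[(β₂ (α₁ u₉))⁻¹]`. -/
theorem halphaInv_u9E (h9 : 9 ∣ R) :
    IsIntegral (Algebra.adjoin O {(betaHom (R * 2) 2 K (alphaHom R 2 K (u9E R K h9)))⁻¹})
      (((alphaHom (R * 2) 2 K).comp (alphaHom R 2 K)) (u9E R K h9))⁻¹ := by
  rw [RingHom.comp_apply, alphaHom_u9E R K 2 h9]
  exact (exits_alpha_beta (R * 2) K (Dvd.dvd.mul_right h9 2)).2.1.2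

end Sq

/-! ### The `(α u₉, w (α u₉))` shape: cusp-separation inputs of the level-`2M` chart -/

section Swap

variable (M : ℕ) [NeZero M] (E : IntermediateField ℚ Qb) (h2M : ¬ 2 ∣ M)
variable {O : Type*} [CommRing O] [Algebra O (LE (M * 2) E)]

/-- The ten exits in the `(α u₉, w (α u₉))` shape. -/
theorem exits_level (h9 : 9 ∣ M) :
    let u := alphaHom M 2 E (u9E M E h9)
    let u' := wHom M 2 E Nat.prime_two h2M (alphaHom M 2 E (u9E M E h9))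
    (IsIntegral (Algebra.adjoin O {u}) u' ∧ IsIntegral (Algebra.adjoin O {u'}) u) ∧
    (IsIntegral (Algebra.adjoin O {u⁻¹}) u'⁻¹ ∧ IsIntegral (Algebra.adjoin O {u'⁻¹}) u⁻¹) ∧
    (IsIntegral (Algebra.adjoin O {u}) (u ^ 2 / u') ∧
      IsIntegral (Algebra.adjoin O {u}) (u' ^ 2 / u)) ∧
    (IsIntegral (Algebra.adjoin O {u}) ((u ^ 2 + 9 * u + 27) ^ 2 / (u' ^ 2 + 9 * u' + 27)) ∧
      IsIntegral (Algebra.adjoin O {u}) ((u' ^ 2 + 9 * u' + 27) ^ 2 / (u ^ 2 + 9 * u + 27))) ∧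
    (IsIntegral (Algebra.adjoin O {u⁻¹}) (u⁻¹ ^ 2 / u'⁻¹) ∧
      IsIntegral (Algebra.adjoin O {u⁻¹}) (u'⁻¹ ^ 2 / u⁻¹)) := by
  intro u u'
  have hu' : u' = betaHom M 2 E (u9E M E h9) := wHom_alpha M 2 E Nat.prime_two h2M (u9E M E h9)
  rw [hu']
  exact exits_alpha_beta M E h9

/-- `hint0` of `ThickCuspGen.hnb_nine` : `(α u₉)² / w (α u₉)` is integral over `O[α u₉]`. -/
theorem hint0_u9E (h9 : 9 ∣ M) :
    IsIntegral (Algebra.adjoin O {alphaHom M 2 E (u9E M E h9)})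
      (alphaHom M 2 E (u9E M E h9) ^ 2 /
        wHom M 2 E Nat.prime_two h2M (alphaHom M 2 E (u9E M E h9))) :=
  (exits_level M E h2M h9).2.2.1.1

/-- `hintW` of `ThickCuspGen.hnb_nine` : `W(α u₉)² / W(w (α u₉))` is integral over `O[α u₉]`,
`W(t) = t² + 9t + 27`. -/
theorem hintW_u9E (h9 : 9 ∣ M) :
    IsIntegral (Algebra.adjoin O {alphaHom M 2 E (u9E M E h9)})
      ((alphaHom M 2 E (u9E M E h9) ^ 2 + 9 * alphaHom M 2 E (u9E M E h9) + 27) ^ 2 /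
        (wHom M 2 E Nat.prime_two h2M (alphaHom M 2 E (u9E M E h9)) ^ 2
          + 9 * wHom M 2 E Nat.prime_two h2M (alphaHom M 2 E (u9E M E h9)) + 27)) :=
  (exits_level M E h2M h9).2.2.2.1.1

end Swap

end Fermat.Agent.S36.Haupt9.InfSq
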