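import Mathlib

/-!
# S36 / Haupt9 / Class — the cusp classes of the `u₉`-line, read off from `(j, j₉)`

Level-free, Mathlib only.  `L` a field, `v` a valuation of `L` with `v 3 = 1`, and elements
`u, j, j₉ : L` with the two rational relations of the Hauptmodul `u₉` of `Γ₀(9)`
(`W := u² + 9u + 27`):

* (R)  `j · u⁹ · W = (u + 9)³ (u³ + 243u² + 2187u + 6561)³`   (`Haupt9.jq_mul_u9`),
* (R9) `j₉ · (u · W) = (u + 3)³ (u³ + 9u² + 27u + 3)³`          (`Haupt9.jq9_mul_u9`).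

The three cusp classes of `v` are `v u < 1` (cusp `u = 0`: widths `9` for `j`, `1` for `j₉`),
`v W < 1` (the two conjugate cusps `W = 0`: widths `1`, `1`) and `1 < v u` (cusp `u = ∞`:
widths `1`, `9`).

* `val_classes` (V2): `v u < 1 → v j · v u⁹ = 1 ∧ v j₉ · v u = 1`;
  `v W < 1 → v j · v W = 1 ∧ v j₉ · v W = 1`; `1 < v u → v j = v u ∧ v j₉ = v u⁹`;
  `1 < v j ↔ (v u < 1 ∨ v W < 1 ∨ 1 < v u)`.
* `class_invariant` (V3): if `(u, j, j₉)` and `(u', j', j₉')` both satisfy (R), (R9) and the pairs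
  `(j, j')`, `(j₉, j₉')` satisfy the Newton-polygon alternative of a modular equation of level `q`
  (`v j ≤ 1 ↔ v j' ≤ 1`, and `v j' = v j ^ q ∨ v j = v j' ^ q` when `1 < v j`), `3 ∤ q`, then `u`
  and `u'` lie in the same cusp class, with the same alternative for `u`, `W`, `u⁻¹`.

Twin of `S36/Haupt4/Class.lean` (level `4`, classes `v u < 1`, `v (u + 16) < 1`, `1 < v u`,
`q` odd).
-/

set_option autoImplicit false

namespace Fermat.Agent.S36.Haupt9.Class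

section OrderedGroup

variable {Γ₀ : Type*} [LinearOrderedCommGroupWithZero Γ₀]

/-- **The exponent bookkeeping.**  `t, s > 1`, and the pairs `(t ^ α, t ^ β)`, `(s ^ α', s ^ β')`
with `(α, β), (α', β') ∈ {(9, 1), (1, 1), (1, 9)}` are related coordinatewise by "`q`-th power
one way or the other", `3 ∤ q`.  Then the exponent pairs agree and `s = t ^ q` or `t = s ^ q`. -/
theorem pow_class_core {t s : Γ₀} (ht : 1 < t) (hs : 1 < s) {α β α' β' q : ℕ} (hq : ¬ 3 ∣ q)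
    (hc : (α = 9 ∧ β = 1) ∨ (α = 1 ∧ β = 1) ∨ (α = 1 ∧ β = 9))
    (hc' : (α' = 9 ∧ β' = 1) ∨ (α' = 1 ∧ β' = 1) ∨ (α' = 1 ∧ β' = 9))
    (H1 : s ^ α' = (t ^ α) ^ q ∨ t ^ α = (s ^ α') ^ q)
    (H2 : s ^ β' = (t ^ β) ^ q ∨ t ^ β = (s ^ β') ^ q) :
    (α = α' ∧ β = β') ∧ (s = t ^ q ∨ t = s ^ q) := by
  have ht0 : (0 : Γ₀) < t := zero_lt_one.trans ht
  have hαpos : α ≠ 0 := by rcases hc with ⟨h, -⟩ | ⟨h, -⟩ | ⟨h, -⟩ <;> omega
  have hα'pos : α' ≠ 0 := by rcases hc' with ⟨h, -⟩ | ⟨h, -⟩ | ⟨h, -⟩ <;> omega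
  have hq0 : q ≠ 0 := by
    rintro rfl
    rcases H1 with h | h
    · rw [pow_zero] at h
      exact hs.ne' ((pow_eq_one_iff_of_nonneg zero_le hα'pos).mp h)
    · rw [pow_zero] at h
      exact ht.ne' ((pow_eq_one_iff_of_nonneg zero_le hαpos).mp h)
  have key : ∀ A B A' B' : ℕ, s ^ A = t ^ B → s ^ A' = t ^ B' → B * A' = B' * A := by
    intro A B A' B' h1 h2
    have h : t ^ (B * A') = t ^ (B' * A) := by
      rw [pow_mul, ← h1, pow_mul, ← h2, ← pow_mul, ← pow_mul, mul_comm]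
    exact pow_right_injective₀ ht0 ht.ne' h
  have H1' : s ^ α' = t ^ (α * q) ∨ s ^ (α' * q) = t ^ α := by
    rcases H1 with h | h
    · left; rw [h, pow_mul]
    · right; rw [h, pow_mul]
  have H2' : s ^ β' = t ^ (β * q) ∨ s ^ (β' * q) = t ^ β := by
    rcases H2 with h | h
    · left; rw [h, pow_mul]
    · right; rw [h, pow_mul]
  rcases H1' with h1 | h1 <;> rcases H2' with h2 | h2
  · -- both "up"
    have E := key _ _ _ _ h1 h2
    have E' : α * β' = β * α' := by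
      have h : q * (α * β') = q * (β * α') := by
        calc q * (α * β') = α * q * β' := by ring
          _ = β * q * α' := E
          _ = q * (β * α') := by ring
      exact Nat.eq_of_mul_eq_mul_left (Nat.pos_of_ne_zero hq0) h
    have hcls : α = α' ∧ β = β' := by
      rcases hc with ⟨rfl, rfl⟩ | ⟨rfl, rfl⟩ | ⟨rfl, rfl⟩ <;>
        rcases hc' with ⟨rfl, rfl⟩ | ⟨rfl, rfl⟩ | ⟨rfl, rfl⟩ <;> omega
    refine ⟨hcls, Or.inl ?_⟩
    obtain ⟨rfl, rfl⟩ := hcls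
    have h : s ^ α = (t ^ q) ^ α := by rw [h1, ← pow_mul, mul_comm]
    exact (pow_left_inj₀ zero_le zero_le hαpos).mp h
  · -- `j` up, `j₉` down: only `q = 1`
    have E := key _ _ _ _ h1 h2
    have hfin : (α = α' ∧ β = β') ∧ q = 1 := by
      have hq9 : q ≤ 9 := by
        rcases hc with ⟨rfl, rfl⟩ | ⟨rfl, rfl⟩ | ⟨rfl, rfl⟩ <;>
          rcases hc' with ⟨rfl, rfl⟩ | ⟨rfl, rfl⟩ | ⟨rfl, rfl⟩ <;> nlinarith
      rcases hc with ⟨rfl, rfl⟩ | ⟨rfl, rfl⟩ | ⟨rfl, rfl⟩ <;>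
        rcases hc' with ⟨rfl, rfl⟩ | ⟨rfl, rfl⟩ | ⟨rfl, rfl⟩ <;>
          interval_cases q <;> omega
    obtain ⟨⟨rfl, rfl⟩, rfl⟩ := hfin
    refine ⟨⟨rfl, rfl⟩, Or.inl ?_⟩
    have h : s ^ α = (t ^ 1) ^ α := by rw [h1, mul_one, pow_one]
    exact (pow_left_inj₀ zero_le zero_le hαpos).mp h
  · -- `j` down, `j₉` up: only `q = 1`
    have E := key _ _ _ _ h1 h2
    have hfin : (α = α' ∧ β = β') ∧ q = 1 := by
      have hq9 : q ≤ 9 := by
        rcases hc with ⟨rfl, rfl⟩ | ⟨rfl, rfl⟩ | ⟨rfl, rfl⟩ <;>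
          rcases hc' with ⟨rfl, rfl⟩ | ⟨rfl, rfl⟩ | ⟨rfl, rfl⟩ <;> nlinarith
      rcases hc with ⟨rfl, rfl⟩ | ⟨rfl, rfl⟩ | ⟨rfl, rfl⟩ <;>
        rcases hc' with ⟨rfl, rfl⟩ | ⟨rfl, rfl⟩ | ⟨rfl, rfl⟩ <;>
          interval_cases q <;> omega
    obtain ⟨⟨rfl, rfl⟩, rfl⟩ := hfin
    refine ⟨⟨rfl, rfl⟩, Or.inl ?_⟩
    have h : s ^ α = (t ^ 1) ^ α := by rw [pow_one, ← h1, mul_one]
    exact (pow_left_inj₀ zero_le zero_le hαpos).mp h
  · -- both "down"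
    have E := key _ _ _ _ h1 h2
    have E' : α * β' = β * α' := by
      have h : q * (α * β') = q * (β * α') := by
        calc q * (α * β') = α * (β' * q) := by ring
          _ = β * (α' * q) := E
          _ = q * (β * α') := by ring
      exact Nat.eq_of_mul_eq_mul_left (Nat.pos_of_ne_zero hq0) h
    have hcls : α = α' ∧ β = β' := by
      rcases hc with ⟨rfl, rfl⟩ | ⟨rfl, rfl⟩ | ⟨rfl, rfl⟩ <;>
        rcases hc' with ⟨rfl, rfl⟩ | ⟨rfl, rfl⟩ | ⟨rfl, rfl⟩ <;> omega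
    refine ⟨hcls, Or.inr ?_⟩
    obtain ⟨rfl, rfl⟩ := hcls
    have h : t ^ α = (s ^ q) ^ α := by rw [← h1, ← pow_mul, mul_comm]
    exact (pow_left_inj₀ zero_le zero_le hαpos).mp h

end OrderedGroup

section Valuation

variable {L Γ₀ : Type*} [Field L] [LinearOrderedCommGroupWithZero Γ₀] (v : Valuation L Γ₀)

theorem val_three_pow (h3 : v 3 = 1) (n : ℕ) : v ((3 : L) ^ n) = 1 := by
  rw [map_pow, h3, one_pow]

/-- `v (a + x b) = 1` when `v a = 1`, `v x < 1`, `v b ≤ 1`. -/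
theorem val_add_mul_eq_one {a x b : L} (ha : v a = 1) (hx : v x < 1) (hb : v b ≤ 1) :
    v (a + x * b) = 1 := by
  have h : v (x * b) < v a := by
    rw [ha, map_mul]
    exact mul_lt_one_of_lt_of_le hx hb
  rw [v.map_add_eq_of_lt_left h, ha]

variable {v}

/-- `v u < 1 ⟹ v (u² + 9u + 27) = 1`. -/
theorem val_quad_of_lt (h3 : v 3 = 1) {u : L} (hu : v u < 1) : v (u ^ 2 + 9 * u + 27) = 1 := by
  have hu' : u ∈ v.integer := hu.le
  have h27 : v (27 : L) = 1 := by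
    rw [show (27 : L) = 3 ^ 3 by norm_num]; exact val_three_pow v h3 3
  rw [show u ^ 2 + 9 * u + 27 = 27 + u * (u + 9) by ring]
  exact val_add_mul_eq_one v h27 hu (show u + 9 ∈ v.integer by aesop)

/-- `1 < v u ⟹ v (1 + u⁻¹ b) = 1` for `v b ≤ 1`. -/
theorem val_one_add_inv_mul {u b : L} (hu : 1 < v u) (hb : v b ≤ 1) : v (1 + u⁻¹ * b) = 1 := by
  have ht : v u⁻¹ < 1 := by
    rw [map_inv₀]
    exact inv_lt_one_of_one_lt₀ hu
  exact val_add_mul_eq_one v v.map_one ht hb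

/-- `1 < v u ⟹ v (u² + 9u + 27) = (v u)²`. -/
theorem val_quad_of_gt {u : L} (hu : 1 < v u) : v (u ^ 2 + 9 * u + 27) = v u ^ 2 := by
  have hu0 : u ≠ 0 := by
    rintro rfl
    rw [map_zero] at hu
    exact absurd hu (not_lt.mpr zero_le_one)
  have hti : u⁻¹ ∈ v.integer := by
    show v u⁻¹ ≤ 1
    rw [map_inv₀]
    exact (inv_lt_one_of_one_lt₀ hu).le
  have h : u ^ 2 + 9 * u + 27 = u ^ 2 * (1 + u⁻¹ * (9 + 27 * u⁻¹)) := by
    field_simp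
    ring
  rw [h, map_mul, map_pow,
    val_one_add_inv_mul hu (show 9 + 27 * u⁻¹ ∈ v.integer by aesop), mul_one]

/-- `v (u² + 9u + 27) < 1 ⟹ v u = 1`. -/
theorem val_eq_one_of_quad_lt (h3 : v 3 = 1) {u : L} (hW : v (u ^ 2 + 9 * u + 27) < 1) :
    v u = 1 := by
  rcases lt_trichotomy (v u) 1 with h | h | h
  · rw [val_quad_of_lt h3 h] at hW
    exact absurd hW (lt_irrefl _)
  · exact h
  · rw [val_quad_of_gt h] at hW
    exact absurd hW (not_lt.mpr (one_le_pow₀ h.le))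

/-! ### The relation (R) : `j u⁹ W = (u + 9)³ (u³ + 243u² + 2187u + 6561)³` -/

section RelJ

variable {u j : L}
  (hR : j * u ^ 9 * (u ^ 2 + 9 * u + 27)
    = (u + 9) ^ 3 * (u ^ 3 + 243 * u ^ 2 + 2187 * u + 6561) ^ 3)

include hR

theorem valJ_of_lt (h3 : v 3 = 1) (hu : v u < 1) : v j * v u ^ 9 = 1 := by
  have hu' : u ∈ v.integer := hu.le
  have h9 : v (9 : L) = 1 := by
    rw [show (9 : L) = 3 ^ 2 by norm_num]; exact val_three_pow v h3 2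
  have h6561 : v (6561 : L) = 1 := by
    rw [show (6561 : L) = 3 ^ 8 by norm_num]; exact val_three_pow v h3 8
  have hW := val_quad_of_lt h3 hu
  have hu9 : v (u + 9) = 1 := by
    rw [show u + 9 = 9 + u * 1 by ring]
    exact val_add_mul_eq_one v h9 hu (by simp)
  have hC : v (u ^ 3 + 243 * u ^ 2 + 2187 * u + 6561) = 1 := by
    rw [show u ^ 3 + 243 * u ^ 2 + 2187 * u + 6561 = 6561 + u * (u ^ 2 + 243 * u + 2187) by ring]
    exact val_add_mul_eq_one v h6561 hu (show u ^ 2 + 243 * u + 2187 ∈ v.integer by aesop)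
  have h := congrArg v hR
  simp only [map_mul, map_pow, hW, hu9, hC, one_pow, mul_one] at h
  exact h

theorem valJ_of_quad_lt (h3 : v 3 = 1) (hW : v (u ^ 2 + 9 * u + 27) < 1) :
    v j * v (u ^ 2 + 9 * u + 27) = 1 := by
  have hu := val_eq_one_of_quad_lt h3 hW
  have hu' : u ∈ v.integer := hu.le
  have h27 : v (27 : L) = 1 := by
    rw [show (27 : L) = 3 ^ 3 by norm_num]; exact val_three_pow v h3 3
  have hu9 : v (u + 9) = 1 := by
    have h1 : v (u * (u + 9)) = 1 := by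
      rw [show u * (u + 9) = -27 + (u ^ 2 + 9 * u + 27) * 1 by ring]
      exact val_add_mul_eq_one v (by rw [Valuation.map_neg, h27]) hW (by simp)
    rwa [map_mul, hu, one_mul] at h1
  have h2u : v (2 * u + 9) = 1 := by
    have h1 : v ((2 * u + 9) ^ 2) = 1 := by
      rw [show (2 * u + 9) ^ 2 = -27 + (u ^ 2 + 9 * u + 27) * 4 by ring]
      exact val_add_mul_eq_one v (by rw [Valuation.map_neg, h27]) hW
        (show (4 : L) ∈ v.integer by aesop)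
    rw [map_pow] at h1
    exact (pow_eq_one_iff_of_nonneg zero_le (by norm_num)).mp h1
  have hC : v (u ^ 3 + 243 * u ^ 2 + 2187 * u + 6561) = 1 := by
    rw [show u ^ 3 + 243 * u ^ 2 + 2187 * u + 6561
      = 27 * (2 * u + 9) + (u ^ 2 + 9 * u + 27) * (u + 234) by ring]
    exact val_add_mul_eq_one v (by rw [map_mul, h27, h2u, one_mul]) hW
      (show u + 234 ∈ v.integer by aesop)
  have h := congrArg v hR
  simp only [map_mul, map_pow, hu, hu9, hC, one_pow, mul_one] at h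
  exact h

theorem valJ_of_gt (hu : 1 < v u) : v j = v u := by
  have hu0 : u ≠ 0 := by
    rintro rfl
    rw [map_zero] at hu
    exact absurd hu (not_lt.mpr zero_le_one)
  have hv0 : v u ≠ 0 := (v.ne_zero_iff).mpr hu0
  have hti : u⁻¹ ∈ v.integer := by
    show v u⁻¹ ≤ 1
    rw [map_inv₀]
    exact (inv_lt_one_of_one_lt₀ hu).le
  have hW := val_quad_of_gt hu
  have hu9 : v (u + 9) = v u := by
    have h : u + 9 = u * (1 + u⁻¹ * 9) := by field_simp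
    rw [h, map_mul, val_one_add_inv_mul hu (show (9 : L) ∈ v.integer by aesop), mul_one]
  have hC : v (u ^ 3 + 243 * u ^ 2 + 2187 * u + 6561) = v u ^ 3 := by
    have h : u ^ 3 + 243 * u ^ 2 + 2187 * u + 6561
        = u ^ 3 * (1 + u⁻¹ * (243 + u⁻¹ * (2187 + u⁻¹ * 6561))) := by
      field_simp
      ring
    rw [h, map_mul, map_pow,
      val_one_add_inv_mul hu (show 243 + u⁻¹ * (2187 + u⁻¹ * 6561) ∈ v.integer by aesop),
      mul_one]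
  have h := congrArg v hR
  simp only [map_mul, map_pow, hW, hu9, hC] at h
  have h' : v j * v u ^ 11 = v u * v u ^ 11 := by
    calc v j * v u ^ 11 = v j * v u ^ 9 * v u ^ 2 := by rw [mul_assoc, ← pow_add]
      _ = v u ^ 3 * (v u ^ 3) ^ 3 := h
      _ = v u * v u ^ 11 := by rw [← pow_mul, ← pow_add, ← pow_succ']
  exact mul_right_cancel₀ (pow_ne_zero 11 hv0) h'

theorem valJ_le_one (hu : v u = 1) (hW : v (u ^ 2 + 9 * u + 27) = 1) : v j ≤ 1 := by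
  have hu' : u ∈ v.integer := hu.le
  have h := congrArg v hR
  simp only [map_mul, map_pow, hu, hW, one_pow, mul_one] at h
  rw [h]
  have h1 : (u + 9) ^ 3 * (u ^ 3 + 243 * u ^ 2 + 2187 * u + 6561) ^ 3 ∈ v.integer := by aesop
  have h2 : v ((u + 9) ^ 3 * (u ^ 3 + 243 * u ^ 2 + 2187 * u + 6561) ^ 3) ≤ 1 := h1
  simpa only [map_mul, map_pow] using h2

/-- **(V2), last clause**: the cusp classes are exactly the valuations with `1 < v j`. -/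
theorem one_lt_valJ_iff (h3 : v 3 = 1) :
    1 < v j ↔ (v u < 1 ∨ v (u ^ 2 + 9 * u + 27) < 1 ∨ 1 < v u) := by
  constructor
  · intro hj
    by_contra hcon
    rw [not_or, not_or, not_lt, not_lt, not_lt] at hcon
    obtain ⟨h1, h2, h3'⟩ := hcon
    have hu : v u = 1 := le_antisymm h3' h1
    have hu' : u ∈ v.integer := hu.le
    have hWle : v (u ^ 2 + 9 * u + 27) ≤ 1 := show u ^ 2 + 9 * u + 27 ∈ v.integer by aesop
    exact absurd hj (not_lt.mpr (valJ_le_one hR hu (le_antisymm hWle h2)))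
  · rintro (hu | hW | hu)
    · have h := valJ_of_lt hR h3 hu
      by_contra hcon
      rw [not_lt] at hcon
      have h9 : v u ^ 9 < 1 := (pow_lt_one_iff (by norm_num)).mpr hu
      have : v j * v u ^ 9 < 1 := by
        calc v j * v u ^ 9 ≤ 1 * v u ^ 9 := by gcongr
          _ = v u ^ 9 := one_mul _
          _ < 1 := h9
      rw [h] at this
      exact lt_irrefl _ this
    · have h := valJ_of_quad_lt hR h3 hW
      by_contra hcon
      rw [not_lt] at hcon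
      have : v j * v (u ^ 2 + 9 * u + 27) < 1 := by
        calc v j * v (u ^ 2 + 9 * u + 27) ≤ 1 * v (u ^ 2 + 9 * u + 27) := by gcongr
          _ = v (u ^ 2 + 9 * u + 27) := one_mul _
          _ < 1 := hW
      rw [h] at this
      exact lt_irrefl _ this
    · rw [valJ_of_gt hR hu]
      exact hu

end RelJ

/-! ### The relation (R9) : `j₉ (u W) = (u + 3)³ (u³ + 9u² + 27u + 3)³` -/

section RelJ9

variable {u j9 : L}
  (hR9 : j9 * (u * (u ^ 2 + 9 * u + 27)) = (u + 3) ^ 3 * (u ^ 3 + 9 * u ^ 2 + 27 * u + 3) ^ 3)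

include hR9

theorem valJ9_of_lt (h3 : v 3 = 1) (hu : v u < 1) : v j9 * v u = 1 := by
  have hu' : u ∈ v.integer := hu.le
  have hW := val_quad_of_lt h3 hu
  have hu3 : v (u + 3) = 1 := by
    rw [show u + 3 = 3 + u * 1 by ring]
    exact val_add_mul_eq_one v h3 hu (by simp)
  have hD : v (u ^ 3 + 9 * u ^ 2 + 27 * u + 3) = 1 := by
    rw [show u ^ 3 + 9 * u ^ 2 + 27 * u + 3 = 3 + u * (u ^ 2 + 9 * u + 27) by ring]
    exact val_add_mul_eq_one v h3 hu (show u ^ 2 + 9 * u + 27 ∈ v.integer by aesop)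
  have h := congrArg v hR9
  simp only [map_mul, map_pow, hW, hu3, hD, one_pow, mul_one] at h
  exact h

theorem valJ9_of_quad_lt (h3 : v 3 = 1) (hW : v (u ^ 2 + 9 * u + 27) < 1) :
    v j9 * v (u ^ 2 + 9 * u + 27) = 1 := by
  have hu := val_eq_one_of_quad_lt h3 hW
  have hu' : u ∈ v.integer := hu.le
  have h9 : v (9 : L) = 1 := by
    rw [show (9 : L) = 3 ^ 2 by norm_num]; exact val_three_pow v h3 2
  have hu3 : v (u + 3) = 1 := by
    have h1 : v ((u + 3) * (u + 6)) = 1 := by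
      rw [show (u + 3) * (u + 6) = -9 + (u ^ 2 + 9 * u + 27) * 1 by ring]
      exact val_add_mul_eq_one v (by rw [Valuation.map_neg, h9]) hW (by simp)
    rw [map_mul] at h1
    have ha : v (u + 3) ≤ 1 := show u + 3 ∈ v.integer by aesop
    have hb : v (u + 6) ≤ 1 := show u + 6 ∈ v.integer by aesop
    apply le_antisymm ha
    calc (1 : Γ₀) = v (u + 3) * v (u + 6) := h1.symm
      _ ≤ v (u + 3) * 1 := by gcongr
      _ = v (u + 3) := mul_one _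
  have hD : v (u ^ 3 + 9 * u ^ 2 + 27 * u + 3) = 1 := by
    rw [show u ^ 3 + 9 * u ^ 2 + 27 * u + 3 = 3 + (u ^ 2 + 9 * u + 27) * u by ring]
    exact val_add_mul_eq_one v h3 hW hu.le
  have h := congrArg v hR9
  simp only [map_mul, map_pow, hu, hu3, hD, one_pow, mul_one, one_mul] at h
  exact h

theorem valJ9_of_gt (hu : 1 < v u) : v j9 = v u ^ 9 := by
  have hu0 : u ≠ 0 := by
    rintro rfl
    rw [map_zero] at hu
    exact absurd hu (not_lt.mpr zero_le_one)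
  have hv0 : v u ≠ 0 := (v.ne_zero_iff).mpr hu0
  have hti : u⁻¹ ∈ v.integer := by
    show v u⁻¹ ≤ 1
    rw [map_inv₀]
    exact (inv_lt_one_of_one_lt₀ hu).le
  have hW := val_quad_of_gt hu
  have hu3 : v (u + 3) = v u := by
    have h : u + 3 = u * (1 + u⁻¹ * 3) := by field_simp
    rw [h, map_mul, val_one_add_inv_mul hu (show (3 : L) ∈ v.integer by aesop), mul_one]
  have hD : v (u ^ 3 + 9 * u ^ 2 + 27 * u + 3) = v u ^ 3 := by
    have h : u ^ 3 + 9 * u ^ 2 + 27 * u + 3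
        = u ^ 3 * (1 + u⁻¹ * (9 + u⁻¹ * (27 + u⁻¹ * 3))) := by
      field_simp
      ring
    rw [h, map_mul, map_pow,
      val_one_add_inv_mul hu (show 9 + u⁻¹ * (27 + u⁻¹ * 3) ∈ v.integer by aesop), mul_one]
  have h := congrArg v hR9
  simp only [map_mul, map_pow, hW, hu3, hD] at h
  have h' : v j9 * v u ^ 3 = v u ^ 9 * v u ^ 3 := by
    calc v j9 * v u ^ 3 = v j9 * (v u * v u ^ 2) := by rw [← pow_succ']
      _ = v u ^ 3 * (v u ^ 3) ^ 3 := h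
      _ = v u ^ 9 * v u ^ 3 := by rw [← pow_mul, ← pow_add, ← pow_add]
  exact mul_right_cancel₀ (pow_ne_zero 3 hv0) h'

theorem valJ9_le_one (hu : v u = 1) (hW : v (u ^ 2 + 9 * u + 27) = 1) : v j9 ≤ 1 := by
  have hu' : u ∈ v.integer := hu.le
  have h := congrArg v hR9
  simp only [map_mul, map_pow, hu, hW, mul_one] at h
  rw [h]
  have h1 : (u + 3) ^ 3 * (u ^ 3 + 9 * u ^ 2 + 27 * u + 3) ^ 3 ∈ v.integer := by aesop
  have h2 : v ((u + 3) ^ 3 * (u ^ 3 + 9 * u ^ 2 + 27 * u + 3) ^ 3) ≤ 1 := h1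
  simpa only [map_mul, map_pow] using h2

/-- `j₉` has a pole exactly in the three cusp classes. -/
theorem one_lt_valJ9_iff (h3 : v 3 = 1) :
    1 < v j9 ↔ (v u < 1 ∨ v (u ^ 2 + 9 * u + 27) < 1 ∨ 1 < v u) := by
  constructor
  · intro hj
    by_contra hcon
    rw [not_or, not_or, not_lt, not_lt, not_lt] at hcon
    obtain ⟨h1, h2, h3'⟩ := hcon
    have hu : v u = 1 := le_antisymm h3' h1
    have hu' : u ∈ v.integer := hu.le
    have hWle : v (u ^ 2 + 9 * u + 27) ≤ 1 := show u ^ 2 + 9 * u + 27 ∈ v.integer by aesop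
    exact absurd hj (not_lt.mpr (valJ9_le_one hR9 hu (le_antisymm hWle h2)))
  · rintro (hu | hW | hu)
    · have h := valJ9_of_lt hR9 h3 hu
      by_contra hcon
      rw [not_lt] at hcon
      have : v j9 * v u < 1 := by
        calc v j9 * v u ≤ 1 * v u := by gcongr
          _ = v u := one_mul _
          _ < 1 := hu
      rw [h] at this
      exact lt_irrefl _ this
    · have h := valJ9_of_quad_lt hR9 h3 hW
      by_contra hcon
      rw [not_lt] at hcon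
      have : v j9 * v (u ^ 2 + 9 * u + 27) < 1 := by
        calc v j9 * v (u ^ 2 + 9 * u + 27) ≤ 1 * v (u ^ 2 + 9 * u + 27) := by gcongr
          _ = v (u ^ 2 + 9 * u + 27) := one_mul _
          _ < 1 := hW
      rw [h] at this
      exact lt_irrefl _ this
    · rw [valJ9_of_gt hR9 hu]
      exact one_lt_pow₀ hu (by norm_num)

end RelJ9

/-! ### (V2) and (V3) -/

section Main

variable (v) {u j j9 : L}

/-- Class `0`: `v u < 1`. -/
theorem class_zero (h3 : v 3 = 1)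
    (hR : j * u ^ 9 * (u ^ 2 + 9 * u + 27)
      = (u + 9) ^ 3 * (u ^ 3 + 243 * u ^ 2 + 2187 * u + 6561) ^ 3)
    (hR9 : j9 * (u * (u ^ 2 + 9 * u + 27))
      = (u + 3) ^ 3 * (u ^ 3 + 9 * u ^ 2 + 27 * u + 3) ^ 3) (hu : v u < 1) :
    v (u ^ 2 + 9 * u + 27) = 1 ∧ v j * v u ^ 9 = 1 ∧ v j9 * v u = 1 :=
  ⟨val_quad_of_lt h3 hu, valJ_of_lt hR h3 hu, valJ9_of_lt hR9 h3 hu⟩

/-- Class `W = 0` (`W = u² + 9u + 27`): `v W < 1`. -/
theorem class_quad (h3 : v 3 = 1)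
    (hR : j * u ^ 9 * (u ^ 2 + 9 * u + 27)
      = (u + 9) ^ 3 * (u ^ 3 + 243 * u ^ 2 + 2187 * u + 6561) ^ 3)
    (hR9 : j9 * (u * (u ^ 2 + 9 * u + 27))
      = (u + 3) ^ 3 * (u ^ 3 + 9 * u ^ 2 + 27 * u + 3) ^ 3)
    (hW : v (u ^ 2 + 9 * u + 27) < 1) :
    v u = 1 ∧ v j * v (u ^ 2 + 9 * u + 27) = 1 ∧ v j9 * v (u ^ 2 + 9 * u + 27) = 1 :=
  ⟨val_eq_one_of_quad_lt h3 hW, valJ_of_quad_lt hR h3 hW, valJ9_of_quad_lt hR9 h3 hW⟩

/-- Class `∞`: `1 < v u`. -/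
theorem class_infty
    (hR : j * u ^ 9 * (u ^ 2 + 9 * u + 27)
      = (u + 9) ^ 3 * (u ^ 3 + 243 * u ^ 2 + 2187 * u + 6561) ^ 3)
    (hR9 : j9 * (u * (u ^ 2 + 9 * u + 27))
      = (u + 3) ^ 3 * (u ^ 3 + 9 * u ^ 2 + 27 * u + 3) ^ 3) (hu : 1 < v u) :
    v (u ^ 2 + 9 * u + 27) = v u ^ 2 ∧ v j = v u ∧ v j9 = v u ^ 9 :=
  ⟨val_quad_of_gt hu, valJ_of_gt hR hu, valJ9_of_gt hR9 hu⟩

/-- Outside the three classes `j` and `j₉` are integral. -/
theorem val_le_one_of_not_class (h3 : v 3 = 1)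
    (hR : j * u ^ 9 * (u ^ 2 + 9 * u + 27)
      = (u + 9) ^ 3 * (u ^ 3 + 243 * u ^ 2 + 2187 * u + 6561) ^ 3)
    (hR9 : j9 * (u * (u ^ 2 + 9 * u + 27))
      = (u + 3) ^ 3 * (u ^ 3 + 9 * u ^ 2 + 27 * u + 3) ^ 3)
    (h0 : ¬ v u < 1) (hW : ¬ v (u ^ 2 + 9 * u + 27) < 1) (hi : ¬ 1 < v u) :
    v j ≤ 1 ∧ v j9 ≤ 1 :=
  ⟨not_lt.mp fun h => by
      rcases (one_lt_valJ_iff hR h3).mp h with h | h | h
      exacts [h0 h, hW h, hi h],
    not_lt.mp fun h => by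
      rcases (one_lt_valJ9_iff hR9 h3).mp h with h | h | h
      exacts [h0 h, hW h, hi h]⟩

/-- `j` has a pole exactly in the three classes. -/
theorem one_lt_val_j_iff (h3 : v 3 = 1)
    (hR : j * u ^ 9 * (u ^ 2 + 9 * u + 27)
      = (u + 9) ^ 3 * (u ^ 3 + 243 * u ^ 2 + 2187 * u + 6561) ^ 3) :
    1 < v j ↔ (v u < 1 ∨ v (u ^ 2 + 9 * u + 27) < 1 ∨ 1 < v u) :=
  one_lt_valJ_iff hR h3

/-- `j₉` has a pole exactly in the three classes. -/
theorem one_lt_val_j9_iff (h3 : v 3 = 1)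
    (hR9 : j9 * (u * (u ^ 2 + 9 * u + 27))
      = (u + 3) ^ 3 * (u ^ 3 + 9 * u ^ 2 + 27 * u + 3) ^ 3) :
    1 < v j9 ↔ (v u < 1 ∨ v (u ^ 2 + 9 * u + 27) < 1 ∨ 1 < v u) :=
  one_lt_valJ9_iff hR9 h3

/-- **(V2): the three cusp classes of the `u₉`-line**, in terms of `v j` and `v j₉`. -/
theorem val_classes (h3 : v 3 = 1)
    (hR : j * u ^ 9 * (u ^ 2 + 9 * u + 27)
      = (u + 9) ^ 3 * (u ^ 3 + 243 * u ^ 2 + 2187 * u + 6561) ^ 3)
    (hR9 : j9 * (u * (u ^ 2 + 9 * u + 27))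
      = (u + 3) ^ 3 * (u ^ 3 + 9 * u ^ 2 + 27 * u + 3) ^ 3) :
    (v u < 1 → v j * v u ^ 9 = 1 ∧ v j9 * v u = 1) ∧
    (v (u ^ 2 + 9 * u + 27) < 1 →
      v j * v (u ^ 2 + 9 * u + 27) = 1 ∧ v j9 * v (u ^ 2 + 9 * u + 27) = 1) ∧
    (1 < v u → v j = v u ∧ v j9 = v u ^ 9) ∧
    (1 < v j ↔ (v u < 1 ∨ v (u ^ 2 + 9 * u + 27) < 1 ∨ 1 < v u)) :=
  ⟨fun hu => ⟨valJ_of_lt hR h3 hu, valJ9_of_lt hR9 h3 hu⟩,
    fun hW => ⟨valJ_of_quad_lt hR h3 hW, valJ9_of_quad_lt hR9 h3 hW⟩,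
    fun hu => ⟨valJ_of_gt hR hu, valJ9_of_gt hR9 hu⟩, one_lt_valJ_iff hR h3⟩

/-- The class data of a cusp class: a parameter `t > 1` and exponents `(α, β)` among
`(9, 1)`, `(1, 1)`, `(1, 9)` with `v j = t ^ α`, `v j₉ = t ^ β`. -/
theorem exists_class_data (h3 : v 3 = 1)
    (hR : j * u ^ 9 * (u ^ 2 + 9 * u + 27)
      = (u + 9) ^ 3 * (u ^ 3 + 243 * u ^ 2 + 2187 * u + 6561) ^ 3)
    (hR9 : j9 * (u * (u ^ 2 + 9 * u + 27))
      = (u + 3) ^ 3 * (u ^ 3 + 9 * u ^ 2 + 27 * u + 3) ^ 3) :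
    (v u < 1 → 1 < (v u)⁻¹ ∧ v j = (v u)⁻¹ ^ 9 ∧ v j9 = (v u)⁻¹ ^ 1) ∧
    (v (u ^ 2 + 9 * u + 27) < 1 → 1 < (v (u ^ 2 + 9 * u + 27))⁻¹ ∧
      v j = (v (u ^ 2 + 9 * u + 27))⁻¹ ^ 1 ∧ v j9 = (v (u ^ 2 + 9 * u + 27))⁻¹ ^ 1) ∧
    (1 < v u → v j = v u ^ 1 ∧ v j9 = v u ^ 9) := by
  refine ⟨fun hu => ?_, fun hW => ?_, fun hu => ?_⟩
  · have h1 := valJ_of_lt hR h3 hu
    have h2 := valJ9_of_lt hR9 h3 hu
    have hv0 : v u ≠ 0 := by
      rintro h0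
      rw [h0, mul_zero] at h2
      exact zero_ne_one h2
    refine ⟨(one_lt_inv₀ (pos_iff_ne_zero.mpr hv0)).mpr hu, ?_, ?_⟩
    · rw [inv_pow]
      exact eq_inv_of_mul_eq_one_left h1
    · rw [pow_one]
      exact eq_inv_of_mul_eq_one_left h2
  · have h1 := valJ_of_quad_lt hR h3 hW
    have h2 := valJ9_of_quad_lt hR9 h3 hW
    have hv0 : v (u ^ 2 + 9 * u + 27) ≠ 0 := by
      rintro h0
      rw [h0, mul_zero] at h2
      exact zero_ne_one h2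
    refine ⟨(one_lt_inv₀ (pos_iff_ne_zero.mpr hv0)).mpr hW, ?_, ?_⟩
    · rw [pow_one]
      exact eq_inv_of_mul_eq_one_left h1
    · rw [pow_one]
      exact eq_inv_of_mul_eq_one_left h2
  · exact ⟨by rw [pow_one]; exact valJ_of_gt hR hu, valJ9_of_gt hR9 hu⟩

variable {u' j' j9' : L}

/-- One direction of (V3): the cusp class of `u` is the cusp class of `u'`, with the `q`-th
power alternative. -/
theorem class_step (q : ℕ) (hq : ¬ 3 ∣ q) (h3 : v 3 = 1)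
    (hR : j * u ^ 9 * (u ^ 2 + 9 * u + 27)
      = (u + 9) ^ 3 * (u ^ 3 + 243 * u ^ 2 + 2187 * u + 6561) ^ 3)
    (hR9 : j9 * (u * (u ^ 2 + 9 * u + 27))
      = (u + 3) ^ 3 * (u ^ 3 + 9 * u ^ 2 + 27 * u + 3) ^ 3)
    (hR' : j' * u' ^ 9 * (u' ^ 2 + 9 * u' + 27)
      = (u' + 9) ^ 3 * (u' ^ 3 + 243 * u' ^ 2 + 2187 * u' + 6561) ^ 3)
    (hR9' : j9' * (u' * (u' ^ 2 + 9 * u' + 27))
      = (u' + 3) ^ 3 * (u' ^ 3 + 9 * u' ^ 2 + 27 * u' + 3) ^ 3)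
    (hN : (v j ≤ 1 ↔ v j' ≤ 1) ∧ (1 < v j → v j' = v j ^ q ∨ v j = v j' ^ q))
    (hN9 : (v j9 ≤ 1 ↔ v j9' ≤ 1) ∧ (1 < v j9 → v j9' = v j9 ^ q ∨ v j9 = v j9' ^ q)) :
    (v u < 1 → v u' < 1 ∧ (v u' = v u ^ q ∨ v u = v u' ^ q)) ∧
    (v (u ^ 2 + 9 * u + 27) < 1 → v (u' ^ 2 + 9 * u' + 27) < 1 ∧
      (v (u' ^ 2 + 9 * u' + 27) = v (u ^ 2 + 9 * u + 27) ^ q ∨
        v (u ^ 2 + 9 * u + 27) = v (u' ^ 2 + 9 * u' + 27) ^ q)) ∧
    (1 < v u → 1 < v u' ∧ (v u' = v u ^ q ∨ v u = v u' ^ q)) := by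
  obtain ⟨d0, dW, dI⟩ := exists_class_data v h3 hR hR9
  obtain ⟨d0', dW', dI'⟩ := exists_class_data v h3 hR' hR9'
  -- the generic step: class data `(t, α, β)` of `u` forces class data of `u'`
  have gen : ∀ (t : Γ₀) (α β : ℕ), 1 < t → v j = t ^ α → v j9 = t ^ β →
      ((α = 9 ∧ β = 1) ∨ (α = 1 ∧ β = 1) ∨ (α = 1 ∧ β = 9)) →
      (v u' < 1 ∧ (α = 9 ∧ β = 1) ∧ ((v u')⁻¹ = t ^ q ∨ t = (v u')⁻¹ ^ q)) ∨
      (v (u' ^ 2 + 9 * u' + 27) < 1 ∧ (α = 1 ∧ β = 1) ∧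
        ((v (u' ^ 2 + 9 * u' + 27))⁻¹ = t ^ q ∨ t = (v (u' ^ 2 + 9 * u' + 27))⁻¹ ^ q)) ∨
      (1 < v u' ∧ (α = 1 ∧ β = 9) ∧ (v u' = t ^ q ∨ t = v u' ^ q)) := by
    intro t α β ht hj hj9 hc
    have hαpos : α ≠ 0 := by rcases hc with ⟨h, -⟩ | ⟨h, -⟩ | ⟨h, -⟩ <;> omega
    have hβpos : β ≠ 0 := by rcases hc with ⟨-, h⟩ | ⟨-, h⟩ | ⟨-, h⟩ <;> omega
    have hj1 : 1 < v j := by rw [hj]; exact one_lt_pow₀ ht hαpos
    have hj91 : 1 < v j9 := by rw [hj9]; exact one_lt_pow₀ ht hβpos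
    have hj1' : 1 < v j' := by
      by_contra hcon
      exact absurd hj1 (not_lt.mpr (hN.1.mpr (not_lt.mp hcon)))
    have H1 := hN.2 hj1
    have H2 := hN9.2 hj91
    rw [hj] at H1
    rw [hj9] at H2
    rcases (one_lt_valJ_iff hR' h3).mp hj1' with hu' | hW' | hu'
    · obtain ⟨hs, e1, e2⟩ := d0' hu'
      rw [e1] at H1
      rw [e2] at H2
      obtain ⟨⟨rfl, rfl⟩, hpow⟩ := pow_class_core ht hs hq hc (Or.inl ⟨rfl, rfl⟩) H1 H2
      exact Or.inl ⟨hu', ⟨rfl, rfl⟩, hpow⟩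
    · obtain ⟨hs, e1, e2⟩ := dW' hW'
      rw [e1] at H1
      rw [e2] at H2
      obtain ⟨⟨rfl, rfl⟩, hpow⟩ :=
        pow_class_core ht hs hq hc (Or.inr (Or.inl ⟨rfl, rfl⟩)) H1 H2
      exact Or.inr (Or.inl ⟨hW', ⟨rfl, rfl⟩, hpow⟩)
    · obtain ⟨e1, e2⟩ := dI' hu'
      rw [e1] at H1
      rw [e2] at H2
      obtain ⟨⟨rfl, rfl⟩, hpow⟩ :=
        pow_class_core ht hu' hq hc (Or.inr (Or.inr ⟨rfl, rfl⟩)) H1 H2
      exact Or.inr (Or.inr ⟨hu', ⟨rfl, rfl⟩, hpow⟩)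
  refine ⟨fun hu => ?_, fun hW => ?_, fun hu => ?_⟩
  · obtain ⟨ht, e1, e2⟩ := d0 hu
    rcases gen _ 9 1 ht e1 e2 (Or.inl ⟨rfl, rfl⟩) with ⟨hu', -, hpow⟩ | ⟨-, ⟨h, -⟩, -⟩ |
      ⟨-, ⟨h, -⟩, -⟩
    · refine ⟨hu', ?_⟩
      rcases hpow with h | h
      · left
        rw [inv_pow] at h
        exact inv_injective h
      · right
        rw [inv_pow] at h
        exact inv_injective h
    · exact absurd h (by norm_num)
    · exact absurd h (by norm_num)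
  · obtain ⟨ht, e1, e2⟩ := dW hW
    rcases gen _ 1 1 ht e1 e2 (Or.inr (Or.inl ⟨rfl, rfl⟩)) with ⟨-, ⟨h, -⟩, -⟩ | ⟨hW', -, hpow⟩ |
      ⟨-, ⟨-, h⟩, -⟩
    · exact absurd h (by norm_num)
    · refine ⟨hW', ?_⟩
      rcases hpow with h | h
      · left
        rw [inv_pow] at h
        exact inv_injective h
      · right
        rw [inv_pow] at h
        exact inv_injective h
    · exact absurd h (by norm_num)
  · obtain ⟨e1, e2⟩ := dI hu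
    rcases gen _ 1 9 hu e1 e2 (Or.inr (Or.inr ⟨rfl, rfl⟩)) with ⟨-, ⟨-, h⟩, -⟩ | ⟨-, ⟨-, h⟩, -⟩ |
      ⟨hu', -, hpow⟩
    · exact absurd h (by norm_num)
    · exact absurd h (by norm_num)
    · exact ⟨hu', hpow⟩

/-- **(V3): the cusp class is invariant under a modular correspondence of level `q`, `3 ∤ q`.**
`(u, j, j₉)` and `(u', j', j₉')` satisfy (R), (R9); `(j, j')` and `(j₉, j₉')` satisfy the
Newton-polygon alternative `hN`, `hN9` (= `CuspVal.newton` for the roots of a polynomial of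
`CuspShape.ShapeCoeffs q`).  Then `u` and `u'` lie in the same cusp class and `u`, `W`, `u⁻¹`
satisfy the same alternative. -/
theorem class_invariant (q : ℕ) (hq : ¬ 3 ∣ q) (h3 : v 3 = 1)
    (hR : j * u ^ 9 * (u ^ 2 + 9 * u + 27)
      = (u + 9) ^ 3 * (u ^ 3 + 243 * u ^ 2 + 2187 * u + 6561) ^ 3)
    (hR9 : j9 * (u * (u ^ 2 + 9 * u + 27))
      = (u + 3) ^ 3 * (u ^ 3 + 9 * u ^ 2 + 27 * u + 3) ^ 3)
    (hR' : j' * u' ^ 9 * (u' ^ 2 + 9 * u' + 27)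
      = (u' + 9) ^ 3 * (u' ^ 3 + 243 * u' ^ 2 + 2187 * u' + 6561) ^ 3)
    (hR9' : j9' * (u' * (u' ^ 2 + 9 * u' + 27))
      = (u' + 3) ^ 3 * (u' ^ 3 + 9 * u' ^ 2 + 27 * u' + 3) ^ 3)
    (hN : (v j ≤ 1 ↔ v j' ≤ 1) ∧ (1 < v j → v j' = v j ^ q ∨ v j = v j' ^ q))
    (hN9 : (v j9 ≤ 1 ↔ v j9' ≤ 1) ∧ (1 < v j9 → v j9' = v j9 ^ q ∨ v j9 = v j9' ^ q)) :
    (v u < 1 ↔ v u' < 1) ∧
    (v (u ^ 2 + 9 * u + 27) < 1 ↔ v (u' ^ 2 + 9 * u' + 27) < 1) ∧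
    (1 < v u ↔ 1 < v u') ∧
    (v u < 1 → v u' = v u ^ q ∨ v u = v u' ^ q) ∧
    (v (u ^ 2 + 9 * u + 27) < 1 →
      v (u' ^ 2 + 9 * u' + 27) = v (u ^ 2 + 9 * u + 27) ^ q ∨
        v (u ^ 2 + 9 * u + 27) = v (u' ^ 2 + 9 * u' + 27) ^ q) ∧
    (1 < v u → v u' = v u ^ q ∨ v u = v u' ^ q) := by
  have hN' : (v j' ≤ 1 ↔ v j ≤ 1) ∧ (1 < v j' → v j = v j' ^ q ∨ v j' = v j ^ q) := by
    refine ⟨hN.1.symm, fun h => ?_⟩
    have h1 : 1 < v j := by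
      by_contra hcon
      exact absurd h (not_lt.mpr (hN.1.mp (not_lt.mp hcon)))
    exact (hN.2 h1).symm
  have hN9' : (v j9' ≤ 1 ↔ v j9 ≤ 1) ∧ (1 < v j9' → v j9 = v j9' ^ q ∨ v j9' = v j9 ^ q) := by
    refine ⟨hN9.1.symm, fun h => ?_⟩
    have h1 : 1 < v j9 := by
      by_contra hcon
      exact absurd h (not_lt.mpr (hN9.1.mp (not_lt.mp hcon)))
    exact (hN9.2 h1).symm
  obtain ⟨s1, s2, s3⟩ := class_step v q hq h3 hR hR9 hR' hR9' hN hN9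
  obtain ⟨r1, r2, r3⟩ := class_step v q hq h3 hR' hR9' hR hR9 hN' hN9'
  exact ⟨⟨fun h => (s1 h).1, fun h => (r1 h).1⟩, ⟨fun h => (s2 h).1, fun h => (r2 h).1⟩,
    ⟨fun h => (s3 h).1, fun h => (r3 h).1⟩, fun h => (s1 h).2, fun h => (s2 h).2,
    fun h => (s3 h).2⟩

end Main

end Valuation

end Fermat.Agent.S36.Haupt9.Class
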