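import Mathlib
import Fermat.Agent.S18.K1Main
import Fermat.Agent.S36.Haupt9.Horiz

/-!
# S36 / Haupt9 / J9 — the relation between `j(9τ)` and `u₉`

* `jq9_mul_u9` : `j(q⁹) · u₉ (u₉² + 9u₉ + 27) = (u₉ + 3)³ (u₉³ + 9u₉² + 27u₉ + 3)³`
  (every commutative ring);
* `jq3_mul_u9` : `j(q³) · u₉³ (u₉² + 9u₉ + 27)³ = (u₉ + 9)³ (u₉³ + 3u₉² + 27u₉ + 81)³`;
* `j9E M E h : L_E`, `j9F M h : F_M` : the function `j(9τ)` at level `M` (`9 ∣ M`), with
  `j9E_mul_u9E`, `j9F_mul_u9F` and the descriptions of its `q`-expansion.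

Together with `jq_mul_u9`
(`j · u₉⁹ (u₉² + 9u₉ + 27) = (u₉ + 9)³ (u₉³ + 243u₉² + 2187u₉ + 6561)³`) these are the rational
relations (R) of the cusp-class argument for `q = 2`: `v(j) : v(j₉) = 9, 1, 1/9` at `u₉ = 0`,
`u₉² + 9u₉ + 27 = 0`, `u₉ = ∞`.  Twin of `S36/Haupt4/J4.lean` (level `4`).
-/

set_option autoImplicit false
set_option linter.unusedSectionVars false

noncomputable section

namespace Fermat.Agent.S36.Haupt9

open AlgebraicCurve Polynomial ModularCurve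
open Fermat.Agent.S24.Modular Fermat.Agent.S24.FF Fermat.Agent.S30 Fermat.Agent.S30.AuxLevel

set_option synthInstance.maxHeartbeats 400000
set_option maxHeartbeats 1000000

local notation "Qb" => AlgebraicClosure ℚ

/-! ### Laurent series over an arbitrary commutative ring -/

section Series

variable (K : Type*) [CommRing K]

/-- `j(q⁹) = V₃ (j(q³))`. -/
theorem qExpand_three_jqN_three : qExpand K 3 (jqNModC K 3) = jqNModC K 9 := by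
  rw [jqNModC, jqNModC, qExpand_qExpand]

/-- **`j(q⁹) · u₉ (u₉² + 9u₉ + 27) = (u₉ + 3)³ (u₉³ + 9u₉² + 27u₉ + 3)³`.** -/
theorem jq9_mul_u9 :
    jqNModC K 9 * (u9 K * (u9 K ^ 2 + 9 * u9 K + 27))
      = (u9 K + 3) ^ 3 * (u9 K ^ 3 + 9 * u9 K ^ 2 + 27 * u9 K + 3) ^ 3 := by
  have h := congrArg (qExpand K 3) (jq3_mul_t3 K)
  rw [map_mul, map_mul, map_pow, map_add, map_add, map_ofNat, map_ofNat,
    qExpand_three_jqN_three] at h
  have h1 := qExpand_t3_eq K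
  have h2 := qExpand_t3_add K
  rw [h1] at h h2
  calc jqNModC K 9 * (u9 K * (u9 K ^ 2 + 9 * u9 K + 27))
      = (u9 K * (u9 K ^ 2 + 9 * u9 K + 27) + 27)
          * (u9 K * (u9 K ^ 2 + 9 * u9 K + 27) + 3) ^ 3 := h
    _ = (u9 K + 3) ^ 3 * (u9 K * (u9 K ^ 2 + 9 * u9 K + 27) + 3) ^ 3 := by rw [h2]
    _ = (u9 K + 3) ^ 3 * (u9 K ^ 3 + 9 * u9 K ^ 2 + 27 * u9 K + 3) ^ 3 := by ring

/-- `j(q³) · u₉³ (u₉² + 9u₉ + 27)³ = (u₉ + 9)³ (u₉³ + 3u₉² + 27u₉ + 81)³`. -/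
theorem jq3_mul_u9 :
    jqNModC K 3 * (u9 K ^ 3 * (u9 K ^ 2 + 9 * u9 K + 27) ^ 3)
      = (u9 K + 9) ^ 3 * (u9 K ^ 3 + 3 * u9 K ^ 2 + 27 * u9 K + 81) ^ 3 := by
  have h := jq3_mul_t3 K
  have h5 : u9 K ^ 3 = t3 K * (u9 K ^ 2 + 9 * u9 K + 27) := (t3_mul_u9 K).symm
  have h27 := t3_add_mul_u9 K
  calc jqNModC K 3 * (u9 K ^ 3 * (u9 K ^ 2 + 9 * u9 K + 27) ^ 3)
      = jqNModC K 3 * (t3 K * (u9 K ^ 2 + 9 * u9 K + 27) * (u9 K ^ 2 + 9 * u9 K + 27) ^ 3) := by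
        rw [h5]
    _ = (jqNModC K 3 * t3 K) * (u9 K ^ 2 + 9 * u9 K + 27) ^ 4 := by ring
    _ = ((t3 K + 27) * (t3 K + 3) ^ 3) * (u9 K ^ 2 + 9 * u9 K + 27) ^ 4 := by rw [h]
    _ = ((t3 K + 27) * (u9 K ^ 2 + 9 * u9 K + 27))
          * (t3 K * (u9 K ^ 2 + 9 * u9 K + 27) + 3 * (u9 K ^ 2 + 9 * u9 K + 27)) ^ 3 := by ring
    _ = (u9 K + 9) ^ 3 * (u9 K ^ 3 + 3 * (u9 K ^ 2 + 9 * u9 K + 27)) ^ 3 := by rw [h27, ← h5]
    _ = (u9 K + 9) ^ 3 * (u9 K ^ 3 + 3 * u9 K ^ 2 + 27 * u9 K + 81) ^ 3 := by ring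

end Series

/-! ### The function `j(9τ)` at level `M`, `9 ∣ M` -/

section Level

variable (M : ℕ) [NeZero M]

theorem jq9_mem_laurentBaseChange (L : Type*) [Field L] [Algebra ℚ L] (h : 9 ∣ M) :
    jqNModC L 9 ∈ laurentBaseChange L (modularFunctionFieldFull M) := by
  have h1 : jqNModC L 9 = coeffEmb L (qExpand ℚ 9 jq) := by
    rw [Fermat.Agent.S24.Puiseux.coeffEmb_qExpand_jq]
    rfl
  rw [h1]
  exact coeffEmb_mem_laurentBaseChange L (jqd_mem_full M h)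

/-- `j(9τ)` as an element of the level-`M` function field over `ℚ̄`. -/
def j9F (h : 9 ∣ M) : FN M := ⟨jqNModC Qb 9, jq9_mem_laurentBaseChange M Qb h⟩

@[simp] theorem coe_j9F (h : 9 ∣ M) : ((j9F M h : FN M) : LaurentSeries Qb) = jqNModC Qb 9 := rfl

/-- `j(9τ) · u₉ (u₉² + 9u₉ + 27) = (u₉ + 3)³ (u₉³ + 9u₉² + 27u₉ + 3)³` in `F_M`. -/
theorem j9F_mul_u9F (h : 9 ∣ M) :
    j9F M h * (u9F M h * (u9F M h ^ 2 + 9 * u9F M h + 27))
      = (u9F M h + 3) ^ 3 * (u9F M h ^ 3 + 9 * u9F M h ^ 2 + 27 * u9F M h + 3) ^ 3 := by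
  apply Subtype.ext
  have h1 := jq9_mul_u9 Qb
  have h2 : ((j9F M h * (u9F M h * (u9F M h ^ 2 + 9 * u9F M h + 27)) : FN M) :
      LaurentSeries Qb) = jqNModC Qb 9 * (u9 Qb * (u9 Qb ^ 2 + 9 * u9 Qb + 27)) := rfl
  have h3 : (((u9F M h + 3) ^ 3 * (u9F M h ^ 3 + 9 * u9F M h ^ 2 + 27 * u9F M h + 3) ^ 3 :
      FN M) : LaurentSeries Qb)
      = (u9 Qb + 3) ^ 3 * (u9 Qb ^ 3 + 9 * u9 Qb ^ 2 + 27 * u9 Qb + 3) ^ 3 := rfl
  rw [h2, h3]
  exact h1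

variable (E : IntermediateField ℚ Qb)

/-- `j(9τ)` as an element of the level-`M` function field over `E`. -/
def j9E (h : 9 ∣ M) : ↥(laurentBaseChange E (modularFunctionFieldFull M)) :=
  ⟨jqNModC E 9, jq9_mem_laurentBaseChange M E h⟩

@[simp] theorem coe_j9E (h : 9 ∣ M) :
    ((j9E M E h : ↥(laurentBaseChange E (modularFunctionFieldFull M))) : LaurentSeries E)
      = jqNModC E 9 := rfl

theorem coe_j9E_eq_qExpand (h : 9 ∣ M) :
    ((j9E M E h : ↥(laurentBaseChange E (modularFunctionFieldFull M))) : LaurentSeries E)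
      = qExpand E 9 (jqModC E) := rfl

theorem coe_j9E_eq_coeffEmb (h : 9 ∣ M) :
    ((j9E M E h : ↥(laurentBaseChange E (modularFunctionFieldFull M))) : LaurentSeries E)
      = qExpand E 9 (coeffEmb E jq) := by
  have hj : coeffEmb E jq = jqModC E := by rw [← jqModC_rat, coeffEmb, coeffMap_jqModC]
  rw [hj]
  rfl

/-- the integral model: `j(9τ) = V₉ (ι (j))`. -/
theorem coe_j9E_eq_iota {O : Type} [CommRing O] [IsDomain O] [IsDiscreteValuationRing O]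
    [Algebra O E] [IsFractionRing O E] (h : 9 ∣ M) :
    ((j9E M E h : ↥(laurentBaseChange E (modularFunctionFieldFull M))) : LaurentSeries E)
      = qExpand E 9 (Fermat.Agent.S30.GaussDVR.iota O E (jqModC O)) := by
  have hj : Fermat.Agent.S30.GaussDVR.iota O E (jqModC O) = jqModC E :=
    coeffMap_jqModC (algebraMap O E)
  rw [hj]
  rfl

/-- **`j(9τ) · u₉ (u₉² + 9u₉ + 27) = (u₉ + 3)³ (u₉³ + 9u₉² + 27u₉ + 3)³`** in `L_E`. -/
theorem j9E_mul_u9E (h : 9 ∣ M) :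
    j9E M E h * (u9E M E h * (u9E M E h ^ 2 + 9 * u9E M E h + 27))
      = (u9E M E h + 3) ^ 3
        * (u9E M E h ^ 3 + 9 * u9E M E h ^ 2 + 27 * u9E M E h + 3) ^ 3 := by
  apply Subtype.ext
  have h1 := jq9_mul_u9 E
  have h2 : ((j9E M E h * (u9E M E h * (u9E M E h ^ 2 + 9 * u9E M E h + 27)) :
      ↥(laurentBaseChange E (modularFunctionFieldFull M))) : LaurentSeries E)
      = jqNModC E 9 * (u9 E * (u9 E ^ 2 + 9 * u9 E + 27)) := rfl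
  have h3 : (((u9E M E h + 3) ^ 3
      * (u9E M E h ^ 3 + 9 * u9E M E h ^ 2 + 27 * u9E M E h + 3) ^ 3 :
      ↥(laurentBaseChange E (modularFunctionFieldFull M))) : LaurentSeries E)
      = (u9 E + 3) ^ 3 * (u9 E ^ 3 + 9 * u9 E ^ 2 + 27 * u9 E + 3) ^ 3 := rfl
  rw [h2, h3]
  exact h1

/-- `up (j9E) = j9F`. -/
theorem upHom_j9E (h : 9 ∣ M) :
    Fermat.Agent.S18.PlaceUp.upHom E (modularFunctionFieldFull M) (j9E M E h) = j9F M h := by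
  apply Subtype.ext
  have h1 : ((Fermat.Agent.S18.PlaceUp.upHom E (modularFunctionFieldFull M) (j9E M E h) : FN M)
      : LaurentSeries Qb) = coeffMap (algebraMap E Qb) (jqNModC E 9) := rfl
  rw [h1, coeffMap_jqNModC]
  rfl

end Level

end Fermat.Agent.S36.Haupt9
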