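import Mathlib
import Fermat.Agent.S36.Haupt9.Defs
import Fermat.Agent.S36.Haupt4.Eta

/-!
# S36 / Haupt9 / Eta — `u₉` and `u₉² + 9u₉ + 27` are eta quotients

With `P = etaProd = ∏ (1 - Xⁿ) ∈ ℤ⟦X⟧`, `P_d = P(X^d)` and `P⁻¹ = Haupt4.etaInv`:

* `t3Num_eq_eta`  : `t3Num = (P / P₃)¹²`                 (`t₃ = (η(τ)/η(3τ))¹²`)
* `CZ_eq_eta`     : `CZ = (P₃ / P₉)¹²`                    (`t₃(3τ) = (η(3τ)/η(9τ))¹²`)
* `u9Num_eq`      : `u9Num = (P / P₉)³`                   (`u₉ = (η(τ)/η(9τ))³`)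
* `u9Num_quad_eq` : `u9Num² + 9 X u9Num + 27 X² = P₃¹² / (P³ P₉⁹)`
                    (`u₉² + 9u₉ + 27 = η(3τ)¹² / (η(τ)³ η(9τ)⁹)`)

and the Laurent-series forms `u9_eq`, `u9_quad_eq` over every commutative ring `K`.

Proof: `u₉⁴ = t₃(q) t₃(q³)` (from `t₃ (u₉² + 9u₉ + 27) = u₉³`, `t₃(q³) = u₉ (u₉² + 9u₉ + 27)`),
the eta quotient has the same fourth power, and a fourth root with constant coefficient `1` is
unique in `ℤ⟦X⟧`.  Twin of `S36/Haupt4/Eta.lean` (level `4`).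
-/

set_option autoImplicit false

noncomputable section

namespace Fermat.Agent.S36.Haupt9

open ModularCurve PowerSeries Fermat.Agent.S30.AuxLevel

theorem ex3_ex3 (f : PowerSeries ℤ) : ex 3 (ex 3 f) = ex 9 f := by
  have h := PowerSeries.expand_mul (R := ℤ) 3 (NeZero.ne 3) 3 (NeZero.ne 3) f
  exact h.symm

theorem etaProd_pow_mul_etaInv_pow (n : ℕ) : etaProd ^ n * Haupt4.etaInv ^ n = 1 := by
  rw [← mul_pow, Haupt4.etaProd_mul_etaInv, one_pow]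

theorem ex_etaProd_pow_mul_ex_etaInv_pow (d : ℕ) [NeZero d] (n : ℕ) :
    ex d etaProd ^ n * ex d Haupt4.etaInv ^ n = 1 := by
  rw [← map_pow, ← map_pow, ← map_mul, etaProd_pow_mul_etaInv_pow, map_one]

/-- `t₃ = (η(τ)/η(3τ))¹²`, numerator form. -/
theorem t3Num_eq_eta : t3Num = etaProd ^ 12 * ex 3 Haupt4.etaInv ^ 12 := by
  have h1 : ex 3 etaProd ^ 12 * ex 3 Haupt4.etaInv ^ 12 = 1 :=
    ex_etaProd_pow_mul_ex_etaInv_pow 3 12
  rw [t3Num, aZ, ← Haupt4.etaInv_pow, map_pow, map_pow]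
  calc etaProd ^ 12 * (ex 3 etaProd ^ 12 * ex 3 Haupt4.etaInv ^ 24)
      = etaProd ^ 12 * ex 3 Haupt4.etaInv ^ 12
          * (ex 3 etaProd ^ 12 * ex 3 Haupt4.etaInv ^ 12) := by ring
    _ = etaProd ^ 12 * ex 3 Haupt4.etaInv ^ 12 := by rw [h1, mul_one]

/-- `t₃(3τ) = (η(3τ)/η(9τ))¹²`, numerator form. -/
theorem CZ_eq_eta : CZ = ex 3 etaProd ^ 12 * ex 9 Haupt4.etaInv ^ 12 := by
  rw [CZ, t3Num_eq_eta, map_mul, map_pow, map_pow, ex3_ex3]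

/-- `u₉⁴ = t₃(q) t₃(q³)`, numerator form. -/
theorem u9Num_pow_four : u9Num ^ 4 = t3Num * CZ := by
  have h1 := t3Num_mul_u9Num
  have h2 := CZ_eq
  calc u9Num ^ 4 = u9Num * u9Num ^ 3 := by ring
    _ = u9Num * (t3Num * (u9Num ^ 2 + 9 * X * u9Num + 27 * X ^ 2)) := by rw [h1]
    _ = t3Num * (u9Num * (u9Num ^ 2 + 9 * X * u9Num + 27 * X ^ 2)) := by ring
    _ = t3Num * CZ := by rw [← h2]

/-- The numerator of `(η(τ)/η(9τ))³ = q⁻¹ (P / P₉)³`. -/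
def etaU9Num : PowerSeries ℤ := etaProd ^ 3 * ex 9 Haupt4.etaInv ^ 3

/-- The numerator of `η(3τ)¹² / (η(τ)³ η(9τ)⁹) = q⁻² P₃¹² / (P³ P₉⁹)`. -/
def etaU9QuadNum : PowerSeries ℤ :=
  ex 3 etaProd ^ 12 * (Haupt4.etaInv ^ 3 * ex 9 Haupt4.etaInv ^ 9)

theorem etaU9Num_pow_four : etaU9Num ^ 4 = t3Num * CZ := by
  have h1 : ex 3 etaProd ^ 12 * ex 3 Haupt4.etaInv ^ 12 = 1 :=
    ex_etaProd_pow_mul_ex_etaInv_pow 3 12
  rw [t3Num_eq_eta, CZ_eq_eta, etaU9Num]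
  calc (etaProd ^ 3 * ex 9 Haupt4.etaInv ^ 3) ^ 4
      = etaProd ^ 12 * ex 9 Haupt4.etaInv ^ 12 := by ring
    _ = etaProd ^ 12 * ex 9 Haupt4.etaInv ^ 12
          * (ex 3 etaProd ^ 12 * ex 3 Haupt4.etaInv ^ 12) := by rw [h1, mul_one]
    _ = etaProd ^ 12 * ex 3 Haupt4.etaInv ^ 12
          * (ex 3 etaProd ^ 12 * ex 9 Haupt4.etaInv ^ 12) := by ring

theorem constantCoeff_etaU9Num : PowerSeries.constantCoeff etaU9Num = 1 := by
  have h := Haupt4.constantCoeff_etaProd_mul_etaInv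
  rw [etaU9Num, map_mul, map_pow, map_pow, PowerSeries.constantCoeff_expand, ← mul_pow, h,
    one_pow]

/-- A fourth root with constant coefficient `1` is unique in `ℤ⟦X⟧`. -/
theorem eq_of_pow_four_eq {a b : PowerSeries ℤ} (h : a ^ 4 = b ^ 4)
    (ha : PowerSeries.constantCoeff a = 1) (hb : PowerSeries.constantCoeff b = 1) : a = b := by
  have key : (a - b) * ((a + b) * (a ^ 2 + b ^ 2)) = 0 := by linear_combination h
  rcases mul_eq_zero.mp key with h1 | h1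
  · exact sub_eq_zero.mp h1
  · exfalso
    rcases mul_eq_zero.mp h1 with h2 | h2
    · have h3 := congrArg (PowerSeries.constantCoeff (R := ℤ)) h2
      simp [ha, hb] at h3
    · have h3 := congrArg (PowerSeries.constantCoeff (R := ℤ)) h2
      simp [ha, hb] at h3

/-- **`u₉ = (η(τ)/η(9τ))³`**, numerator form. -/
theorem u9Num_eq : u9Num = etaProd ^ 3 * ex 9 Haupt4.etaInv ^ 3 :=
  eq_of_pow_four_eq (u9Num_pow_four.trans etaU9Num_pow_four.symm) constantCoeff_u9Num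
    constantCoeff_etaU9Num

/-- `t3Num` is a unit of `ℤ⟦X⟧`, with inverse `(P₃ / P)¹²`. -/
theorem t3Num_mul_inv : t3Num * (Haupt4.etaInv ^ 12 * ex 3 etaProd ^ 12) = 1 := by
  have h1 : ex 3 etaProd ^ 12 * ex 3 Haupt4.etaInv ^ 12 = 1 :=
    ex_etaProd_pow_mul_ex_etaInv_pow 3 12
  have h2 : etaProd ^ 12 * Haupt4.etaInv ^ 12 = 1 := etaProd_pow_mul_etaInv_pow 12
  rw [t3Num_eq_eta]
  calc etaProd ^ 12 * ex 3 Haupt4.etaInv ^ 12 * (Haupt4.etaInv ^ 12 * ex 3 etaProd ^ 12)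
      = (etaProd ^ 12 * Haupt4.etaInv ^ 12) * (ex 3 etaProd ^ 12 * ex 3 Haupt4.etaInv ^ 12) := by
        ring
    _ = 1 := by rw [h1, h2, mul_one]

/-- **`u₉² + 9u₉ + 27 = η(3τ)¹² / (η(τ)³ η(9τ)⁹)`**, numerator form. -/
theorem u9Num_quad_eq :
    u9Num ^ 2 + 9 * X * u9Num + 27 * X ^ 2
      = ex 3 etaProd ^ 12 * (Haupt4.etaInv ^ 3 * ex 9 Haupt4.etaInv ^ 9) := by
  have h1 := t3Num_mul_u9Num
  have h4 := t3Num_mul_inv
  have h9 : etaProd ^ 9 * Haupt4.etaInv ^ 9 = 1 := etaProd_pow_mul_etaInv_pow 9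
  calc u9Num ^ 2 + 9 * X * u9Num + 27 * X ^ 2
      = (t3Num * (Haupt4.etaInv ^ 12 * ex 3 etaProd ^ 12))
          * (u9Num ^ 2 + 9 * X * u9Num + 27 * X ^ 2) := by rw [h4, one_mul]
    _ = (Haupt4.etaInv ^ 12 * ex 3 etaProd ^ 12)
          * (t3Num * (u9Num ^ 2 + 9 * X * u9Num + 27 * X ^ 2)) := by ring
    _ = (Haupt4.etaInv ^ 12 * ex 3 etaProd ^ 12) * u9Num ^ 3 := by rw [h1]
    _ = (Haupt4.etaInv ^ 12 * ex 3 etaProd ^ 12)
          * (etaProd ^ 3 * ex 9 Haupt4.etaInv ^ 3) ^ 3 := by rw [← u9Num_eq]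
    _ = ex 3 etaProd ^ 12 * (Haupt4.etaInv ^ 3 * ex 9 Haupt4.etaInv ^ 9)
          * (etaProd ^ 9 * Haupt4.etaInv ^ 9) := by ring
    _ = ex 3 etaProd ^ 12 * (Haupt4.etaInv ^ 3 * ex 9 Haupt4.etaInv ^ 9) := by
        rw [h9, mul_one]

theorem constantCoeff_etaU9QuadNum : PowerSeries.constantCoeff etaU9QuadNum = 1 := by
  rw [etaU9QuadNum, ← u9Num_quad_eq]
  simp [constantCoeff_u9Num]

section Laurent

variable (K : Type*) [CommRing K]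

/-- **`u₉ = (η(τ)/η(9τ))³`** over every commutative ring. -/
theorem u9_eq : u9 K = xinv K * em K (etaProd ^ 3 * ex 9 Haupt4.etaInv ^ 3) := by
  rw [u9, u9Num_eq]

/-- **`u₉² + 9u₉ + 27 = η(3τ)¹² / (η(τ)³ η(9τ)⁹)`** over every commutative ring. -/
theorem u9_quad_eq :
    u9 K ^ 2 + 9 * u9 K + 27
      = xinv K ^ 2 * em K (ex 3 etaProd ^ 12 * (Haupt4.etaInv ^ 3 * ex 9 Haupt4.etaInv ^ 9)) := by
  have hx : xinv K * em K X = 1 := xinv_mul_em_X K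
  rw [← u9Num_quad_eq, map_add, map_add, map_pow, map_mul, map_mul, map_mul, map_pow,
    Haupt4.em_ofNat, Haupt4.em_ofNat, u9]
  calc (xinv K * em K u9Num) ^ 2 + 9 * (xinv K * em K u9Num) + 27
      = xinv K ^ 2 * em K u9Num ^ 2 + 9 * (xinv K * em K X) * (xinv K * em K u9Num)
          + 27 * (xinv K * em K X) ^ 2 := by rw [hx]; ring
    _ = xinv K ^ 2 * (em K u9Num ^ 2 + 9 * em K X * em K u9Num + 27 * em K X ^ 2) := by ring

end Laurent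

end Fermat.Agent.S36.Haupt9
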