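import Mathlib
import Fermat.Agent.S36.Haupt9.Fibre
import Fermat.Agent.S30.Model.RegUnif
import Fermat.Agent.S36.ResFinite
import Fermat.Agent.S34.TwoPrimesGauss

/-!
# S36 / Haupt9 / FibreGen — explicit uniformisers and finite residue fields on the `u₉`-chart

The `q = 2` twin of `S36/Haupt4/FibreGen.lean`: level `M`, `9 ∣ M`, coordinate
`u₉ = Haupt9.u9E M E h9`, chart ring `R = integralClosure (O[u₉]) (LE M E)`.  The cuspidal values
of `u₉` are `0` and the two roots of `X² + 9X + 27`; a rational point `u₉ = c` of the special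
fibre is NON-cuspidal when `c` and `c² + 9c + 27` are units of `O`.

* `genAt_u9` : at a maximal ideal `Q ∋ π` of `R` containing `z`, `z = u₉ - c` in `LE M E`, with
  `c` and `c ^ 2 + 9 * c + 27` units: `RegUnif.GenAt (piC u₉ π) z Q`;
* `genAt_u9_polyChart` : the same for `z := TwoPrimesGauss.polyChart u₉ (X - C c)`;
* `exists_pow_sub_mem_u9` : `∃ f ≠ 0, ∀ r : R, r ^ (ℓ ^ f) - r ∈ Q`;
* `genAt_u9_OE`, `genAt_u9_polyChart_OE`, `exists_pow_sub_mem_u9_OE`, `finite_quotient_u9_OE` :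
  the same over `O = OE A E` (hypotheses of `Fibre.chartFacts_u9_OE`).
-/

set_option autoImplicit false
set_option synthInstance.maxHeartbeats 400000
set_option linter.style.haveILetI false
set_option linter.unusedSectionVars false

noncomputable section

open Polynomial IntermediateField ModularCurve

namespace Fermat.Agent.S36.Haupt9.FibreGen

open Fermat.Agent.S18.K1Defs Fermat.Agent.S18.K1Main Fermat.Agent.S30 Fermat.Agent.S30.Model
  Fermat.Agent.S34.ModelNormal Fermat.Agent.S34.HauptU.LevelMAux Fermat.Agent.S36.Haupt9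
  Fermat.Agent.S36.Haupt9.Fibre

local notation "Qb" => AlgebraicClosure ℚ

/-! ### Generic in the discrete valuation ring -/

section Generic

variable (M : ℕ) [NeZero M] (E : IntermediateField ℚ Qb)
  {O : Type} [CommRing O] [IsDomain O] [IsDiscreteValuationRing O]
  [Algebra O E] [IsFractionRing O E]

/-- **Explicit uniformiser at a non-cuspidal rational point of the `u₉`-chart**: `u₉ - c`
generates, together with `π`, every maximal ideal `Q ∋ π, u₉ - c` locally, when `c` and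
`c² + 9c + 27` are units. -/
theorem genAt_u9 (h9 : 9 ∣ M) (h3 : IsUnit (3 : O)) (c1 c2 : O) (hs : c1 + c2 = -9)
    (hp : c1 * c2 = 27) (hFG : FinGaussC M O E) (π : O) (hπ : Irreducible π) :
    letI := algebraOL O E (LE M E)
    ∀ Q : Ideal (integralClosure (Algebra.adjoin O {u9E M E h9}) (LE M E)), Q.IsMaximal →
      piC (u9E M E h9) π ∈ Q → ∀ c : O, IsUnit c → IsUnit (c ^ 2 + 9 * c + 27) →
      ∀ z : integralClosure (Algebra.adjoin O {u9E M E h9}) (LE M E),
        (z : LE M E) = u9E M E h9 - algebraMap O (LE M E) c → z ∈ Q →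
        RegUnif.GenAt (piC (u9E M E h9) π) z Q := by
  classical
  letI := algebraOL O E (LE M E)
  haveI := isScalarTower_OL O E (LE M E)
  obtain ⟨hT, hFD, hG, -, hH⟩ := modelInputs_u9 M E h9 h3 c1 c2 hs hp hFG π hπ
  haveI := hFD
  intro Q hQ hπQ c hc hcW z hz hzQ
  have hprod : (c - c1) * (c - c2) = c ^ 2 + 9 * c + 27 := by
    have h1 : (c - c1) * (c - c2) = c ^ 2 - (c1 + c2) * c + c1 * c2 := by ring
    rw [h1, hs, hp]
    ring
  have hu1 : IsUnit (c - c1) := isUnit_of_mul_isUnit_left (hprod ▸ hcW)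
  have hu2 : IsUnit (c - c2) := isUnit_of_mul_isUnit_right (hprod ▸ hcW)
  refine RegUnif.gen_zero_sub π hπ _ hT hG _ hH Q hQ hπQ c ?_ z hz hzQ
  intro c' hc'
  rw [Finset.mem_insert, Finset.mem_insert, Finset.mem_singleton] at hc'
  rcases hc' with rfl | rfl | rfl
  · rwa [sub_zero]
  · exact hu1
  · exact hu2

/-- `genAt_u9` for the element `polyChart u₉ (X - C c)` of the chart ring. -/
theorem genAt_u9_polyChart (h9 : 9 ∣ M) (h3 : IsUnit (3 : O)) (c1 c2 : O) (hs : c1 + c2 = -9)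
    (hp : c1 * c2 = 27) (hFG : FinGaussC M O E) (π : O) (hπ : Irreducible π) :
    letI := algebraOL O E (LE M E)
    ∀ Q : Ideal (integralClosure (Algebra.adjoin O {u9E M E h9}) (LE M E)), Q.IsMaximal →
      piC (u9E M E h9) π ∈ Q → ∀ c : O, IsUnit c → IsUnit (c ^ 2 + 9 * c + 27) →
      Fermat.Agent.S34.TwoPrimesGauss.polyChart (u9E M E h9) (X - C c) ∈ Q →
      RegUnif.GenAt (piC (u9E M E h9) π)
        (Fermat.Agent.S34.TwoPrimesGauss.polyChart (u9E M E h9) (X - C c)) Q := by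
  letI := algebraOL O E (LE M E)
  intro Q hQ hπQ c hc hcW hzQ
  refine genAt_u9 M E h9 h3 c1 c2 hs hp hFG π hπ Q hQ hπQ c hc hcW _ ?_ hzQ
  rw [Fermat.Agent.S34.TwoPrimesGauss.coe_polyChart, map_sub, aeval_X, aeval_C]

/-- **Finite residue fields on the `u₉`-chart** (`hfin` of `ThickChart`). -/
theorem exists_pow_sub_mem_u9 [Finite (IsLocalRing.ResidueField O)] (h9 : 9 ∣ M)
    (h3 : IsUnit (3 : O)) (c1 c2 : O) (hs : c1 + c2 = -9) (hp : c1 * c2 = 27)
    (hFG : FinGaussC M O E) (π : O) (hπ : Irreducible π)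
    (ℓ : ℕ) [Fact ℓ.Prime] (hℓ : ((ℓ : ℕ) : O) ∈ IsLocalRing.maximalIdeal O) :
    letI := algebraOL O E (LE M E)
    ∀ Q : Ideal (integralClosure (Algebra.adjoin O {u9E M E h9}) (LE M E)), Q.IsMaximal →
      piC (u9E M E h9) π ∈ Q →
      ∃ f : ℕ, f ≠ 0 ∧
        ∀ r : integralClosure (Algebra.adjoin O {u9E M E h9}) (LE M E), r ^ (ℓ ^ f) - r ∈ Q := by
  classical
  letI := algebraOL O E (LE M E)
  haveI := isScalarTower_OL O E (LE M E)
  obtain ⟨hT, hFD, -, -, -⟩ := modelInputs_u9 M E h9 h3 c1 c2 hs hp hFG π hπ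
  haveI := hFD
  intro Q hQ hπQ
  exact ResFinite.exists_pow_sub_mem π hπ ℓ hℓ _ hT Q hQ hπQ

end Generic

/-! ### The arithmetic instance `O = A ∩ E` -/

section Arithmetic

variable (A : ValuationSubring Qb) (M : ℕ) [NeZero M] (h9 : 9 ∣ M) {ℓ : ℕ} [Fact ℓ.Prime]
  (hℓM : ¬ ℓ ∣ M) (hA : A.LiesOverPrime ℓ)
  (E : IntermediateField ℚ Qb) [FiniteDimensional ℚ E] [IsDiscreteValuationRing (OE A E)]
  (z : Qb) (hz : IsPrimitiveRoot z M) (hzE : z ∈ E) (π : OE A E) (hπ : Irreducible π)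

include h9 hℓM hA hz hzE in
/-- The generic-DVR hypotheses of `Fibre.chartFacts_u9` over `O_E = A ∩ E`. -/
theorem exists_inputs_OE :
    IsUnit (3 : OE A E) ∧ FinGaussC M (OE A E) E ∧
      ∃ c1 c2 : OE A E, c1 + c2 = -9 ∧ c1 * c2 = 27 := by
  have hℓp : ℓ.Prime := Fact.out
  have hℓ3 : ℓ ≠ 3 := by
    rintro rfl
    exact hℓM (three_dvd_of_nine_dvd h9)
  obtain ⟨ζ₀, hζ₀⟩ := exists_primitiveRoot_OE A E (Nat.pos_of_ne_zero (NeZero.ne M)) hz hzE
  have hM : IsUnit ((M : ℕ) : OE A E) :=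
    isUnit_natCast_OE A E hA M
      (Nat.Coprime.symm ((Nat.Prime.coprime_iff_not_dvd hℓp).mpr hℓM))
  have hFG : FinGaussC M (OE A E) E :=
    finGaussC_of M (Fermat.Agent.S24.Theta.iotaBar.comp (algebraMap E Qb)) hζ₀ hM
  exact ⟨isUnit_three_OE A hA hℓ3 E, hFG,
    exists_cusp_values (O := OE A E) (three_dvd_of_nine_dvd h9) hζ₀⟩

include hℓM hA hz hzE hπ in
/-- `genAt_u9` over `O_E = A ∩ E` (hypotheses of `Fibre.chartFacts_u9_OE`). -/
theorem genAt_u9_OE :
    letI := algebraOL (OE A E) E (LE M E)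
    ∀ Q : Ideal (integralClosure (Algebra.adjoin (OE A E) {u9E M E h9}) (LE M E)), Q.IsMaximal →
      piC (u9E M E h9) π ∈ Q → ∀ c : OE A E, IsUnit c → IsUnit (c ^ 2 + 9 * c + 27) →
      ∀ w : integralClosure (Algebra.adjoin (OE A E) {u9E M E h9}) (LE M E),
        (w : LE M E) = u9E M E h9 - algebraMap (OE A E) (LE M E) c → w ∈ Q →
        RegUnif.GenAt (piC (u9E M E h9) π) w Q := by
  obtain ⟨h3, hFG, c1, c2, hs, hp⟩ := exists_inputs_OE A M h9 hℓM hA E z hz hzE
  exact genAt_u9 M E h9 h3 c1 c2 hs hp hFG π hπ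

include hℓM hA hz hzE hπ in
/-- `genAt_u9_polyChart` over `O_E = A ∩ E`. -/
theorem genAt_u9_polyChart_OE :
    letI := algebraOL (OE A E) E (LE M E)
    ∀ Q : Ideal (integralClosure (Algebra.adjoin (OE A E) {u9E M E h9}) (LE M E)), Q.IsMaximal →
      piC (u9E M E h9) π ∈ Q → ∀ c : OE A E, IsUnit c → IsUnit (c ^ 2 + 9 * c + 27) →
      Fermat.Agent.S34.TwoPrimesGauss.polyChart (u9E M E h9) (X - C c) ∈ Q →
      RegUnif.GenAt (piC (u9E M E h9) π)
        (Fermat.Agent.S34.TwoPrimesGauss.polyChart (u9E M E h9) (X - C c)) Q := by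
  obtain ⟨h3, hFG, c1, c2, hs, hp⟩ := exists_inputs_OE A M h9 hℓM hA E z hz hzE
  exact genAt_u9_polyChart M E h9 h3 c1 c2 hs hp hFG π hπ

include hA in
omit [NeZero M] [IsDiscreteValuationRing (OE A E)] in
/-- `ℓ` lies in the maximal ideal of `O_E`. -/
theorem natCast_mem_maximalIdeal_OE :
    ((ℓ : ℕ) : OE A E) ∈ IsLocalRing.maximalIdeal (OE A E) := by
  have h := GaussDescent.natCast_mem_nonunits_OE A E hA
  rw [ValuationSubring.mem_nonunits_iff_exists_mem_maximalIdeal] at h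
  obtain ⟨ha, hm⟩ := h
  convert hm using 1
  exact Subtype.ext (by simp)

include hℓM hA hz hzE hπ in
/-- **`hfin` over `O_E`**: every closed point of the special fibre of the `u₉`-chart has a
finite residue field, fixed by a power of the `ℓ`-Frobenius. -/
theorem exists_pow_sub_mem_u9_OE :
    letI := algebraOL (OE A E) E (LE M E)
    ∀ Q : Ideal (integralClosure (Algebra.adjoin (OE A E) {u9E M E h9}) (LE M E)), Q.IsMaximal →
      piC (u9E M E h9) π ∈ Q →
      ∃ f : ℕ, f ≠ 0 ∧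
        ∀ r : integralClosure (Algebra.adjoin (OE A E) {u9E M E h9}) (LE M E),
          r ^ (ℓ ^ f) - r ∈ Q := by
  haveI : Finite (IsLocalRing.ResidueField (OE A E)) := ResFinite.finite_residueField_OE A hA E
  obtain ⟨h3, hFG, c1, c2, hs, hp⟩ := exists_inputs_OE A M h9 hℓM hA E z hz hzE
  exact exists_pow_sub_mem_u9 M E h9 h3 c1 c2 hs hp hFG π hπ ℓ
    (natCast_mem_maximalIdeal_OE A hA E)

include hℓM hA hz hzE hπ in
/-- The residue field of the `u₉`-chart ring at a closed point of the special fibre is finite. -/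
theorem finite_quotient_u9_OE :
    letI := algebraOL (OE A E) E (LE M E)
    ∀ Q : Ideal (integralClosure (Algebra.adjoin (OE A E) {u9E M E h9}) (LE M E)), Q.IsMaximal →
      piC (u9E M E h9) π ∈ Q →
      Finite (integralClosure (Algebra.adjoin (OE A E) {u9E M E h9}) (LE M E) ⧸ Q) := by
  classical
  letI := algebraOL (OE A E) E (LE M E)
  haveI := isScalarTower_OL (OE A E) E (LE M E)
  haveI : Finite (IsLocalRing.ResidueField (OE A E)) := ResFinite.finite_residueField_OE A hA E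
  obtain ⟨h3, hFG, c1, c2, hs, hp⟩ := exists_inputs_OE A M h9 hℓM hA E z hz hzE
  obtain ⟨hT, hFD, -, -, -⟩ := modelInputs_u9 M E h9 h3 c1 c2 hs hp hFG π hπ
  haveI := hFD
  intro Q hQ hπQ
  exact ResFinite.finite_quotient π hπ _ hT Q hQ hπQ

end Arithmetic

end Fermat.Agent.S36.Haupt9.FibreGen
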