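import Mathlib
import Fermat.Agent.S24.Modular.M3
import Fermat.Agent.S30.E2.HauptGen
import Fermat.Agent.S36.Haupt9.Horiz

/-!
# S36 / Haupt9 / Gen — `u₉` generates the function field of `X₀(9)`

* `jF_mul_u9F` : the `j`-relation of `u₉` in `F_M` (`9 ∣ M`);
* `isCoprime_numPoly_denPoly` : `A = (X + 9)³ (X³ + 243X² + 2187X + 6561)³` and
  `D = X⁹ (X² + 9X + 27)` are coprime over every field of characteristic zero;
* `finrank_jF_eq_mul_u9F` : `[F_M : ℚ̄(j)] = 12 · [F_M : ℚ̄(u₉)]` (`9 ∣ M`);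
* `finrank_u9F_nine`, `adjoin_u9F_eq_top` : `F_9 = ℚ̄(u₉)` (the index of `Γ₀(9)` is `12`).

Degree formula: `S30/E2/HauptGen.finrank_eq_mul`.
-/

set_option autoImplicit false

noncomputable section

namespace Fermat.Agent.S36.Haupt9

open AlgebraicCurve Polynomial ModularCurve IntermediateField
open Fermat.Agent.S24.Modular

set_option synthInstance.maxHeartbeats 400000
set_option maxHeartbeats 1000000

/-! ### Coprimality of the numerator and the denominator of `j` in terms of `u₉` -/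

section Coprime

variable {K : Type*} [Field K]

/-- Bezout with a nonzero constant on the right. -/
theorem isCoprime_of_eq_C {a b u v : K[X]} {c : K} (hc : c ≠ 0) (h : u * a + v * b = C c) :
    IsCoprime a b :=
  ⟨C c⁻¹ * u, C c⁻¹ * v, by
    rw [mul_assoc, mul_assoc, ← mul_add, h, ← C_mul, inv_mul_cancel₀ hc, C_1]⟩

variable [CharZero K]

theorem isCoprime_lin_X : IsCoprime (X + C (9 : K) : K[X]) X :=
  isCoprime_of_eq_C (c := 9) (u := 1) (v := -1) (by norm_num) (by ring)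

theorem isCoprime_lin_quad :
    IsCoprime (X + C (9 : K) : K[X]) (X ^ 2 + C (9 : K) * X + C (27 : K)) :=
  isCoprime_of_eq_C (c := 27) (u := -X) (v := 1) (by norm_num) (by ring)

theorem isCoprime_cubic_X :
    IsCoprime (X ^ 3 + C (243 : K) * X ^ 2 + C (2187 : K) * X + C (6561 : K) : K[X]) X :=
  isCoprime_of_eq_C (c := 6561) (u := 1) (v := -(X ^ 2 + C (243 : K) * X + C (2187 : K)))
    (by norm_num) (by ring)

theorem isCoprime_cubic_quad :
    IsCoprime (X ^ 3 + C (243 : K) * X ^ 2 + C (2187 : K) * X + C (6561 : K) : K[X])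
      (X ^ 2 + C (9 : K) * X + C (27 : K)) := by
  refine isCoprime_of_eq_C (c := 19683)
    (u := -(X ^ 3 + 243 * X ^ 2 + 2187 * X + 6561))
    (v := 2916 - (X + 234) ^ 2 * (X ^ 2 + 9 * X + 27)
      + 2 * (X + 234) * (X ^ 3 + 243 * X ^ 2 + 2187 * X + 6561)) (by norm_num) ?_
  simp only [map_ofNat]
  ring

/-- `A = (X + 9)³ (X³ + 243X² + 2187X + 6561)³` and `D = X⁹ (X² + 9X + 27)` are coprime. -/
theorem isCoprime_numPoly_denPoly :
    IsCoprime ((X + C (9 : K)) ^ 3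
        * (X ^ 3 + C (243 : K) * X ^ 2 + C (2187 : K) * X + C (6561 : K)) ^ 3 : K[X])
      (X ^ 9 * (X ^ 2 + C (9 : K) * X + C (27 : K))) :=
  IsCoprime.mul_left
    (IsCoprime.mul_right (isCoprime_lin_X.pow) (isCoprime_lin_quad.pow_left))
    (IsCoprime.mul_right (isCoprime_cubic_X.pow) (isCoprime_cubic_quad.pow_left))

end Coprime

/-! ### The degree of `F_M` over `ℚ̄(u₉)` -/

variable (M : ℕ) [NeZero M]

/-- `j · u₉⁹ (u₉² + 9u₉ + 27) = (u₉ + 9)³ (u₉³ + 243u₉² + 2187u₉ + 6561)³` in `F_M`. -/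
theorem jF_mul_u9F (h : 9 ∣ M) :
    jF M * u9F M h ^ 9 * (u9F M h ^ 2 + 9 * u9F M h + 27)
      = (u9F M h + 9) ^ 3
        * (u9F M h ^ 3 + 243 * u9F M h ^ 2 + 2187 * u9F M h + 6561) ^ 3 := by
  apply Subtype.ext
  have h2 : ((jF M * u9F M h ^ 9 * (u9F M h ^ 2 + 9 * u9F M h + 27) : FN M) :
      LaurentSeries Kbar) = coeffEmb Kbar jq * u9 Kbar ^ 9 * (u9 Kbar ^ 2 + 9 * u9 Kbar + 27) :=
    rfl
  have h3 : (((u9F M h + 9) ^ 3
      * (u9F M h ^ 3 + 243 * u9F M h ^ 2 + 2187 * u9F M h + 6561) ^ 3 : FN M) :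
      LaurentSeries Kbar)
      = (u9 Kbar + 9) ^ 3 * (u9 Kbar ^ 3 + 243 * u9 Kbar ^ 2 + 2187 * u9 Kbar + 6561) ^ 3 := rfl
  have h4 : coeffEmb Kbar jq = jqModC Kbar := by rw [← jqModC_rat, coeffEmb, coeffMap_jqModC]
  rw [h2, h3, h4]
  exact jq_mul_u9 Kbar

/-- The relation in the form `A(u₉) = j · D(u₉)`. -/
theorem aeval_u9F_numPoly (h : 9 ∣ M) :
    aeval (u9F M h) ((X + C (9 : Kbar)) ^ 3
        * (X ^ 3 + C (243 : Kbar) * X ^ 2 + C (2187 : Kbar) * X + C (6561 : Kbar)) ^ 3 : Kbar[X])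
      = jF M * aeval (u9F M h) (X ^ 9 * (X ^ 2 + C (9 : Kbar) * X + C (27 : Kbar)) : Kbar[X]) := by
  simp only [map_mul, map_pow, map_add, aeval_X, map_ofNat]
  rw [← jF_mul_u9F M h]
  ring

/-- **`[F_M : ℚ̄(j)] = 12 · [F_M : ℚ̄(u₉)]`** (`9 ∣ M`). -/
theorem finrank_jF_eq_mul_u9F (h : 9 ∣ M) :
    Module.finrank Kbar⟮jF M⟯ (FN M) = 12 * Module.finrank Kbar⟮u9F M h⟯ (FN M) := by
  have h1 := Fermat.Agent.S30.E2.HauptGen.finrank_eq_mul (transcendental_jF M)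
    (numPoly_monic (O := Kbar))
    (by rw [numPoly_natDegree, denPoly_natDegree]; norm_num)
    (isCoprime_numPoly_denPoly (K := Kbar)) (u9F M h) (aeval_u9F_numPoly M h)
  rw [numPoly_natDegree] at h1
  exact h1

/-- `dedekindPsi M = 12 · [F_M : ℚ̄(u₉)]` (`9 ∣ M`). -/
theorem dedekindPsi_eq_mul_u9F (h : 9 ∣ M) :
    dedekindPsi M = 12 * Module.finrank Kbar⟮u9F M h⟯ (FN M) := by
  rw [← finrank_jF_eq_mul_u9F M h, finrank_jF]

/-- `[F_9 : ℚ̄(u₉)] = 1`. -/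
theorem finrank_u9F_nine : Module.finrank Kbar⟮u9F 9 (dvd_refl 9)⟯ (FN 9) = 1 := by
  have h1 := dedekindPsi_eq_mul_u9F 9 (dvd_refl 9)
  have h2 : dedekindPsi 9 = 12 := by decide +kernel
  omega

/-- **`F_9 = ℚ̄(u₉)`**: the Hauptmodul `u₉` generates the function field of `X₀(9)`. -/
theorem adjoin_u9F_eq_top : Kbar⟮u9F 9 (dvd_refl 9)⟯ = ⊤ := by
  have h1 := finrank_u9F_nine
  have h2 : Module.finrank Kbar⟮u9F 9 (dvd_refl 9)⟯ (FN 9)
      = Module.finrank (⊤ : IntermediateField Kbar (FN 9)) (FN 9) := by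
    rw [h1, IntermediateField.finrank_top]
  have : FiniteDimensional Kbar⟮u9F 9 (dvd_refl 9)⟯ (FN 9) :=
    Module.finite_of_finrank_pos (by rw [h1]; norm_num)
  exact IntermediateField.eq_of_le_of_finrank_eq' le_top h2

end Fermat.Agent.S36.Haupt9
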