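import Mathlib
import Fermat.Agent.S36.Haupt9.C1Inst
import Fermat.Agent.S36.StableBaseFrob

/-!
# S36 / Haupt9 / NodalInst : the level-`2M` chart of `α u₉` is a nodal chart (`q = 2`)

The `u₉` twin of `S36/LevelQInstAltNodal`: instance of `S34/Modular/ChartZero.isNodalChart_zero`
at the coordinate `u' = Haupt9.u9E M E h9` (`9 ∣ M`, `2 ∤ M`) over `O = OE A E = A ∩ E` (`A` over
`2`, `E` a number field containing a primitive `M`-th root of unity, `O` a DVR), `ℓ = 2`, with
the Kronecker hypothesis `hK` discharged by `StableBase.hK_redM_of_coeffEmb` for `E` stable under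
a Frobenius element at `A`.  Coordinate binders: `Haupt9/C1Inst`.

* `hK_u9` : the Kronecker congruence `(red r)(x²) = (red s)²` on the level-`M` chart of `u₉`
  (literal `redM` form = hypothesis `hK` of `isNodalChart_zero`);
* `isNodalChart_zero_u9` : `Nodal.IsNodalChart π (α u₉) (ker redInf) (ker redZero)` - two distinct
  incomparable primes with `p_∞ ⊓ p_0 = (π)`, Dedekind quotients, `p_∞ ⊔ p_0` radical;
* `isNodalChart_zero_u9_of_stable` : the same for `E` stable under the decomposition group of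
  `A` (`GeomClass.stable`).
-/

set_option autoImplicit false
set_option linter.unusedSectionVars false
set_option linter.unusedVariables false
set_option linter.style.haveILetI false
set_option synthInstance.maxHeartbeats 400000
set_option maxHeartbeats 1000000

open ModularCurve Polynomial

noncomputable section

namespace Fermat.Agent.S36.Haupt9.NodalInst

open Fermat.Agent.S18.K1Defs Fermat.Agent.S18.K1Main Fermat.Agent.S30
open Fermat.Agent.S34.TwoPrimesRank Fermat.Agent.S34.HauptU.Plug Fermat.Agent.S34.TwoPrimesGauss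
open Fermat.Agent.S36.Haupt9 Fermat.Agent.S36.Haupt9.C1Inst

local notation "Qb" => AlgebraicClosure ℚ
local notation "Gq" => (AlgebraicClosure ℚ ≃ₐ[ℚ] AlgebraicClosure ℚ)

variable (A : ValuationSubring Qb) (M : ℕ) [NeZero M]
  (E : IntermediateField ℚ Qb) [FiniteDimensional ℚ E] [IsDiscreteValuationRing (OE A E)]

section Kronecker

variable [Algebra (OE A E) (LE M E)] [IsScalarTower (OE A E) E (LE M E)]
  [Algebra (OE A E) (LE (M * 2) E)] [IsScalarTower (OE A E) E (LE (M * 2) E)]

set_option maxHeartbeats 4000000 in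
/-- **`hK` at `u' = u₉`, `ℓ = 2`** : the Kronecker congruence on the level-`M` chart of `u₉`,
for `E` stable under a Frobenius element `φ` at `A`. -/
theorem hK_u9 (hA : A.LiesOverPrime 2) (h9 : 9 ∣ M) {φ : Gq}
    (hφ : A.IsFrobeniusAt φ 2) (hst : Fermat.Agent.S36.StableBase.Stable E φ)
    (π : OE A E) (hπ : Irreducible π) :
    ∀ r : Chart (OE A E) (u9E M E h9), ∃ s : Chart (OE A E) (u9E M E h9),
      qExpand (IsLocalRing.ResidueField (OE A E)) 2
          (redM π hπ (alphaHom M 2 E) (alphaHom_algebraMap M 2 E) (sigmaHom (M * 2) E)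
            (sigmaHom_algebraMap (M * 2) E) (sigmaHom_mem_fracField (M * 2) E A) (u9E M E h9)
            (u9 (OE A E)) (hσu_u9 M h9 A E) r)
        = redM π hπ (alphaHom M 2 E) (alphaHom_algebraMap M 2 E) (sigmaHom (M * 2) E)
            (sigmaHom_algebraMap (M * 2) E) (sigmaHom_mem_fracField (M * 2) E A) (u9E M E h9)
            (u9 (OE A E)) (hσu_u9 M h9 A E) s ^ 2 :=
  Fermat.Agent.S36.StableBase.hK_redM_of_coeffEmb A 2 Nat.prime_two hA hφ hst M π hπ
    (alphaHom M 2 E) (alphaHom_algebraMap M 2 E) (sigmaHom (M * 2) E)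
    (sigmaHom_algebraMap (M * 2) E) (sigmaHom_mem_fracField (M * 2) E A) (u9E M E h9)
    (u9 (OE A E)) (hσu_u9 M h9 A E) (Fermat.Agent.S34.Sat.sigma_alpha M 2 E) (u9 ℚ)
    (coeffEmb_u9 E).symm

end Kronecker

set_option maxHeartbeats 4000000 in
/-- **The level-`2M` chart of `α u₉` is a nodal chart** (`E` stable under a Frobenius element
`φ` at `A`). -/
theorem isNodalChart_zero_u9 (h9 : 9 ∣ M) (h2M : ¬ 2 ∣ M) (hA : A.LiesOverPrime 2) {φ : Gq}
    (hφ : A.IsFrobeniusAt φ 2) (hst : Fermat.Agent.S36.StableBase.Stable E φ)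
    (z : Qb) (hz : IsPrimitiveRoot z M) (hzE : z ∈ E) (π : OE A E) (hπ : Irreducible π) :
    letI := algebraOL (OE A E) E (LE M E)
    letI := algebraOL (OE A E) E (LE (M * 2) E)
    haveI := isScalarTower_OL (OE A E) E (LE M E)
    haveI := isScalarTower_OL (OE A E) E (LE (M * 2) E)
    Fermat.Agent.S34.Nodal.IsNodalChart π (alphaHom M 2 E (u9E M E h9))
      (RingHom.ker (redInf π hπ (alphaHom M 2 E) (sigmaHom (M * 2) E)
        (sigmaHom_algebraMap (M * 2) E) (sigmaHom_mem_fracField (M * 2) E A) (u9E M E h9)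
        (u9 (OE A E)) (hσu_u9 M h9 A E)))
      (RingHom.ker (redZero π hπ (alphaHom M 2 E) (sigmaHom (M * 2) E)
        (sigmaHom_algebraMap (M * 2) E) (sigmaHom_mem_fracField (M * 2) E A) (u9E M E h9)
        (u9 (OE A E)) (hσu_u9 M h9 A E) (wHom M 2 E Nat.prime_two h2M)
        (wHom_algebraMap M 2 E Nat.prime_two h2M) 2
        (sigmaHom_wHom_alpha M 2 E Nat.prime_two h2M))) := by
  letI := algebraOL (OE A E) E (LE M E)
  letI := algebraOL (OE A E) E (LE (M * 2) E)
  haveI := isScalarTower_OL (OE A E) E (LE M E)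
  haveI := isScalarTower_OL (OE A E) E (LE (M * 2) E)
  haveI : Fact (Nat.Prime 2) := ⟨Nat.prime_two⟩
  have hF := Fermat.Agent.S36.Haupt9.Fibre.chartFacts_u9_OE A M h9 h2M hA E z hz hzE π hπ
  exact Fermat.Agent.S34.Modular.ChartZero.isNodalChart_zero π hπ (alphaHom M 2 E)
    (alphaHom_algebraMap M 2 E) (sigmaHom (M * 2) E) (sigmaHom_algebraMap (M * 2) E)
    (sigmaHom_mem_fracField (M * 2) E A) (u9E M E h9) (u9 (OE A E)) (hσu_u9 M h9 A E)
    (wHom M 2 E Nat.prime_two h2M) (wHom_algebraMap M 2 E Nat.prime_two h2M) 2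
    (sigmaHom_wHom_alpha M 2 E Nat.prime_two h2M) (wHom_wHom M 2 E Nat.prime_two h2M)
    hF.prime_zero (hcop_u9 A E) (hord_u9 A E) le_rfl (hfrob_u9 A hA E)
    (hwu_u9 M h9 h2M A E) (hrank_u9 M h9 h2M A E) hF.dedekind_zero
    (hK_u9 A M E hA h9 hφ hst π hπ)

/-- **The level-`2M` chart of `α u₉` is a nodal chart**, for `E` stable under the decomposition
group of `A` (`GeomClass.stable`). -/
theorem isNodalChart_zero_u9_of_stable (h9 : 9 ∣ M) (h2M : ¬ 2 ∣ M) (hA : A.LiesOverPrime 2)
    (hst : ∀ τ ∈ A.decompositionSubgroup ℚ, Fermat.Agent.S36.StableBase.Stable E τ)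
    (z : Qb) (hz : IsPrimitiveRoot z M) (hzE : z ∈ E) (π : OE A E) (hπ : Irreducible π) :
    letI := algebraOL (OE A E) E (LE M E)
    letI := algebraOL (OE A E) E (LE (M * 2) E)
    haveI := isScalarTower_OL (OE A E) E (LE M E)
    haveI := isScalarTower_OL (OE A E) E (LE (M * 2) E)
    Fermat.Agent.S34.Nodal.IsNodalChart π (alphaHom M 2 E (u9E M E h9))
      (RingHom.ker (redInf π hπ (alphaHom M 2 E) (sigmaHom (M * 2) E)
        (sigmaHom_algebraMap (M * 2) E) (sigmaHom_mem_fracField (M * 2) E A) (u9E M E h9)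
        (u9 (OE A E)) (hσu_u9 M h9 A E)))
      (RingHom.ker (redZero π hπ (alphaHom M 2 E) (sigmaHom (M * 2) E)
        (sigmaHom_algebraMap (M * 2) E) (sigmaHom_mem_fracField (M * 2) E A) (u9E M E h9)
        (u9 (OE A E)) (hσu_u9 M h9 A E) (wHom M 2 E Nat.prime_two h2M)
        (wHom_algebraMap M 2 E Nat.prime_two h2M) 2
        (sigmaHom_wHom_alpha M 2 E Nat.prime_two h2M))) := by
  obtain ⟨φ, hφ⟩ := Fermat.Agent.Lib.Frobenius.exists_isFrobeniusAt A Nat.prime_two hA
  exact isNodalChart_zero_u9 A M E h9 h2M hA hφ (hst φ hφ.mem_decompositionSubgroup) z hz hzE π hπ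

end Fermat.Agent.S36.Haupt9.NodalInst
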